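/-
S56 / block (II), leaf (U) (helper17), part (B'): the LOCAL (norm-form) description of the inertia
subgroup of `Gal(PadicAlgCl q / ℚ_q)` and a second, purely local proof of `Unram.UnramData` for it.
(The canonical instance is helper27's `S56/PT/UnramInst.lean`, via `Places/Frob`; this file was
written in parallel and is kept as a library for its local dictionary.)

* `normInertia q` : the automorphisms acting trivially on the residue field, in norm form
  (`‖τ b - b‖ < 1` for every integer `b`);
* `comap_inertiaSubgroupIn_eq`, `localInertia_eq_normInertia` : the pullback of the frozen inertia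
  subgroup (= `Places.Dict.localInertia q`) is `normInertia q`;
* `normInertia_eq_iInf` : `normInertia q` is the group of automorphisms fixing all the unramified
  extensions `unramExt ℤ_[q] (PadicAlgCl q) n`;  `apply_eq_of_mem_normInertia`,
  `exists_unramified_approx`, `fixedField_normInertia_le`, `exists_le_En_of_le_fixedField`;
* `exists_frobLift` : a lift of all the local Frobenii (compactness of the Galois group);
* `unramData_krull`, `exists_unramData_localInertia` : the instance.
-/
import Fermat.Agent.S56.PT.Unram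
import Fermat.Agent.S55.LocalInt
import Fermat.Agent.S55.LocalDict
import Fermat.Agent.S55.InertiaConj
import Fermat.Agent.S55.Local.UnramTower
import Fermat.Agent.S55.Local.KrullLocal
import Fermat.Agent.S56.Places.Dict

set_option autoImplicit false
set_option linter.unusedSectionVars false

namespace Fermat.Agent.S56.PT.UnramInstNorm

open IntermediateField IsLocalRing Fermat.Agent.S55.Level Fermat.Agent.S55.GaloisLevel
  Fermat.Agent.S55.Local.Unram Fermat.Agent.S55.LocalInt Fermat.Agent.S55.LocalDict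
  Fermat.Agent.S56.PT.Unram

variable (q : ℕ) [Fact q.Prime]

local notation "Qbar" => AlgebraicClosure ℚ

/-! ### Inertia in norm form -/

/-- The automorphisms of `PadicAlgCl q` acting trivially on the residue field: `‖τ b - b‖ < 1` for
every integer `b`. -/
def normInertia : Subgroup (PadicAlgCl q ≃ₐ[ℚ_[q]] PadicAlgCl q) where
  carrier := {τ | ∀ b : PadicAlgCl q, ‖b‖ ≤ 1 → ‖τ b - b‖ < 1}
  mul_mem' := by
    intro σ τ hσ hτ b hb
    have h1 : ‖τ b‖ ≤ 1 := by rw [(isometry_algEquiv q τ).norm_map_of_map_zero (map_zero τ)]; exact hb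
    have h2 : (σ * τ) b - b = (σ (τ b) - τ b) + (τ b - b) := by
      rw [AlgEquiv.mul_apply]; ring
    rw [h2]
    exact lt_of_le_of_lt (IsUltrametricDist.norm_add_le_max _ _) (max_lt (hσ _ h1) (hτ b hb))
  one_mem' := by
    intro b _
    rw [AlgEquiv.one_apply, sub_self, norm_zero]
    exact one_pos
  inv_mem' := by
    intro τ hτ b hb
    have h0 : τ (τ⁻¹ b) = b := by
      rw [← AlgEquiv.mul_apply, mul_inv_cancel, AlgEquiv.one_apply]
    have h1 : ‖τ⁻¹ b‖ ≤ 1 := by
      rw [← (isometry_algEquiv q τ).norm_map_of_map_zero (map_zero τ), h0]; exact hb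
    have h2 := hτ _ h1
    rw [h0, ← norm_neg, neg_sub] at h2
    exact h2

theorem mem_normInertia_iff (τ : PadicAlgCl q ≃ₐ[ℚ_[q]] PadicAlgCl q) :
    τ ∈ normInertia q ↔ ∀ b : PadicAlgCl q, ‖b‖ ≤ 1 → ‖τ b - b‖ < 1 := Iff.rfl

theorem mem_nonunits_padicPlace_iff (x : Qbar) :
    x ∈ (padicPlace q).nonunits ↔ ‖padicEmbedding q x‖ < 1 := by
  rw [ValuationSubring.mem_nonunits_iff_or]
  constructor
  · rintro (rfl | h)
    · rw [map_zero, norm_zero]; exact one_pos
    · rw [mem_padicPlace_iff_absQbar, absQbar_apply, map_inv₀, norm_inv, not_le] at h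
      by_contra hge
      rw [not_lt] at hge
      exact absurd h (not_lt.mpr (inv_le_one_of_one_le₀ hge))
  · intro h
    by_cases hx : x = 0
    · exact Or.inl hx
    · right
      rw [mem_padicPlace_iff_absQbar, absQbar_apply, map_inv₀, norm_inv, not_le]
      have hpos : 0 < ‖padicEmbedding q x‖ := by
        rw [norm_pos_iff]
        exact (map_ne_zero_iff _ (padicEmbedding q).toRingHom.injective).2 hx
      exact (one_lt_inv₀ hpos).2 h

/-- **The frozen inertia subgroup, pulled back to the local Galois group, is the inertia subgroup in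
norm form.** -/
theorem comap_inertiaSubgroupIn_eq :
    ((padicPlace q).inertiaSubgroupIn ℚ).comap (localGaloisToGlobal q) = normInertia q := by
  ext τ
  rw [Subgroup.mem_comap, Fermat.Agent.S55.InertiaConj.mem_inertiaSubgroupIn_iff,
    mem_normInertia_iff]
  constructor
  · rintro ⟨-, h⟩ b hb
    obtain ⟨x, hx⟩ := (denseRange_padicEmbedding q).exists_dist_lt b one_pos
    rw [dist_eq_norm] at hx
    have hx1 : ‖padicEmbedding q x‖ ≤ 1 := by
      have e : padicEmbedding q x = b + -(b - padicEmbedding q x) := by ring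
      rw [e]
      refine (IsUltrametricDist.norm_add_le_max _ _).trans (max_le hb ?_)
      rw [norm_neg]
      exact hx.le
    have h1 := h x ((mem_padicPlace_iff_absQbar q).2 hx1)
    rw [mem_nonunits_padicPlace_iff, map_sub, padicEmbedding_localGaloisToGlobal] at h1
    have e : τ b - b = τ (b - padicEmbedding q x) +
        ((τ (padicEmbedding q x) - padicEmbedding q x) + -(b - padicEmbedding q x)) := by
      rw [map_sub]; ring
    rw [e]
    refine lt_of_le_of_lt (IsUltrametricDist.norm_add_le_max _ _) (max_lt ?_ ?_)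
    · rw [(isometry_algEquiv q τ).norm_map_of_map_zero (map_zero τ)]
      exact hx
    · refine lt_of_le_of_lt (IsUltrametricDist.norm_add_le_max _ _) (max_lt h1 ?_)
      rw [norm_neg]
      exact hx
  · intro h
    refine ⟨localGaloisToGlobal_mem_decompositionSubgroup q τ, fun x hx => ?_⟩
    rw [mem_nonunits_padicPlace_iff, map_sub, padicEmbedding_localGaloisToGlobal]
    exact h _ ((mem_padicPlace_iff_absQbar q).1 hx)

/-! ### Inertia fixes exactly the unramified extensions -/

/-- The unramified extension of degree `n` of `ℚ_q` inside `PadicAlgCl q`. -/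
noncomputable abbrev En (n : ℕ) : IntermediateField ℚ_[q] (PadicAlgCl q) :=
  unramExt ℤ_[q] (PadicAlgCl q) n

theorem isUnramifiedIn_En {n : ℕ} (hn : 0 < n) : IsUnramifiedIn ℤ_[q] (En q n) :=
  isUnramifiedIn_unramExt ℤ_[q] (PadicAlgCl q) hn

theorem En_zero : En q 0 = ⊥ := by
  rw [En, unramExt, dif_neg (lt_irrefl 0)]

/-- Direction A: inertia fixes the unramified extensions. -/
theorem apply_eq_of_mem_normInertia {τ : PadicAlgCl q ≃ₐ[ℚ_[q]] PadicAlgCl q}
    (hτ : τ ∈ normInertia q) {E : IntermediateField ℚ_[q] (PadicAlgCl q)}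
    (h : IsUnramifiedIn ℤ_[q] E) {x : PadicAlgCl q} (hx : x ∈ E) : τ x = x := by
  have hfd := h.1
  have hgal := h.isGalois
  have hcomm : ∀ y : E, ((τ.restrictNormal E y : E) : PadicAlgCl q) = τ (y : PadicAlgCl q) :=
    fun y => AlgEquiv.restrictNormal_commutes τ E y
  have key : τ.restrictNormal E = h.frob ^ 0 := by
    refine h.eq_frob_pow _ 0 fun b => ?_
    have hb := norm_le_one_of_mem E b
    have hσb : τ.restrictNormal E (b : E) ∈ integralClosure ℤ_[q] E := by
      rw [mem_integralClosure_iff_norm_le_one, hcomm,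
        (isometry_algEquiv q τ).norm_map_of_map_zero (map_zero τ)]
      exact hb
    refine ⟨⟨_, hσb⟩ - b, ?_, ?_⟩
    · rw [mem_maximalIdeal_iff_norm_lt_one]
      have e : (((⟨τ.restrictNormal E (b : E), hσb⟩ - b : integralClosure ℤ_[q] E) : E) :
          PadicAlgCl q) = τ ((b : E) : PadicAlgCl q) - ((b : E) : PadicAlgCl q) := by
        rw [← hcomm]
        push_cast
        rfl
      rw [e]
      exact hτ _ hb
    · rw [pow_zero, pow_one, add_sub_cancel]
  rw [pow_zero] at key
  have := hcomm ⟨x, hx⟩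
  rw [key] at this
  exact this.symm

/-- Every integer of `PadicAlgCl q` is congruent, modulo the maximal ideal, to an integer of an
unramified extension. -/
theorem exists_unramified_approx (b : PadicAlgCl q) (hb : ‖b‖ ≤ 1) :
    ∃ (E₀ : IntermediateField ℚ_[q] (PadicAlgCl q)) (_ : IsUnramifiedIn ℤ_[q] E₀),
      ∃ β ∈ E₀, ‖b - β‖ < 1 := by
  have hbint : IsIntegral ℚ_[q] b := Algebra.IsIntegral.isIntegral b
  have hfd : FiniteDimensional ℚ_[q] ℚ_[q]⟮b⟯ := adjoin.finiteDimensional hbint
  obtain ⟨E₀, h01, h02, h03⟩ := exists_isUnramifiedIn_le (O := ℤ_[q]) ℚ_[q]⟮b⟯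
  have hfd0 := h02.1
  let bb : integralClosure ℤ_[q] ℚ_[q]⟮b⟯ :=
    ⟨AdjoinSimple.gen ℚ_[q] b, (mem_integralClosure_iff_norm_le_one _ _).2 hb⟩
  let ψ := h02.isUnram.resHom (intIncl ℤ_[q] h01)
  have hψ : Function.Bijective ψ := by
    have hinj : Function.Injective ψ := ψ.toRingHom.injective
    refine ⟨hinj, ?_⟩
    have hfr : Module.finrank (ResidueField ℤ_[q]) (ResidueField (integralClosure ℤ_[q] E₀)) =
        Module.finrank (ResidueField ℤ_[q])
          (ResidueField (integralClosure ℤ_[q] ℚ_[q]⟮b⟯)) := by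
      rw [← h02.finrank_eq, h03]
    exact (LinearMap.injective_iff_surjective_of_finrank_eq_finrank
      (f := ψ.toLinearMap) hfr).mp hinj
  obtain ⟨β, hβ⟩ := hψ.2 (residue _ bb)
  obtain ⟨β₀, rfl⟩ := residue_surjective β
  rw [h02.isUnram.resHom_residue, ← sub_eq_zero, ← map_sub, residue_eq_zero_iff,
    mem_maximalIdeal_iff_norm_lt_one] at hβ
  refine ⟨E₀, h02, ((β₀ : E₀) : PadicAlgCl q), (β₀ : E₀).2, ?_⟩
  rw [← norm_neg, neg_sub]
  have e : (((intIncl ℤ_[q] h01 β₀ - bb : integralClosure ℤ_[q] ℚ_[q]⟮b⟯) : ℚ_[q]⟮b⟯) :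
      PadicAlgCl q) = ((β₀ : E₀) : PadicAlgCl q) - b := by
    push_cast
    rw [coe_intIncl]
    rfl
  rw [← e]
  exact hβ

/-- Direction B: an automorphism fixing all unramified extensions acts trivially on the residue
field. -/
theorem mem_normInertia_of_forall {τ : PadicAlgCl q ≃ₐ[ℚ_[q]] PadicAlgCl q}
    (hτ : ∀ E : IntermediateField ℚ_[q] (PadicAlgCl q), IsUnramifiedIn ℤ_[q] E →
      ∀ x ∈ E, τ x = x) : τ ∈ normInertia q := by
  intro b hb
  obtain ⟨E₀, h0, β, hβ, hbβ⟩ := exists_unramified_approx q b hb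
  have e : τ b - b = τ (b - β) + -(b - β) := by
    rw [map_sub, hτ E₀ h0 β hβ]; ring
  rw [e]
  refine lt_of_le_of_lt (IsUltrametricDist.norm_add_le_max _ _) (max_lt ?_ ?_)
  · rw [(isometry_algEquiv q τ).norm_map_of_map_zero (map_zero τ)]
    exact hbβ
  · rw [norm_neg]
    exact hbβ

/-- **Inertia is the group of automorphisms fixing all the unramified extensions.** -/
theorem normInertia_eq_iInf : normInertia q = ⨅ n : ℕ, (En q n).fixingSubgroup := by
  apply le_antisymm
  · refine le_iInf fun n => ?_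
    intro τ hτ
    rw [IntermediateField.mem_fixingSubgroup_iff]
    intro x hx
    rcases Nat.eq_zero_or_pos n with rfl | hn
    · rw [En_zero, IntermediateField.mem_bot] at hx
      obtain ⟨c, rfl⟩ := hx
      exact τ.commutes c
    · exact apply_eq_of_mem_normInertia q hτ (isUnramifiedIn_En q hn) hx
  · intro τ hτ
    refine mem_normInertia_of_forall q fun E hE x hx => ?_
    have hfd := hE.1
    have hpos : 0 < Module.finrank ℚ_[q] E := Module.finrank_pos
    have hE' : E = En q (Module.finrank ℚ_[q] E) := hE.eq_unramExt ℤ_[q] (PadicAlgCl q)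
    have h1 : τ ∈ (En q (Module.finrank ℚ_[q] E)).fixingSubgroup :=
      (iInf_le (fun n : ℕ => (En q n).fixingSubgroup) _) hτ
    rw [IntermediateField.mem_fixingSubgroup_iff] at h1
    exact h1 x (hE' ▸ hx)

/-! ### A Frobenius lift -/

theorem isUnramifiedIn_En_succ (k : ℕ) : IsUnramifiedIn ℤ_[q] (En q (k + 1)) :=
  isUnramifiedIn_En q (Nat.succ_pos k)

instance finiteDimensional_En_succ (k : ℕ) : FiniteDimensional ℚ_[q] (En q (k + 1)) :=
  (isUnramifiedIn_En_succ q k).1

instance isGalois_En_succ (k : ℕ) : IsGalois ℚ_[q] (En q (k + 1)) :=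
  (isUnramifiedIn_En_succ q k).isGalois

instance normal_En_succ (k : ℕ) : Normal ℚ_[q] (En q (k + 1)) :=
  (isGalois_En_succ q k).to_normal

/-- The lifts of the Frobenius of the unramified extension of degree `k + 1`. -/
def frobSet (k : ℕ) : Set (PadicAlgCl q ≃ₐ[ℚ_[q]] PadicAlgCl q) :=
  {g | ∀ x : En q (k + 1),
    g (x : PadicAlgCl q) = (((isUnramifiedIn_En_succ q k).frob x : En q (k + 1)) : PadicAlgCl q)}

theorem mem_frobSet_iff (k : ℕ) (g : PadicAlgCl q ≃ₐ[ℚ_[q]] PadicAlgCl q) :
    g ∈ frobSet q k ↔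
      AlgEquiv.restrictNormalHom (En q (k + 1)) g = (isUnramifiedIn_En_succ q k).frob := by
  constructor
  · intro hg
    ext x
    have h1 := AlgEquiv.restrictNormal_commutes g (En q (k + 1)) x
    exact h1.trans (hg x)
  · intro hg x
    have h1 := AlgEquiv.restrictNormal_commutes g (En q (k + 1)) x
    rw [← hg]
    exact h1.symm

theorem frobSet_nonempty (k : ℕ) : (frobSet q k).Nonempty := by
  obtain ⟨g, hg⟩ := AlgEquiv.restrictNormalHom_surjective (F := ℚ_[q]) (K₁ := En q (k + 1))
    (PadicAlgCl q) (isUnramifiedIn_En_succ q k).frob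
  exact ⟨g, (mem_frobSet_iff q k g).2 hg⟩

theorem frobSet_isClosed (k : ℕ) : IsClosed (frobSet q k) := by
  have h1 : frobSet q k = (AlgEquiv.restrictNormalHom (F := ℚ_[q]) (K₁ := PadicAlgCl q)
      (En q (k + 1))) ⁻¹' {(isUnramifiedIn_En_succ q k).frob} := by
    ext g
    rw [mem_frobSet_iff]
    rfl
  rw [h1]
  exact IsClosed.preimage (InfiniteGalois.restrictNormalHom_continuous (En q (k + 1)))
    isClosed_singleton

theorem frobSet_subset {k m : ℕ} (h : (k + 1) ∣ (m + 1)) : frobSet q m ⊆ frobSet q k := by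
  intro g hg x
  have hle : En q (k + 1) ≤ En q (m + 1) :=
    (unramExt_le_iff ℤ_[q] (PadicAlgCl q) (Nat.succ_pos k) (Nat.succ_pos m)).2 h
  have h1 := hg (IntermediateField.inclusion hle x)
  have h2 := (isUnramifiedIn_En_succ q k).frob_restrict (isUnramifiedIn_En_succ q m) hle x
  exact h1.trans h2

/-- **A Frobenius lift**: an automorphism of `PadicAlgCl q` inducing the Frobenius on every
unramified extension. -/
theorem exists_frobLift : ∃ φ : PadicAlgCl q ≃ₐ[ℚ_[q]] PadicAlgCl q, ∀ k : ℕ, φ ∈ frobSet q k := by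
  have hne := IsCompact.nonempty_iInter_of_directed_nonempty_isCompact_isClosed (frobSet q)
    (fun k m => ⟨(k + 1) * (m + 1) - 1, ?_, ?_⟩) (frobSet_nonempty q)
    (fun k => (frobSet_isClosed q k).isCompact) (frobSet_isClosed q)
  · obtain ⟨φ, hφ⟩ := hne
    exact ⟨φ, fun k => Set.mem_iInter.1 hφ k⟩
  · apply frobSet_subset
    have : (k + 1) * (m + 1) - 1 + 1 = (k + 1) * (m + 1) := Nat.sub_add_cancel (Nat.mul_pos
      (Nat.succ_pos k) (Nat.succ_pos m))
    rw [this]
    exact dvd_mul_right _ _
  · apply frobSet_subset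
    have : (k + 1) * (m + 1) - 1 + 1 = (k + 1) * (m + 1) := Nat.sub_add_cancel (Nat.mul_pos
      (Nat.succ_pos k) (Nat.succ_pos m))
    rw [this]
    exact dvd_mul_left _ _

theorem frobLift_pow_apply {φ : PadicAlgCl q ≃ₐ[ℚ_[q]] PadicAlgCl q} {k : ℕ}
    (hφ : φ ∈ frobSet q k) (j : ℕ) (x : En q (k + 1)) :
    (φ ^ j) (x : PadicAlgCl q) =
      ((((isUnramifiedIn_En_succ q k).frob ^ j) x : En q (k + 1)) : PadicAlgCl q) := by
  induction j generalizing x with
  | zero => rfl
  | succ j ih =>
    rw [pow_succ, pow_succ, AlgEquiv.mul_apply, AlgEquiv.mul_apply, hφ x, ih]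

/-! ### The instance -/

theorem En_directed : Directed (· ≤ ·) (En q) := by
  intro n m
  rcases Nat.eq_zero_or_pos n with rfl | hn
  · exact ⟨m, by rw [En_zero]; exact bot_le, le_rfl⟩
  rcases Nat.eq_zero_or_pos m with rfl | hm
  · exact ⟨n, le_rfl, by rw [En_zero]; exact bot_le⟩
  exact ⟨n * m,
    (unramExt_le_iff ℤ_[q] (PadicAlgCl q) hn (Nat.mul_pos hn hm)).2 (dvd_mul_right _ _),
    (unramExt_le_iff ℤ_[q] (PadicAlgCl q) hm (Nat.mul_pos hn hm)).2 (dvd_mul_left _ _)⟩

/-- The fixed field of the inertia group is the union of the unramified extensions. -/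
theorem fixedField_normInertia_le :
    IntermediateField.fixedField (normInertia q) ≤ ⨆ n : ℕ, En q n := by
  have h1 : (⨆ n : ℕ, En q n).fixingSubgroup ≤ normInertia q := by
    rw [normInertia_eq_iInf]
    exact le_iInf fun n => IntermediateField.fixingSubgroup_antitone (le_iSup (En q) n)
  have h2 := IntermediateField.fixedField_antitone h1
  rwa [InfiniteGalois.fixedField_fixingSubgroup] at h2

/-- A finite extension fixed by the inertia group lies in an unramified extension. -/
theorem exists_le_En_of_le_fixedField {E : IntermediateField ℚ_[q] (PadicAlgCl q)}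
    [FiniteDimensional ℚ_[q] E] (hE : E ≤ IntermediateField.fixedField (normInertia q)) :
    ∃ k : ℕ, E ≤ En q (k + 1) := by
  obtain ⟨θ, rfl⟩ := exists_eq_adjoin_simple_of_finiteDimensional E
  have hθ : θ ∈ (⨆ n : ℕ, En q n) :=
    fixedField_normInertia_le q (hE (mem_adjoin_simple_self ℚ_[q] θ))
  have hθ' : θ ∈ ((⨆ n : ℕ, En q n : IntermediateField ℚ_[q] (PadicAlgCl q)) :
      Set (PadicAlgCl q)) := hθ
  rw [IntermediateField.coe_iSup_of_directed (En_directed q), Set.mem_iUnion] at hθ'
  obtain ⟨n, hn⟩ := hθ'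
  rcases Nat.eq_zero_or_pos n with rfl | hpos
  · refine ⟨0, adjoin_simple_le_iff.2 ?_⟩
    have : En q 0 ≤ En q (0 + 1) := by rw [En_zero]; exact bot_le
    exact this hn
  · obtain ⟨k, rfl⟩ := Nat.exists_eq_succ_of_ne_zero hpos.ne'
    exact ⟨k, adjoin_simple_le_iff.2 hn⟩

theorem normal_normInertia : (normInertia q).Normal := by
  rw [normInertia_eq_iInf]
  refine Subgroup.normal_iInf_normal fun n => ?_
  rcases Nat.eq_zero_or_pos n with rfl | hn
  · rw [En_zero, IntermediateField.fixingSubgroup_bot]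
    infer_instance
  · have := (isUnramifiedIn_En q hn).isGalois
    exact (InfiniteGalois.normal_iff_isGalois (En q n)).2 inferInstance

/-- **The instance of `UnramData`** for `Gal(PadicAlgCl q / ℚ_q)` with its Krull level
structure, the inertia subgroup and any Frobenius lift. -/
theorem unramData_krull {φ : PadicAlgCl q ≃ₐ[ℚ_[q]] PadicAlgCl q}
    (hφ : ∀ k : ℕ, φ ∈ frobSet q k) :
    UnramData (krullLevel ℚ_[q] (PadicAlgCl q)) (normInertia q) φ where
  normal := normal_normInertia q
  gen := by
    rintro U ⟨hUn, hUo⟩ g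
    have hVo : IsKrullOpen ℚ_[q] (PadicAlgCl q) (normInertia q ⊔ U) := by
      obtain ⟨E, hE, hEU⟩ := hUo
      exact ⟨E, hE, hEU.trans le_sup_right⟩
    have hfd := hVo.finiteDimensional
    have hfix := hVo.fixingSubgroup_fixedField
    obtain ⟨k, hk⟩ := exists_le_En_of_le_fixedField q
      (E := IntermediateField.fixedField (normInertia q ⊔ U))
      (IntermediateField.fixedField_antitone le_sup_left)
    obtain ⟨j, -, hj⟩ := (isUnramifiedIn_En_succ q k).isUnram.exists_pow_frobGal ℚ_[q]
      (En q (k + 1)) (AlgEquiv.restrictNormalHom (En q (k + 1)) g)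
    refine ⟨j, ?_⟩
    rw [← hfix]
    apply IntermediateField.fixingSubgroup_antitone hk
    rw [IntermediateField.mem_fixingSubgroup_iff]
    intro x hx
    have h1 : g x = (φ ^ j) x := by
      have h2 := AlgEquiv.restrictNormal_commutes g (En q (k + 1)) ⟨x, hx⟩
      have h3 := frobLift_pow_apply q (hφ k) j ⟨x, hx⟩
      rw [h3]
      refine h2.symm.trans ?_
      show ((AlgEquiv.restrictNormalHom (En q (k + 1)) g ⟨x, hx⟩ : En q (k + 1)) :
        PadicAlgCl q) = _
      rw [hj]
      rfl
    rw [AlgEquiv.mul_apply, h1, ← AlgEquiv.mul_apply, inv_mul_cancel, AlgEquiv.one_apply]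
  div := by
    intro n hn
    obtain ⟨k, rfl⟩ := Nat.exists_eq_succ_of_ne_zero hn.ne'
    refine ⟨(En q (k + 1)).fixingSubgroup, fixingSubgroup_mem_krullLevel (En q (k + 1)),
      fun j hj => ?_⟩
    have hle : normInertia q ≤ (En q (k + 1)).fixingSubgroup := by
      rw [normInertia_eq_iInf]
      exact iInf_le (fun n : ℕ => (En q n).fixingSubgroup) (k + 1)
    rw [sup_eq_right.2 hle, IntermediateField.mem_fixingSubgroup_iff] at hj
    have h1 : (isUnramifiedIn_En_succ q k).frob ^ j = 1 := by
      ext x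
      have h2 := frobLift_pow_apply q (hφ k) j x
      rw [hj _ x.2] at h2
      exact h2.symm
    have h3 := orderOf_dvd_of_pow_eq_one h1
    rwa [(isUnramifiedIn_En_succ q k).orderOf_frob,
      finrank_unramExt ℤ_[q] (PadicAlgCl q) (Nat.succ_pos k)] at h3

/-! ### The instance in the frozen types of `Assembly.localData` -/

section Frozen

open ExtCitation Fermat.Agent.S56.Places.Dict

variable (q : Nat.Primes)

local instance factPrime_UI : Fact (q : ℕ).Prime := ⟨q.2⟩

/-- The canonical local inertia subgroup `Places.Dict.localInertia q` is the inertia subgroup in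
norm form. -/
theorem localInertia_eq_normInertia :
    localInertia q = (normInertia (q : ℕ) : Subgroup (primeLocalGaloisGroup q)) :=
  comap_inertiaSubgroupIn_eq (q : ℕ)

/-- The local Galois group at `q`, with the local level structure of `Assembly.localData`, the
frozen inertia subgroup and a lift of the local Frobenii, satisfies `UnramData` (second proof). -/
theorem exists_unramData_localInertia :
    ∃ φ : primeLocalGaloisGroup q,
      UnramData (localLevel (primeLocalToGlobal q)) (localInertia q) φ := by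
  obtain ⟨φ, hφ⟩ := exists_frobLift (q : ℕ)
  refine ⟨φ, ?_⟩
  rw [Fermat.Agent.S55.Local.KrullLocal.localLevel_primeLocalToGlobal_eq,
    localInertia_eq_normInertia]
  exact unramData_krull (q : ℕ) hφ

end Frozen

end Fermat.Agent.S56.PT.UnramInstNorm
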