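/-
S56 / block (II), Poitou–Tate consequences (helper25): LOCAL DUALITY IS PERFECT.

S55 proves the mono form of local Tate duality (`LevelDuality.Ψ_injective_of_restrict`:
`Ψ X m n : Hⁿ(X) → Hᵐ(X')^*` injective for `(m, n) = (2,0), (1,1), (0,2)` and every finite
dimensional discrete `X`).  Applying it to `X` and to `X'` (with `X'' ≅ X`) gives equality of
dimensions, hence bijectivity:

* `finrank_one_eq`, `finrank_two_eq_zero` : `dim H¹(X) = dim H¹(X')`, `dim H²(X) = dim H⁰(X')`;
* `Ψ_bijective` : the three maps `Ψ` are bijective;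
* `locDual_bijective` : the sums of the local duality maps of the cone,
  `∏ H¹(G_v, M) → (∏ H¹(G_v, M'))^*` and `∏ H⁰(G_v, M') → (∏ H²(G_v, M))^*`, are bijective.
-/
import Mathlib
import Fermat.Agent.S55.LevelDualityCone
import Fermat.Agent.S55.LevelDualityShapiro
import Fermat.Agent.S55.MainDefs

set_option autoImplicit false
set_option linter.unusedSectionVars false

namespace Fermat.Agent.S56.PT.LocalDuality

open CategoryTheory groupCohomology Rep Module Fermat.Agent.S55.Level Fermat.Agent.S55.Cone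
  Fermat.Agent.S55.DualTwist Fermat.Agent.S55.LevelDuality

universe u

/-! ### One group -/

section OneGroup

variable {k G : Type u} [Field k] [Group G] (𝒰 : LevelStructure G) (χ : G →* kˣ)
  [IsDiscrete 𝒰 (ofChar χ)] (t : levelCohomology 𝒰 (ofChar χ) 2 →ₗ[k] k)

/-- Local duality in mono form, for all finite dimensional discrete coefficients. -/
def MonoDuality : Prop :=
  ∀ (X : Rep.{u} k G) [IsDiscrete 𝒰 X] [FiniteDimensional k X] [IsDiscrete 𝒰 (X.dualTwist χ)],
    Function.Injective (Ψ 𝒰 χ t X 2 0 rfl) ∧ Function.Injective (Ψ 𝒰 χ t X 1 1 rfl) ∧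
      Function.Injective (Ψ 𝒰 χ t X 0 2 rfl)

/-- Finiteness of `H¹` for all finite dimensional discrete coefficients. -/
def FiniteH1 : Prop :=
  ∀ (X : Rep.{u} k G) [IsDiscrete 𝒰 X] [FiniteDimensional k X],
    FiniteDimensional k (levelCohomology 𝒰 X 1)

theorem monoDuality_of_restrict
    (hloc : LocalBaseHyp₁ 𝒰 χ t (restrictFamily 𝒰) (restrictFamily_refines 𝒰)) :
    MonoDuality 𝒰 χ t := fun X _ _ _ => Ψ_injective_of_restrict 𝒰 χ t hloc X

variable {𝒰 χ t}

section

variable (hΨ : MonoDuality 𝒰 χ t) (X : Rep.{u} k G) [IsDiscrete 𝒰 X] [FiniteDimensional k X]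

include hΨ

theorem finiteDimensional_two : FiniteDimensional k (levelCohomology 𝒰 X 2) :=
  have := isDiscrete_dualTwist 𝒰 χ X
  finiteDimensional_levelCohomology_two 𝒰 χ t X (hΨ X).2.2

/-- `dim H²(X) = dim H⁰(X')`. -/
theorem finrank_two_eq_zero [IsDiscrete 𝒰 (X.dualTwist χ)] :
    finrank k (levelCohomology 𝒰 X 2) = finrank k (levelCohomology 𝒰 (X.dualTwist χ) 0) := by
  have hfd' : FiniteDimensional k (X.dualTwist χ) :=
    inferInstanceAs (FiniteDimensional k (Module.Dual k X))
  have hdd : IsDiscrete 𝒰 ((X.dualTwist χ).dualTwist χ) := isDiscrete_dualTwist 𝒰 χ _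
  have h0 : FiniteDimensional k (levelCohomology 𝒰 (X.dualTwist χ) 0) :=
    finiteDimensional_levelCohomology_zero 𝒰 _
  have h2 : FiniteDimensional k (levelCohomology 𝒰 X 2) := finiteDimensional_two hΨ X
  have h2'' : FiniteDimensional k (levelCohomology 𝒰 ((X.dualTwist χ).dualTwist χ) 2) :=
    finiteDimensional_two hΨ _
  have e1 := LinearMap.finrank_le_finrank_of_injective (hΨ X).2.2
  have e2 := LinearMap.finrank_le_finrank_of_injective (hΨ (X.dualTwist χ)).1
  have e3 := LinearEquiv.finrank_eq (LinearEquiv.ofBijective _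
    (lmap_bijective_of_iso 𝒰 (doubleDualTwistIso χ X) 2))
  rw [Subspace.dual_finrank_eq] at e1 e2
  omega

/-- `dim H¹(X) = dim H¹(X')`. -/
theorem finrank_one_eq (hfd : FiniteH1 (k := k) 𝒰) [IsDiscrete 𝒰 (X.dualTwist χ)] :
    finrank k (levelCohomology 𝒰 X 1) = finrank k (levelCohomology 𝒰 (X.dualTwist χ) 1) := by
  have hfd' : FiniteDimensional k (X.dualTwist χ) :=
    inferInstanceAs (FiniteDimensional k (Module.Dual k X))
  have hdd : IsDiscrete 𝒰 ((X.dualTwist χ).dualTwist χ) := isDiscrete_dualTwist 𝒰 χ _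
  have hfd'' : FiniteDimensional k ((X.dualTwist χ).dualTwist χ) :=
    inferInstanceAs (FiniteDimensional k (Module.Dual k (X.dualTwist χ)))
  have h1 := hfd X
  have h1' := hfd (X.dualTwist χ)
  have h1'' := hfd ((X.dualTwist χ).dualTwist χ)
  have e1 := LinearMap.finrank_le_finrank_of_injective (hΨ X).2.1
  have e2 := LinearMap.finrank_le_finrank_of_injective (hΨ (X.dualTwist χ)).2.1
  have e3 := LinearEquiv.finrank_eq (LinearEquiv.ofBijective _
    (lmap_bijective_of_iso 𝒰 (doubleDualTwistIso χ X) 1))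
  rw [Subspace.dual_finrank_eq] at e1 e2
  omega

/-- **Local Tate duality, perfect form**: the three duality maps are bijective. -/
theorem Ψ_bijective (hfd : FiniteH1 (k := k) 𝒰) [IsDiscrete 𝒰 (X.dualTwist χ)] :
    Function.Bijective (Ψ 𝒰 χ t X 2 0 rfl) ∧ Function.Bijective (Ψ 𝒰 χ t X 1 1 rfl) ∧
      Function.Bijective (Ψ 𝒰 χ t X 0 2 rfl) := by
  have hfd' : FiniteDimensional k (X.dualTwist χ) :=
    inferInstanceAs (FiniteDimensional k (Module.Dual k X))
  have hdd : IsDiscrete 𝒰 ((X.dualTwist χ).dualTwist χ) := isDiscrete_dualTwist 𝒰 χ _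
  have h0 : FiniteDimensional k (levelCohomology 𝒰 X 0) :=
    finiteDimensional_levelCohomology_zero 𝒰 _
  have h0' : FiniteDimensional k (levelCohomology 𝒰 (X.dualTwist χ) 0) :=
    finiteDimensional_levelCohomology_zero 𝒰 _
  have h1 := hfd X
  have h1' := hfd (X.dualTwist χ)
  have h2 : FiniteDimensional k (levelCohomology 𝒰 X 2) := finiteDimensional_two hΨ X
  have h2' : FiniteDimensional k (levelCohomology 𝒰 (X.dualTwist χ) 2) :=
    finiteDimensional_two hΨ _
  refine ⟨⟨(hΨ X).1, ?_⟩, ⟨(hΨ X).2.1, ?_⟩, ⟨(hΨ X).2.2, ?_⟩⟩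
  · refine (LinearMap.injective_iff_surjective_of_finrank_eq_finrank ?_).1 (hΨ X).1
    rw [Subspace.dual_finrank_eq]
    have e := finrank_two_eq_zero hΨ (X.dualTwist χ)
    have e3 := LinearEquiv.finrank_eq (LinearEquiv.ofBijective _
      (lmap_bijective_of_iso 𝒰 (doubleDualTwistIso χ X) 0))
    omega
  · refine (LinearMap.injective_iff_surjective_of_finrank_eq_finrank ?_).1 (hΨ X).2.1
    rw [Subspace.dual_finrank_eq]
    exact finrank_one_eq hΨ X hfd
  · refine (LinearMap.injective_iff_surjective_of_finrank_eq_finrank ?_).1 (hΨ X).2.2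
    rw [Subspace.dual_finrank_eq]
    exact finrank_two_eq_zero hΨ X

end

end OneGroup

/-! ### The local duality maps of the cone -/

section Cone

variable {k G : Type u} [Field k] [Group G] {𝒰 : LevelStructure G} (D : LocalData 𝒰)
  [DecidableEq D.ι] [Finite D.ι] (χ : G →* kˣ) [IsDiscrete 𝒰 (ofChar χ)]
  (tr : Hc D (ofChar χ) 3 →ₗ[k] k)
  (M : Rep.{u} k G) [IsDiscrete 𝒰 M] [FiniteDimensional k M] [IsDiscrete 𝒰 (M.dualTwist χ)]

/-- The local hypotheses: local duality for the coefficients `k` over the level subgroups of the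
local groups, with respect to the local invariants of `tr`, and finiteness of the local `H¹`. -/
structure LocalHyp : Prop where
  base : ∀ v, LocalBaseHyp₁ (D.𝒱 v) (χ.comp (D.r v)) (invAt D tr v)
    (restrictFamily (D.𝒱 v)) (restrictFamily_refines (D.𝒱 v))
  fin : ∀ v, FiniteH1 (k := k) (D.𝒱 v)

variable {D χ tr}

theorem LocalHyp.mono (h : LocalHyp D χ tr) (v : D.ι) :
    MonoDuality (D.𝒱 v) (χ.comp (D.r v)) (invAt D tr v) :=
  monoDuality_of_restrict _ _ _ (h.base v)

variable (h : LocalHyp D χ tr)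

include h

theorem finiteDimensional_loc (v : D.ι) (n : ℕ) (hn : n ≤ 2) :
    FiniteDimensional k (levelCohomology (D.𝒱 v) (Rep.res (D.r v) M) n) := by
  have : FiniteDimensional k (Rep.res (D.r v) M) := ‹FiniteDimensional k M›
  interval_cases n
  · exact finiteDimensional_levelCohomology_zero _ _
  · exact h.fin v _
  · exact finiteDimensional_two (h.mono v) _

/-- `dim H¹(G_v, M) = dim H¹(G_v, M')`. -/
theorem finrank_loc_one_eq (v : D.ι) :
    finrank k (levelCohomology (D.𝒱 v) (Rep.res (D.r v) M) 1) =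
      finrank k (levelCohomology (D.𝒱 v) (Rep.res (D.r v) (M.dualTwist χ)) 1) := by
  have : FiniteDimensional k (Rep.res (D.r v) M) := ‹FiniteDimensional k M›
  have hd : IsDiscrete (D.𝒱 v) ((Rep.res (D.r v) M).dualTwist (χ.comp (D.r v))) :=
    isDiscrete_dualTwist _ _ _
  rw [finrank_one_eq (h.mono v) (Rep.res (D.r v) M) (h.fin v)]
  exact (LinearEquiv.finrank_eq (LinearEquiv.ofBijective _
    (lmap_bijective_of_iso (D.𝒱 v) (resDualTwistIso χ M (D.r v)) 1))).symm

/-- `dim H²(G_v, M) = dim H⁰(G_v, M')`. -/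
theorem finrank_loc_two_eq (v : D.ι) :
    finrank k (levelCohomology (D.𝒱 v) (Rep.res (D.r v) M) 2) =
      finrank k (levelCohomology (D.𝒱 v) (Rep.res (D.r v) (M.dualTwist χ)) 0) := by
  have : FiniteDimensional k (Rep.res (D.r v) M) := ‹FiniteDimensional k M›
  have hd : IsDiscrete (D.𝒱 v) ((Rep.res (D.r v) M).dualTwist (χ.comp (D.r v))) :=
    isDiscrete_dualTwist _ _ _
  rw [finrank_two_eq_zero (h.mono v) (Rep.res (D.r v) M)]
  exact (LinearEquiv.finrank_eq (LinearEquiv.ofBijective _
    (lmap_bijective_of_iso (D.𝒱 v) (resDualTwistIso χ M (D.r v)) 0))).symm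

/-- **The sum of the local duality maps `∏ H¹(G_v, M) → (∏ H¹(G_v, M'))^*` is bijective.** -/
theorem locDual_bijective_one_one :
    Function.Bijective
      (locDual D (evalPairing' χ M) (evalPairing'_equivariant χ M) 1 1 2 rfl tr) := by
  have : Fintype D.ι := Fintype.ofFinite _
  have hfdM' : FiniteDimensional k (M.dualTwist χ) :=
    inferInstanceAs (FiniteDimensional k (Module.Dual k M))
  have hdd : IsDiscrete 𝒰 ((M.dualTwist χ).dualTwist χ) := isDiscrete_dualTwist 𝒰 χ _
  have h1 : ∀ v, FiniteDimensional k (levelCohomology (D.𝒱 v) (Rep.res (D.r v) M) 1) :=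
    fun v => finiteDimensional_loc M h v 1 (by norm_num)
  have h1' : ∀ v, FiniteDimensional k
      (levelCohomology (D.𝒱 v) (Rep.res (D.r v) (M.dualTwist χ)) 1) :=
    fun v => finiteDimensional_loc (M.dualTwist χ) h v 1 (by norm_num)
  have hs := (locDual_surjective_of_localBase D χ tr M h.base h1').2
  refine ⟨(LinearMap.injective_iff_surjective_of_finrank_eq_finrank ?_).2 hs, hs⟩
  rw [Subspace.dual_finrank_eq, Module.finrank_pi_fintype, Module.finrank_pi_fintype]
  exact Finset.sum_congr rfl fun v _ => finrank_loc_one_eq M h v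

/-- **The sum of the local duality maps `∏ H⁰(G_v, M') → (∏ H²(G_v, M))^*` is bijective.** -/
theorem locDual_bijective_zero_two :
    Function.Bijective
      (locDual D (evalPairing χ M) (evalPairing_equivariant χ M) 0 2 2 rfl tr) := by
  have : Fintype D.ι := Fintype.ofFinite _
  have hfdM' : FiniteDimensional k (M.dualTwist χ) :=
    inferInstanceAs (FiniteDimensional k (Module.Dual k M))
  have hdd : IsDiscrete 𝒰 ((M.dualTwist χ).dualTwist χ) := isDiscrete_dualTwist 𝒰 χ _
  have h2 : ∀ v, FiniteDimensional k (levelCohomology (D.𝒱 v) (Rep.res (D.r v) M) 2) :=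
    fun v => finiteDimensional_loc M h v 2 le_rfl
  have h0' : ∀ v, FiniteDimensional k
      (levelCohomology (D.𝒱 v) (Rep.res (D.r v) (M.dualTwist χ)) 0) :=
    fun v => finiteDimensional_loc (M.dualTwist χ) h v 0 (by norm_num)
  have h1' : ∀ v, FiniteDimensional k
      (levelCohomology (D.𝒱 v) (Rep.res (D.r v) (M.dualTwist χ)) 1) :=
    fun v => finiteDimensional_loc (M.dualTwist χ) h v 1 (by norm_num)
  have hs := (locDual_surjective_of_localBase D χ tr M h.base h1').1
  refine ⟨(LinearMap.injective_iff_surjective_of_finrank_eq_finrank ?_).2 hs, hs⟩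
  rw [Subspace.dual_finrank_eq, Module.finrank_pi_fintype, Module.finrank_pi_fintype]
  exact Finset.sum_congr rfl fun v _ => (finrank_loc_two_eq M h v).symm

end Cone

end Fermat.Agent.S56.PT.LocalDuality
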