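/-
S56 / block (II), leaf (U) (helper17): UNRAMIFIED CLASSES in level cohomology, abstractly.

Setting: a group `G` with a level structure `𝒰`, a normal subgroup `I` ("inertia") and an element
`φ` ("a Frobenius lift"), packaged in `UnramData 𝒰 I φ`:

* `gen` : for every `U ∈ 𝒰` the finite group `G ⧸ (I ⊔ U)` is generated by the image of `φ`;
* `div` : for every `n > 0` there is `U ∈ 𝒰` such that the order of `φ` in `G ⧸ (I ⊔ U)` is
  divisible by `n`  (`G ⧸ I ≅ Ẑ`).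

For a discrete representation `X` over a field `k` of positive characteristic:

* `H1ur 𝒰 I X ≤ H¹(𝒰, X)` : the classes having a level cocycle representative VANISHING ON `I`
  (`levelH1π_mem_H1ur`, `mem_H1ur_iff`);  no hypothesis on the action of `I` on `X`;
* **(U1)** `finrank_H1ur` : `dim H1ur X = dim H⁰(𝒰, X)` for finite dimensional `X`
  (and `H1ur X` is finite dimensional);
* **(U2)** `pairH_eq_zero_of_mem_H1ur` : `a ∪ b = 0` in `H²(𝒰, C)` for `a ∈ H1ur A`, `b ∈ H1ur B` and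
  ANY equivariant bilinear `A × B → C` of discrete representations (`H²(Ẑ, -) = 0`, made explicit);
* **(U3)** `pairH_lmap_left` : adjointness of the cup product for adjoint coefficient maps;
  `lmap_mem_H1ur` : functoriality of `H1ur`;  `H1ur_le_range_lmap` (U3') : unramified classes come
  from any subrepresentation containing the `I`-invariants.
-/
import Fermat.Agent.S55.ConePairing
import Fermat.Agent.S55.LevelH1
import Fermat.Agent.S55.DevissageRep
import Fermat.Agent.S55.LevelDuality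

set_option autoImplicit false
set_option linter.unusedSectionVars false

namespace Fermat.Agent.S56.PT.Unram

open CategoryTheory groupCohomology Fermat.Agent.S55.Level Fermat.Agent.S55.CochainTools
  Fermat.Agent.S55.Cone Fermat.Agent.S55.Cup

universe u

/-! ### The hypothesis package -/

/-- "`I` is the inertia subgroup and `φ` a Frobenius lift": `I` is normal, `G ⧸ (I ⊔ U)` is
generated by `φ` for every `U` of the level structure, and the orders of `φ` in these quotients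
are divisible by every positive integer. -/
structure UnramData {G : Type u} [Group G] (𝒰 : LevelStructure G) (I : Subgroup G) (φ : G) :
    Prop where
  normal : I.Normal
  gen : ∀ U ∈ 𝒰.sets, ∀ g : G, ∃ j : ℕ, (φ ^ j)⁻¹ * g ∈ I ⊔ U
  div : ∀ n : ℕ, 0 < n → ∃ U ∈ 𝒰.sets, ∀ j : ℕ, φ ^ j ∈ I ⊔ U → n ∣ j

section Index

variable {G : Type u} [Group G] {𝒰 : LevelStructure G} {I : Subgroup G} {φ : G}

theorem UnramData.sup_normal (hd : UnramData 𝒰 I φ) {U : Subgroup G} (hU : U ∈ 𝒰.sets) :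
    (I ⊔ U).Normal := by
  have := hd.normal
  have := 𝒰.normal U hU
  infer_instance

/-- Some positive power of `φ` lies in `I ⊔ U`. -/
theorem UnramData.exists_pow_mem (_hd : UnramData 𝒰 I φ) {U : Subgroup G} (hU : U ∈ 𝒰.sets) :
    ∃ m : ℕ, 0 < m ∧ φ ^ m ∈ I ⊔ U := by
  have := 𝒰.finiteIndex U hU
  have hfi : (I ⊔ U).FiniteIndex := Subgroup.finiteIndex_of_le (le_sup_right : U ≤ I ⊔ U)
  obtain ⟨m, hm, -, hmem⟩ := Subgroup.exists_pow_mem_of_index_ne_zero hfi.index_ne_zero φ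
  exact ⟨m, hm, hmem⟩

/-- **The index function**: for every period `M > 0` and every `U₀ ∈ 𝒰` there are `U ≤ U₀` in `𝒰`
and `j : G → ℕ` with `g ∈ φ ^ (j g) • (I ⊔ U)`, and `j g` is determined modulo `M` by this. -/
theorem UnramData.exists_index (hd : UnramData 𝒰 I φ) {M : ℕ} (hM : 0 < M) {U₀ : Subgroup G}
    (hU₀ : U₀ ∈ 𝒰.sets) :
    ∃ U ∈ 𝒰.sets, U ≤ U₀ ∧ ∃ j : G → ℕ, (∀ g, (φ ^ j g)⁻¹ * g ∈ I ⊔ U) ∧
      ∀ (g : G) (i : ℕ), (φ ^ i)⁻¹ * g ∈ I ⊔ U → i ≡ j g [MOD M] := by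
  obtain ⟨U₁, hU₁, hdiv⟩ := hd.div M hM
  obtain ⟨U, hU, hUle⟩ := 𝒰.directed U₀ hU₀ U₁ hU₁
  have hle : I ⊔ U ≤ I ⊔ U₁ := sup_le_sup_left (hUle.trans inf_le_right) I
  choose j hj using hd.gen U hU
  refine ⟨U, hU, hUle.trans inf_le_left, j, hj, fun g i hi => ?_⟩
  have h1 := hj g
  rcases le_total i (j g) with h | h
  · rw [Nat.modEq_iff_dvd' h]
    apply hdiv
    apply hle
    have h2 : φ ^ (j g - i) = (φ ^ i)⁻¹ * g * ((φ ^ j g)⁻¹ * g)⁻¹ := by
      rw [pow_sub _ h]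
      group
    rw [h2]
    exact (I ⊔ U).mul_mem hi ((I ⊔ U).inv_mem h1)
  · apply Nat.ModEq.symm
    rw [Nat.modEq_iff_dvd' h]
    apply hdiv
    apply hle
    have h2 : φ ^ (i - j g) = (φ ^ j g)⁻¹ * g * ((φ ^ i)⁻¹ * g)⁻¹ := by
      rw [pow_sub _ h]
      group
    rw [h2]
    exact (I ⊔ U).mul_mem h1 ((I ⊔ U).inv_mem hi)

/-- An index function of period `M` at level `U`: `g ∈ φ ^ (j g) • (I ⊔ U)`, and `j g` is
determined modulo `M` by this property. -/
structure IndexFn (I : Subgroup G) (φ : G) (U : Subgroup G) (M : ℕ) (j : G → ℕ) : Prop where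
  mem : ∀ g, (φ ^ j g)⁻¹ * g ∈ I ⊔ U
  uniq : ∀ (g : G) (i : ℕ), (φ ^ i)⁻¹ * g ∈ I ⊔ U → i ≡ j g [MOD M]

namespace IndexFn

variable {U : Subgroup G} {M : ℕ} {j : G → ℕ} (hj : IndexFn I φ U M j)

include hj

theorem mul_right (g : G) {v : G} (hv : v ∈ I ⊔ U) : j (g * v) ≡ j g [MOD M] := by
  apply Nat.ModEq.symm
  apply hj.uniq
  rw [← mul_assoc]
  exact (I ⊔ U).mul_mem (hj.mem g) hv

theorem of_mem {v : G} (hv : v ∈ I ⊔ U) : j v ≡ 0 [MOD M] := by
  apply Nat.ModEq.symm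
  apply hj.uniq
  simpa using hv

theorem pow_self (i : ℕ) : j (φ ^ i) ≡ i [MOD M] := by
  apply Nat.ModEq.symm
  apply hj.uniq
  rw [inv_mul_cancel]
  exact (I ⊔ U).one_mem

theorem self : j φ ≡ 1 [MOD M] := by
  have := hj.pow_self 1
  rwa [pow_one] at this

theorem mul [hn : (I ⊔ U).Normal] (g h : G) : j (g * h) ≡ j g + j h [MOD M] := by
  apply Nat.ModEq.symm
  apply hj.uniq
  have h1 : (φ ^ (j g + j h))⁻¹ * (g * h) =
      (φ ^ j h)⁻¹ * ((φ ^ j g)⁻¹ * g) * ((φ ^ j h)⁻¹)⁻¹ * ((φ ^ j h)⁻¹ * h) := by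
    rw [pow_add]
    group
  rw [h1]
  exact (I ⊔ U).mul_mem (hn.conj_mem _ (hj.mem g) _) (hj.mem h)

end IndexFn

theorem periodic_congr {α : Type*} {e : ℕ → α} {M : ℕ} (he : Function.Periodic e M) {i i' : ℕ}
    (h : i ≡ i' [MOD M]) : e i = e i' := by
  rw [← he.map_mod_nat i, ← he.map_mod_nat i']
  exact congrArg e h

theorem UnramData.exists_indexFn (hd : UnramData 𝒰 I φ) {M : ℕ} (hM : 0 < M) {U₀ : Subgroup G}
    (hU₀ : U₀ ∈ 𝒰.sets) : ∃ U ∈ 𝒰.sets, U ≤ U₀ ∧ ∃ j : G → ℕ, IndexFn I φ U M j := by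
  obtain ⟨U, hU, hle, j, h1, h2⟩ := hd.exists_index hM hU₀
  exact ⟨U, hU, hle, j, ⟨h1, h2⟩⟩

end Index

/-! ### `H²` of a procyclic quotient vanishes: the explicit primitive -/

section Core

variable {k G : Type u} [CommRing k] [Group G] {𝒰 : LevelStructure G} {I : Subgroup G} {φ : G}

/-- The primitive of a 2-cocycle along the powers of `φ`. -/
def prim (C : Rep.{u} k G) (φ : G) (F : G × G → C) : ℕ → C
  | 0 => F (1, 1)
  | i + 1 => prim C φ F i - F (φ ^ i, φ)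

theorem prim_zero (C : Rep.{u} k G) (φ : G) (F : G × G → C) : prim C φ F 0 = F (1, 1) := rfl

theorem prim_succ (C : Rep.{u} k G) (φ : G) (F : G × G → C) (i : ℕ) :
    prim C φ F (i + 1) = prim C φ F i - F (φ ^ i, φ) := rfl

/-- `prim` is a primitive of `F` on the powers of `φ`. -/
theorem prim_spec (C : Rep.{u} k G) (φ : G) {F : G × G → C} (hF : F ∈ cocycles₂ C) (i j : ℕ) :
    C.ρ (φ ^ i) (prim C φ F j) - prim C φ F (i + j) + prim C φ F i = F (φ ^ i, φ ^ j) := by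
  induction j with
  | zero =>
    rw [prim_zero, add_zero, pow_zero, sub_add_cancel]
    exact (cocycles₂_map_one_snd ⟨F, hF⟩ (φ ^ i)).symm
  | succ j ih =>
    have h1 := (mem_cocycles₂_iff F).1 hF (φ ^ i) (φ ^ j) φ
    rw [← pow_add, ← pow_succ] at h1
    rw [← add_assoc, prim_succ, prim_succ, map_sub]
    have h2 : C.ρ (φ ^ i) (prim C φ F j) - C.ρ (φ ^ i) (F (φ ^ j, φ)) -
        (prim C φ F (i + j) - F (φ ^ (i + j), φ)) + prim C φ F i =
        (C.ρ (φ ^ i) (prim C φ F j) - prim C φ F (i + j) + prim C φ F i) +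
          (F (φ ^ (i + j), φ) - C.ρ (φ ^ i) (F (φ ^ j, φ))) := by abel
    rw [h2, ih]
    have h3 : F (φ ^ (i + j), φ) = C.ρ (φ ^ i) (F (φ ^ j, φ)) + F (φ ^ i, φ ^ (j + 1)) -
        F (φ ^ i, φ ^ j) := by
      rw [← h1]; abel
    rw [h3]
    abel

section Periodic

variable (C : Rep.{u} k G) (φ : G) {F : G × G → C} {V : Subgroup G}

theorem prim_fixed (hfix : ∀ g h, ∀ v ∈ V, C.ρ v (F (g, h)) = F (g, h)) (i : ℕ) :
    ∀ v ∈ V, C.ρ v (prim C φ F i) = prim C φ F i := by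
  induction i with
  | zero => exact fun v hv => hfix 1 1 v hv
  | succ i ih =>
    intro v hv
    rw [prim_succ, map_sub, ih v hv, hfix _ _ v hv]

theorem prim_add_period (hinv : ∀ g h, ∀ v ∈ V, ∀ w ∈ V, F (g * v, h * w) = F (g, h)) {m : ℕ}
    (hm : φ ^ m ∈ V) (i : ℕ) :
    prim C φ F (i + m) = prim C φ F i + (prim C φ F m - prim C φ F 0) := by
  induction i with
  | zero => rw [zero_add]; abel
  | succ i ih =>
    have h1 : i + 1 + m = (i + m) + 1 := by omega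
    have h2 : F (φ ^ (i + m), φ) = F (φ ^ i, φ) := by
      have := hinv (φ ^ i) φ (φ ^ m) hm 1 V.one_mem
      rwa [← pow_add, mul_one] at this
    rw [h1, prim_succ, ih, h2, prim_succ]
    abel

theorem prim_add_mul_period (hinv : ∀ g h, ∀ v ∈ V, ∀ w ∈ V, F (g * v, h * w) = F (g, h)) {m : ℕ}
    (hm : φ ^ m ∈ V) (i t : ℕ) :
    prim C φ F (i + m * t) = prim C φ F i + t • (prim C φ F m - prim C φ F 0) := by
  induction t with
  | zero => simp
  | succ t ih =>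
    have h1 : i + m * (t + 1) = (i + m * t) + m := by ring
    rw [h1, prim_add_period C φ hinv hm, ih, succ_nsmul]
    abel

theorem prim_periodic (hinv : ∀ g h, ∀ v ∈ V, ∀ w ∈ V, F (g * v, h * w) = F (g, h)) {m : ℕ}
    (hm : φ ^ m ∈ V) {N : ℕ} (hNk : (N : k) = 0) :
    Function.Periodic (prim C φ F) (m * N) := by
  intro i
  rw [prim_add_mul_period C φ hinv hm, ← Nat.cast_smul_eq_nsmul k, hNk, zero_smul, add_zero]

end Periodic

/-- **`H²(Ẑ, -) = 0`, explicitly**: a 2-cocycle which is right invariant under `I ⊔ U` in both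
variables, with values fixed by `I ⊔ U`, is the coboundary of a LEVEL 1-cochain. -/
theorem exists_isLevel₁_d₁₂_eq (hd : UnramData 𝒰 I φ) {N : ℕ} (hN : 0 < N) (hNk : (N : k) = 0)
    (C : Rep.{u} k G) {F : G × G → C} (hF : F ∈ cocycles₂ C) {U : Subgroup G} (hU : U ∈ 𝒰.sets)
    (hinv : ∀ g h, ∀ v ∈ I ⊔ U, ∀ w ∈ I ⊔ U, F (g * v, h * w) = F (g, h))
    (hfix : ∀ g h, ∀ v ∈ I ⊔ U, C.ρ v (F (g, h)) = F (g, h)) :
    ∃ f : G → C, IsLevel₁ 𝒰 f ∧ (d₁₂ C).hom f = F := by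
  obtain ⟨m, hm, hmem⟩ := hd.exists_pow_mem hU
  have hper := prim_periodic C φ hinv hmem hNk
  obtain ⟨U', hU', hle, j, hj⟩ := hd.exists_indexFn (Nat.mul_pos hm hN) hU
  have hVle : I ⊔ U' ≤ I ⊔ U := sup_le_sup_left hle I
  have hn : (I ⊔ U').Normal := hd.sup_normal hU'
  refine ⟨fun g => prim C φ F (j g), ⟨U', hU', fun g s hs => ?_⟩, ?_⟩
  · exact periodic_congr hper (hj.mul_right g (le_sup_right (a := I) hs))
  · funext ⟨g, h⟩
    rw [d₁₂_hom_apply]
    show C.ρ g (prim C φ F (j h)) - prim C φ F (j (g * h)) + prim C φ F (j g) = F (g, h)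
    have hg : g = φ ^ j g * ((φ ^ j g)⁻¹ * g) := by group
    have hh : h = φ ^ j h * ((φ ^ j h)⁻¹ * h) := by group
    have e1 : C.ρ g (prim C φ F (j h)) = C.ρ (φ ^ j g) (prim C φ F (j h)) := by
      conv_lhs => rw [hg, map_mul]
      show C.ρ (φ ^ j g) (C.ρ _ _) = _
      rw [prim_fixed C φ hfix (j h) _ (hVle (hj.mem g))]
    have e2 : prim C φ F (j (g * h)) = prim C φ F (j g + j h) := periodic_congr hper (hj.mul g h)
    have e3 : F (g, h) = F (φ ^ j g, φ ^ j h) := by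
      conv_lhs => rw [hg, hh]
      exact hinv _ _ _ (hVle (hj.mem g)) _ (hVle (hj.mem h))
    rw [e1, e2, e3]
    exact prim_spec C φ hF (j g) (j h)

end Core

/-! ### Classes of level cocycles in terms of `cls` (any universe) -/

section Cls

variable {k G : Type u} [CommRing k] [Group G] (𝒰 : LevelStructure G) (X : Rep.{u} k G)
  [IsDiscrete 𝒰 X]

theorem mem_Z_of_levelCocycles (n : ℕ) (z : levelCocycles 𝒰 X n) :
    (show (levelComplex 𝒰 X).X n from (⟨z.1, z.2.1⟩ : levelCochains 𝒰 X n)) ∈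
      Z (levelComplex 𝒰 X) n := by
  rw [mem_Z_iff]
  simp only [levelComplex, CochainComplex.of_d]
  exact Subtype.ext z.2.2

/-- `levelπ` in terms of `CochainTools.cls`. -/
theorem levelπ_eq_cls' (n : ℕ) (z : levelCocycles 𝒰 X n) :
    (levelπ 𝒰 X n).hom z = cls (levelComplex 𝒰 X) n ⟨_, mem_Z_of_levelCocycles 𝒰 X n z⟩ := by
  show ((levelComplex 𝒰 X).homologyπ n).hom ((levelCyclesMk 𝒰 X n).hom z) = _
  rw [← cls_cyclesEquiv]
  congr 1
  apply Subtype.ext
  rw [coe_cyclesEquiv]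
  exact Subtype.ext (iCycles_levelCyclesMk 𝒰 X n z)

/-- The cocycle of the level complex attached to a level 1-cocycle in low-degree form. -/
noncomputable def toZ₁ (z : levelCocycles₁ 𝒰 X) : Z (levelComplex 𝒰 X) 1 :=
  ⟨_, mem_Z_of_levelCocycles 𝒰 X 1 (levelCocycles₁ToLevelCocycles 𝒰 X z)⟩

theorem coe_toZ₁ (z : levelCocycles₁ 𝒰 X) :
    (show levelCochains 𝒰 X 1 from (toZ₁ 𝒰 X z).1).1 = (cochainsIso₁ X).inv.hom z.1 := rfl

theorem levelH1π_eq_cls (z : levelCocycles₁ 𝒰 X) :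
    levelH1π 𝒰 X z = cls (levelComplex 𝒰 X) 1 (toZ₁ 𝒰 X z) :=
  levelπ_eq_cls' 𝒰 X 1 (levelCocycles₁ToLevelCocycles 𝒰 X z)

end Cls

/-! ### (U0) Unramified classes -/

section Kernel

variable {k G : Type u} [CommRing k] [Group G] {X : Rep.{u} k G}

/-- The subgroup on which a 1-cocycle vanishes. -/
def zeroSubgroup (z : G → X) (hz : z ∈ cocycles₁ X) : Subgroup G where
  carrier := {g | z g = 0}
  mul_mem' := by
    intro a b ha hb
    show z (a * b) = 0
    rw [(mem_cocycles₁_iff z).1 hz a b, show z b = 0 from hb, show z a = 0 from ha, map_zero,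
      add_zero]
  one_mem' := cocycles₁_map_one ⟨z, hz⟩
  inv_mem' := by
    intro a ha
    show z a⁻¹ = 0
    have h1 := cocycles₁_map_inv ⟨z, hz⟩ a
    have h2 : X.ρ a (z a⁻¹) = 0 := by
      rw [show X.ρ a (z a⁻¹) = -z a from h1, show z a = 0 from ha, neg_zero]
    have h3 := congrArg (X.ρ a⁻¹) h2
    rwa [map_zero, ← Module.End.mul_apply, ← map_mul, inv_mul_cancel, map_one,
      Module.End.one_apply] at h3

theorem mem_zeroSubgroup_iff (z : G → X) (hz : z ∈ cocycles₁ X) (g : G) :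
    g ∈ zeroSubgroup z hz ↔ z g = 0 := Iff.rfl

/-- A cocycle vanishing on `V` is right `V`-invariant. -/
theorem cocycle_mul_right {z : G → X} (hz : z ∈ cocycles₁ X) {V : Subgroup G}
    (hV : V ≤ zeroSubgroup z hz) (g : G) {v : G} (hv : v ∈ V) : z (g * v) = z g := by
  rw [(mem_cocycles₁_iff z).1 hz g v, show z v = 0 from hV hv, map_zero, zero_add]

/-- The values of a cocycle vanishing on a normal subgroup `V` are fixed by `V`. -/
theorem cocycle_fixed {z : G → X} (hz : z ∈ cocycles₁ X) {V : Subgroup G} [hn : V.Normal]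
    (hV : V ≤ zeroSubgroup z hz) (g : G) {v : G} (hv : v ∈ V) : X.ρ v (z g) = z g := by
  have h1 := (mem_cocycles₁_iff z).1 hz v g
  rw [show z v = 0 from hV hv, add_zero] at h1
  rw [← h1]
  have h2 : v * g = g * (g⁻¹ * v * g⁻¹⁻¹) := by group
  rw [h2]
  exact cocycle_mul_right hz hV g (hn.conj_mem v hv g⁻¹)

end Kernel

section H1ur

variable {k G : Type u} [CommRing k] [Group G] (𝒰 : LevelStructure G) (I : Subgroup G)
  (X : Rep.{u} k G) [IsDiscrete 𝒰 X]

/-- The level 1-cocycles vanishing on `I`. -/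
def urCocycles : Submodule k (levelCocycles₁ 𝒰 X) where
  carrier := {z | ∀ τ ∈ I, z.1 τ = 0}
  add_mem' := by
    intro a b ha hb τ hτ
    show a.1 τ + b.1 τ = 0
    rw [ha τ hτ, hb τ hτ, add_zero]
  zero_mem' := fun _ _ => rfl
  smul_mem' := by
    intro c a ha τ hτ
    show c • a.1 τ = 0
    rw [ha τ hτ, smul_zero]

theorem mem_urCocycles_iff (z : levelCocycles₁ 𝒰 X) :
    z ∈ urCocycles 𝒰 I X ↔ ∀ τ ∈ I, z.1 τ = 0 := Iff.rfl

/-- **(U0)** The unramified classes: those having a level cocycle representative which vanishes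
on `I`. -/
noncomputable def H1ur : Submodule k (levelCohomology 𝒰 X 1) :=
  (urCocycles 𝒰 I X).map (levelH1π 𝒰 X)

theorem mem_H1ur_iff (x : levelCohomology 𝒰 X 1) :
    x ∈ H1ur 𝒰 I X ↔ ∃ z : levelCocycles₁ 𝒰 X, (∀ τ ∈ I, z.1 τ = 0) ∧ levelH1π 𝒰 X z = x :=
  Iff.rfl

theorem levelH1π_mem_H1ur (z : levelCocycles₁ 𝒰 X) (hz : ∀ τ ∈ I, z.1 τ = 0) :
    levelH1π 𝒰 X z ∈ H1ur 𝒰 I X :=
  ⟨z, hz, rfl⟩

variable {𝒰 I X}

/-- A level 1-cocycle vanishing on `I` vanishes on `I ⊔ U` for some `U ∈ 𝒰`, which can be chosen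
inside any given member. -/
theorem exists_le_zeroSubgroup (z : levelCocycles₁ 𝒰 X) (hz : ∀ τ ∈ I, z.1 τ = 0) {U₀ : Subgroup G}
    (hU₀ : U₀ ∈ 𝒰.sets) :
    ∃ U ∈ 𝒰.sets, U ≤ U₀ ∧ I ⊔ U ≤ zeroSubgroup z.1 z.2.1 := by
  obtain ⟨U₁, hU₁, h1⟩ := (mem_levelCochains₁_iff 𝒰 X z.1).1 z.2.2
  obtain ⟨U, hU, hle⟩ := 𝒰.directed U₀ hU₀ U₁ hU₁
  refine ⟨U, hU, hle.trans inf_le_left, sup_le (fun τ hτ => hz τ hτ) fun u hu => ?_⟩
  show z.1 u = 0
  have h2 := h1 1 u ((hle.trans inf_le_right) hu)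
  rw [one_mul] at h2
  rw [h2]
  exact cocycles₁_map_one ⟨z.1, z.2.1⟩

/-- The coboundary of a vector of a discrete representation is a level cocycle. -/
theorem d₀₁_mem_levelCocycles₁ (x : X) : (d₀₁ X).hom x ∈ levelCocycles₁ 𝒰 X := by
  rw [Fermat.Agent.S55.Level.mem_levelCocycles₁_iff]
  refine ⟨d₀₁_apply_mem_cocycles₁ x, ?_⟩
  obtain ⟨U, hU, hfix⟩ := IsDiscrete.exists_fix (𝒰 := 𝒰) x
  refine ⟨U, hU, fun g s hs => ?_⟩
  rw [d₀₁_hom_apply, d₀₁_hom_apply, map_mul]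
  show X.ρ g (X.ρ s x) - x = _
  rw [hfix s hs]

/-- A class whose restriction to `I` is a coboundary is unramified. -/
theorem levelH1π_mem_H1ur_of_coboundary (z : levelCocycles₁ 𝒰 X) (x : X)
    (hz : ∀ τ ∈ I, z.1 τ = X.ρ τ x - x) : levelH1π 𝒰 X z ∈ H1ur 𝒰 I X := by
  have h1 : levelH1π 𝒰 X z = levelH1π 𝒰 X (z - ⟨(d₀₁ X).hom x, d₀₁_mem_levelCocycles₁ x⟩) := by
    rw [levelH1π_eq_iff]
    refine ⟨x, ?_⟩
    show (d₀₁ X).hom x = z.1 - (z.1 - (d₀₁ X).hom x)
    abel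
  rw [h1]
  refine levelH1π_mem_H1ur 𝒰 I X _ fun τ hτ => ?_
  show z.1 τ - (d₀₁ X).hom x τ = 0
  rw [hz τ hτ, d₀₁_hom_apply, sub_self]

end H1ur

/-! ### (U2) The cup product of two unramified classes vanishes -/

section CupVanish

variable {k G : Type u} [CommRing k] [Group G] {𝒰 : LevelStructure G} {I : Subgroup G} {φ : G}
  {A B C : Rep.{u} k G} (ψ : A →ₗ[k] B →ₗ[k] C)

/-- The cup product of two 1-cochains, in low-degree form. -/
def cup₁₁ (a : G → A) (b : G → B) : G × G → C := fun g => ψ (a g.1) (B.ρ g.1 (b g.2))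

theorem cup₁₁_apply (a : G → A) (b : G → B) (g h : G) :
    cup₁₁ ψ a b (g, h) = ψ (a g) (B.ρ g (b h)) := rfl

theorem cup_cochainsIso₁_inv (a : G → A) (b : G → B) :
    cup ψ ((cochainsIso₁ A).inv.hom a) ((cochainsIso₁ B).inv.hom b) =
      (cochainsIso₂ C).inv.hom (cup₁₁ ψ a b) := by
  funext g
  rw [cup_apply, Fermat.Agent.S55.Cup.tprod_one]
  rfl

variable (hψ : ∀ (g : G) (a : A) (b : B), ψ (A.ρ g a) (B.ρ g b) = C.ρ g (ψ a b))

include hψ in
theorem cup₁₁_mem_cocycles₂ {a : G → A} {b : G → B} (ha : a ∈ cocycles₁ A)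
    (hb : b ∈ cocycles₁ B) : cup₁₁ ψ a b ∈ cocycles₂ C := by
  rw [mem_cocycles₂_iff]
  intro g h j
  rw [cup₁₁_apply, cup₁₁_apply, cup₁₁_apply, cup₁₁_apply, (mem_cocycles₁_iff a).1 ha g h,
    (mem_cocycles₁_iff b).1 hb h j, ← hψ, map_add, map_add, map_add, LinearMap.add_apply,
    map_mul, Module.End.mul_apply]
  abel

variable [IsDiscrete 𝒰 A] [IsDiscrete 𝒰 B] [IsDiscrete 𝒰 C]

include hψ in
/-- **(U2)**, cocycle form: the cup product of two level 1-cocycles vanishing on `I` is the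
coboundary of a level 1-cochain. -/
theorem exists_isLevel₁_d₁₂_eq_cup₁₁ (hd : UnramData 𝒰 I φ) {N : ℕ} (hN : 0 < N)
    (hNk : (N : k) = 0) (za : levelCocycles₁ 𝒰 A) (hza : ∀ τ ∈ I, za.1 τ = 0)
    (zb : levelCocycles₁ 𝒰 B) (hzb : ∀ τ ∈ I, zb.1 τ = 0) :
    ∃ f : G → C, IsLevel₁ 𝒰 f ∧ (d₁₂ C).hom f = cup₁₁ ψ za.1 zb.1 := by
  obtain ⟨U₀, hU₀⟩ := 𝒰.nonempty
  obtain ⟨U₁, hU₁, -, h1⟩ := exists_le_zeroSubgroup za hza hU₀
  obtain ⟨U, hU, hle, h2⟩ := exists_le_zeroSubgroup zb hzb hU₁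
  have h1' : I ⊔ U ≤ zeroSubgroup za.1 za.2.1 := (sup_le_sup_left hle I).trans h1
  have hn : (I ⊔ U).Normal := hd.sup_normal hU
  refine exists_isLevel₁_d₁₂_eq hd hN hNk C (cup₁₁_mem_cocycles₂ ψ hψ za.2.1 zb.2.1) hU ?_ ?_
  · intro g h v hv w hw
    rw [cup₁₁_apply, cup₁₁_apply, cocycle_mul_right za.2.1 h1' g hv,
      cocycle_mul_right zb.2.1 h2 h hw, map_mul, Module.End.mul_apply,
      cocycle_fixed zb.2.1 h2 h hv]
  · intro g h v hv
    rw [cup₁₁_apply, ← hψ, cocycle_fixed za.2.1 h1' g hv, ← Module.End.mul_apply, ← map_mul]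
    have h3 : v * g = g * (g⁻¹ * v * g⁻¹⁻¹) := by group
    rw [h3, map_mul, Module.End.mul_apply,
      cocycle_fixed zb.2.1 h2 h (hn.conj_mem v hv g⁻¹)]

/-- **(U2)** The cup product of two unramified classes vanishes in `H²`, for ANY equivariant
bilinear map of discrete representations. -/
theorem pairH_eq_zero_of_mem_H1ur (hd : UnramData 𝒰 I φ) {N : ℕ} (hN : 0 < N)
    (hNk : (N : k) = 0) {a : levelCohomology 𝒰 A 1} (ha : a ∈ H1ur 𝒰 I A)
    {b : levelCohomology 𝒰 B 1} (hb : b ∈ H1ur 𝒰 I B) :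
    (levelPairing 𝒰 ψ hψ).pairH 1 1 2 rfl a b = 0 := by
  obtain ⟨za, hza, rfl⟩ := ha
  obtain ⟨zb, hzb, rfl⟩ := hb
  obtain ⟨f, hf, hdf⟩ := exists_isLevel₁_d₁₂_eq_cup₁₁ ψ hψ hd hN hNk za hza zb hzb
  rw [levelH1π_eq_cls, levelH1π_eq_cls, CochainPairing.pairH_cls, cls_eq_zero_iff]
  refine mem_B_of_d_eq (levelComplex 𝒰 C) (rfl : 1 + 1 = 2)
    (show (levelComplex 𝒰 C).X 1 from
      (⟨(cochainsIso₁ C).inv.hom f, (mem_levelCochains₁_iff 𝒰 C f).2 hf⟩ : levelCochains 𝒰 C 1))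
    _ ?_
  apply Subtype.ext
  refine (coe_levelComplex_d 𝒰 C 1 _).trans ?_
  show (inhomogeneousCochains.d C 1).hom ((cochainsIso₁ C).inv.hom f) = _
  rw [d_cochainsIso₁_inv, hdf, ← cup_cochainsIso₁_inv]
  rfl

end CupVanish

/-! ### (U1) `dim H1ur X = dim H⁰(X)` -/

section SumPow

variable {k G : Type u} [CommRing k] [Group G] (X : Rep.{u} k G) (φ : G)

/-- `1 + φ + ⋯ + φ ^ (i - 1)` on `X`. -/
noncomputable def sumPow (i : ℕ) : X →ₗ[k] X := ∑ t ∈ Finset.range i, X.ρ (φ ^ t)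

theorem sumPow_zero : sumPow X φ 0 = 0 := by simp [sumPow]

theorem sumPow_succ (i : ℕ) (x : X) : sumPow X φ (i + 1) x = sumPow X φ i x + X.ρ (φ ^ i) x := by
  simp [sumPow, Finset.sum_range_succ]

theorem sumPow_one (x : X) : sumPow X φ 1 x = x := by
  rw [sumPow_succ, sumPow_zero, pow_zero, map_one, LinearMap.zero_apply, zero_add,
    Module.End.one_apply]

theorem sumPow_add (i j : ℕ) (x : X) :
    sumPow X φ (i + j) x = sumPow X φ i x + X.ρ (φ ^ i) (sumPow X φ j x) := by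
  induction j with
  | zero => rw [sumPow_zero, add_zero, LinearMap.zero_apply, map_zero, add_zero]
  | succ j ih =>
    have h1 : X.ρ (φ ^ (i + j)) x = X.ρ (φ ^ i) (X.ρ (φ ^ j) x) := by
      rw [pow_add, map_mul, Module.End.mul_apply]
    rw [← add_assoc, sumPow_succ, ih, sumPow_succ, map_add, h1, add_assoc]

variable {X φ}

/-- The translates of a vector fixed by a normal subgroup are fixed by it. -/
theorem ρ_fixed_of_fixed {V : Subgroup G} [hn : V.Normal] {x : X} (hx : ∀ v ∈ V, X.ρ v x = x)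
    (g : G) : ∀ v ∈ V, X.ρ v (X.ρ g x) = X.ρ g x := by
  intro v hv
  rw [← Module.End.mul_apply, ← map_mul]
  have h : v * g = g * (g⁻¹ * v * g⁻¹⁻¹) := by group
  rw [h, map_mul, Module.End.mul_apply, hx _ (hn.conj_mem v hv g⁻¹)]

theorem sumPow_fixed {V : Subgroup G} [hn : V.Normal] {x : X} (hx : ∀ v ∈ V, X.ρ v x = x)
    (i : ℕ) : ∀ v ∈ V, X.ρ v (sumPow X φ i x) = sumPow X φ i x := by
  induction i with
  | zero => intro v _; rw [sumPow_zero, LinearMap.zero_apply, map_zero]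
  | succ i ih =>
    intro v hv
    rw [sumPow_succ, map_add, ih v hv, ρ_fixed_of_fixed hx _ v hv]

theorem sumPow_add_mul_period {V : Subgroup G} [hn : V.Normal] {x : X}
    (hx : ∀ v ∈ V, X.ρ v x = x) {m : ℕ} (hm : φ ^ m ∈ V) (i t : ℕ) :
    sumPow X φ (i + m * t) x = sumPow X φ i x + t • sumPow X φ m x := by
  induction t with
  | zero => simp
  | succ t ih =>
    have h1 : i + m * (t + 1) = m + (i + m * t) := by ring
    rw [h1, sumPow_add, sumPow_fixed hx _ _ hm, ih, succ_nsmul]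
    abel

theorem sumPow_periodic {V : Subgroup G} [hn : V.Normal] {x : X}
    (hx : ∀ v ∈ V, X.ρ v x = x) {m : ℕ} (hm : φ ^ m ∈ V) {N : ℕ} (hNk : (N : k) = 0) :
    Function.Periodic (fun i => sumPow X φ i x) (m * N) := by
  intro i
  show sumPow X φ (i + m * N) x = sumPow X φ i x
  rw [sumPow_add_mul_period hx hm, ← Nat.cast_smul_eq_nsmul k, hNk, zero_smul, add_zero]

end SumPow

section Inv

variable {k G : Type u} [CommRing k] [Group G] (I : Subgroup G) (X : Rep.{u} k G)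

/-- The vectors fixed by `I`. -/
def invI : Submodule k X where
  carrier := {x | ∀ τ ∈ I, X.ρ τ x = x}
  add_mem' := by
    intro a b ha hb τ hτ
    rw [map_add, ha τ hτ, hb τ hτ]
  zero_mem' := fun τ _ => map_zero _
  smul_mem' := by
    intro c a ha τ hτ
    rw [map_smul, ha τ hτ]

theorem mem_invI_iff (x : X) : x ∈ invI I X ↔ ∀ τ ∈ I, X.ρ τ x = x := Iff.rfl

variable {I X}

/-- The stabiliser of a vector. -/
def fixer (x : X) : Subgroup G where
  carrier := {g | X.ρ g x = x}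
  mul_mem' := by
    intro a b ha hb
    show X.ρ (a * b) x = x
    rw [map_mul, Module.End.mul_apply, show X.ρ b x = x from hb, show X.ρ a x = x from ha]
  one_mem' := by
    show X.ρ 1 x = x
    rw [map_one, Module.End.one_apply]
  inv_mem' := by
    intro a ha
    show X.ρ a⁻¹ x = x
    have h := congrArg (X.ρ a⁻¹) (show X.ρ a x = x from ha)
    rw [← Module.End.mul_apply, ← map_mul, inv_mul_cancel, map_one, Module.End.one_apply] at h
    exact h.symm

theorem mem_fixer_iff (x : X) (g : G) : g ∈ fixer x ↔ X.ρ g x = x := Iff.rfl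

theorem fixed_sup {x : X} (hx : x ∈ invI I X) {U : Subgroup G} (hU : ∀ u ∈ U, X.ρ u x = x) :
    ∀ v ∈ I ⊔ U, X.ρ v x = x := by
  have h : I ⊔ U ≤ fixer x := sup_le (fun τ hτ => hx τ hτ) fun u hu => hU u hu
  exact fun v hv => h hv

end Inv

section Exist

variable {k G : Type u} [CommRing k] [Group G] {𝒰 : LevelStructure G} {I : Subgroup G} {φ : G}
  {X : Rep.{u} k G} [IsDiscrete 𝒰 X]

/-- **Existence**: every `I`-fixed vector is the value at `φ` of a level cocycle vanishing on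
`I`. -/
theorem exists_urCocycle (hd : UnramData 𝒰 I φ) {N : ℕ} (hN : 0 < N) (hNk : (N : k) = 0)
    {x : X} (hx : x ∈ invI I X) :
    ∃ z : levelCocycles₁ 𝒰 X, (∀ τ ∈ I, z.1 τ = 0) ∧ z.1 φ = x := by
  obtain ⟨U₀, hU₀, hfix⟩ := IsDiscrete.exists_fix (𝒰 := 𝒰) x
  have hV := fixed_sup hx hfix
  have hn : (I ⊔ U₀).Normal := hd.sup_normal hU₀
  obtain ⟨m, hm, hmem⟩ := hd.exists_pow_mem hU₀
  have hper := sumPow_periodic (φ := φ) hV hmem hNk
  obtain ⟨U, hU, hle, j, hj⟩ := hd.exists_indexFn (Nat.mul_pos hm hN) hU₀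
  have hVle : I ⊔ U ≤ I ⊔ U₀ := sup_le_sup_left hle I
  have hn' : (I ⊔ U).Normal := hd.sup_normal hU
  refine ⟨⟨fun g => sumPow X φ (j g) x, ?_⟩, ?_, ?_⟩
  · rw [Fermat.Agent.S55.Level.mem_levelCocycles₁_iff]
    refine ⟨?_, U, hU, fun g s hs => ?_⟩
    · rw [mem_cocycles₁_iff]
      intro g h
      show sumPow X φ (j (g * h)) x = X.ρ g (sumPow X φ (j h) x) + sumPow X φ (j g) x
      have e1 : sumPow X φ (j (g * h)) x = sumPow X φ (j g + j h) x :=
        periodic_congr hper (hj.mul g h)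
      have hg : g = φ ^ j g * ((φ ^ j g)⁻¹ * g) := by group
      have e2 : X.ρ g (sumPow X φ (j h) x) = X.ρ (φ ^ j g) (sumPow X φ (j h) x) := by
        conv_lhs => rw [hg, map_mul]
        show X.ρ (φ ^ j g) (X.ρ _ _) = _
        rw [sumPow_fixed hV (j h) _ (hVle (hj.mem g))]
      rw [e1, e2, sumPow_add, add_comm]
    · exact periodic_congr hper (hj.mul_right g (le_sup_right (a := I) hs))
  · intro τ hτ
    show sumPow X φ (j τ) x = 0
    have e1 : sumPow X φ (j τ) x = sumPow X φ 0 x :=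
      periodic_congr hper (hj.of_mem (le_sup_left (b := U) hτ))
    rw [e1, sumPow_zero, LinearMap.zero_apply]
  · show sumPow X φ (j φ) x = x
    have e1 : sumPow X φ (j φ) x = sumPow X φ 1 x := periodic_congr hper hj.self
    rw [e1, sumPow_one]

/-- **Uniqueness**: a level cocycle vanishing on `I` and at `φ` is zero. -/
theorem urCocycle_eq_zero (hd : UnramData 𝒰 I φ) (z : levelCocycles₁ 𝒰 X)
    (hz : ∀ τ ∈ I, z.1 τ = 0) (hφ : z.1 φ = 0) : z = 0 := by
  obtain ⟨U₀, hU₀⟩ := 𝒰.nonempty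
  obtain ⟨U, hU, -, hle⟩ := exists_le_zeroSubgroup z hz hU₀
  apply Subtype.ext
  funext g
  obtain ⟨j, hj⟩ := hd.gen U hU g
  have h1 : φ ^ j ∈ zeroSubgroup z.1 z.2.1 := Subgroup.pow_mem _ hφ j
  have h2 : g = φ ^ j * ((φ ^ j)⁻¹ * g) := by group
  have h3 : g ∈ zeroSubgroup z.1 z.2.1 := by
    rw [h2]
    exact Subgroup.mul_mem _ h1 (hle hj)
  exact h3

/-- The values of a level cocycle vanishing on `I` are fixed by `I`. -/
theorem urCocycle_mem_invI (hd : UnramData 𝒰 I φ) (z : levelCocycles₁ 𝒰 X)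
    (hz : ∀ τ ∈ I, z.1 τ = 0) (g : G) : z.1 g ∈ invI I X := by
  have := hd.normal
  exact fun τ hτ => cocycle_fixed z.2.1 (V := I) (fun τ hτ => hz τ hτ) g hτ

end Exist

section HZero

variable {k G : Type u} [CommRing k] [Group G] (𝒰 : LevelStructure G) (X : Rep.{u} k G)
  [IsDiscrete 𝒰 X]

/-- An invariant vector as a `0`-cocycle of the level complex. -/
noncomputable def toZ₀ : X.ρ.invariants →ₗ[k] Z (levelComplex 𝒰 X) 0 where
  toFun x := ⟨(show (levelComplex 𝒰 X).X 0 from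
      (⟨(cochainsIso₀ X).inv.hom x.1, by rw [levelCochains_zero]; trivial⟩ :
        levelCochains 𝒰 X 0)), by
    rw [mem_Z_iff]
    apply Subtype.ext
    refine (coe_levelComplex_d 𝒰 X 0 _).trans ?_
    show (inhomogeneousCochains.d X 0).hom ((cochainsIso₀ X).inv.hom x.1) = 0
    have h : (d₀₁ X).hom x.1 = 0 := by
      have h0 : x.1 ∈ LinearMap.ker (d₀₁ X).hom := by
        rw [d₀₁_ker_eq_invariants]
        exact x.2
      exact h0
    rw [d_cochainsIso₀_inv, h, map_zero]⟩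
  map_add' a b := by
    apply Subtype.ext
    apply Subtype.ext
    show (cochainsIso₀ X).inv.hom (a.1 + b.1) = _
    rw [map_add]
    rfl
  map_smul' c a := by
    apply Subtype.ext
    apply Subtype.ext
    show (cochainsIso₀ X).inv.hom (c • a.1) = _
    rw [map_smul]
    rfl

theorem toZ₀_bijective : Function.Bijective (toZ₀ 𝒰 X) := by
  constructor
  · intro a b hab
    apply Subtype.ext
    have h1 : (cochainsIso₀ X).inv.hom a.1 = (cochainsIso₀ X).inv.hom b.1 :=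
      congrArg (fun w : Z (levelComplex 𝒰 X) 0 => (show levelCochains 𝒰 X 0 from w.1).1) hab
    have h2 := congrArg (cochainsIso₀ X).hom.hom h1
    have e : ∀ y : X, (cochainsIso₀ X).hom.hom ((cochainsIso₀ X).inv.hom y) = y := fun y =>
      congrArg (fun φ => ModuleCat.Hom.hom φ y) (cochainsIso₀ X).inv_hom_id
    rwa [e, e] at h2
  · intro z
    let f : levelCochains 𝒰 X 0 := z.1
    have h1 : (cochainsIso₀ X).inv.hom ((cochainsIso₀ X).hom.hom f.1) = f.1 :=
      congrArg (fun φ => ModuleCat.Hom.hom φ f.1) (cochainsIso₀ X).hom_inv_id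
    have hz : (inhomogeneousCochains.d X 0).hom f.1 = 0 := by
      have h2 := (mem_Z_iff _ _).1 z.2
      have h3 := coe_levelComplex_d 𝒰 X 0 f
      rw [← h3]
      exact congrArg (fun w : (levelComplex 𝒰 X).X 1 => (show levelCochains 𝒰 X 1 from w).1) h2
    have hx : (cochainsIso₀ X).hom.hom f.1 ∈ X.ρ.invariants := by
      rw [← d₀₁_ker_eq_invariants, LinearMap.mem_ker]
      apply cochainsIso₁_inv_injective
      rw [← d_cochainsIso₀_inv, h1, hz, map_zero]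
    refine ⟨⟨_, hx⟩, ?_⟩
    apply Subtype.ext
    apply Subtype.ext
    exact h1

/-- `H⁰` of the level complex is the space of invariants. -/
theorem finrank_levelCohomology_zero :
    Module.finrank k (levelCohomology 𝒰 X 0) = Module.finrank k X.ρ.invariants := by
  have hcls : Function.Bijective (cls (levelComplex 𝒰 X) 0) := by
    refine ⟨?_, cls_surjective _ 0⟩
    rw [← LinearMap.ker_eq_bot, LinearMap.ker_eq_bot']
    intro z hz
    rw [cls_eq_zero_iff] at hz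
    exact eq_zero_of_mem_B_zero _ z hz
  exact ((LinearEquiv.ofBijective _ (toZ₀_bijective 𝒰 X)).trans
    (LinearEquiv.ofBijective _ hcls)).finrank_eq.symm

end HZero

section Count

variable {k G : Type u} [Field k] [Group G] {𝒰 : LevelStructure G} {I : Subgroup G} {φ : G}
  (X : Rep.{u} k G) [IsDiscrete 𝒰 X]

variable (𝒰 I) in
/-- Evaluation at `φ` of the level cocycles vanishing on `I`. -/
noncomputable def evφ (φ : G) : urCocycles 𝒰 I X →ₗ[k] X where
  toFun z := z.1.1 φ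
  map_add' _ _ := rfl
  map_smul' _ _ := rfl

theorem evφ_injective (hd : UnramData 𝒰 I φ) : Function.Injective (evφ 𝒰 I X φ) := by
  rw [injective_iff_map_eq_zero]
  intro z hz
  exact Subtype.ext (urCocycle_eq_zero hd z.1 z.2 hz)

theorem range_evφ (hd : UnramData 𝒰 I φ) {N : ℕ} (hN : 0 < N) (hNk : (N : k) = 0) :
    LinearMap.range (evφ 𝒰 I X φ) = invI I X := by
  apply le_antisymm
  · rintro _ ⟨z, rfl⟩
    exact urCocycle_mem_invI hd z.1 z.2 φ
  · intro x hx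
    obtain ⟨z, hz, hzφ⟩ := exists_urCocycle hd hN hNk hx
    exact ⟨⟨z, hz⟩, hzφ⟩

variable (𝒰 I) in
/-- The coboundary map from the `I`-fixed vectors to the level cocycles vanishing on `I`. -/
noncomputable def δur : invI I X →ₗ[k] urCocycles 𝒰 I X where
  toFun y := ⟨⟨(d₀₁ X).hom y.1, d₀₁_mem_levelCocycles₁ y.1⟩, fun τ hτ => by
    show (d₀₁ X).hom y.1 τ = 0
    rw [d₀₁_hom_apply, y.2 τ hτ, sub_self]⟩
  map_add' a b := by
    apply Subtype.ext
    apply Subtype.ext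
    show (d₀₁ X).hom (a.1 + b.1) = _
    rw [map_add]
    rfl
  map_smul' c a := by
    apply Subtype.ext
    apply Subtype.ext
    show (d₀₁ X).hom (c • a.1) = _
    rw [map_smul]
    rfl

theorem coe_δur (y : invI I X) : ((δur 𝒰 I X y).1.1 : G → X) = (d₀₁ X).hom y.1 := rfl

theorem range_δur :
    LinearMap.range (δur 𝒰 I X) =
      LinearMap.ker ((levelH1π 𝒰 X).domRestrict (urCocycles 𝒰 I X)) := by
  apply le_antisymm
  · rintro _ ⟨y, rfl⟩
    rw [LinearMap.mem_ker, LinearMap.domRestrict_apply, levelH1π_eq_zero_iff]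
    exact ⟨y.1, rfl⟩
  · intro z hz
    rw [LinearMap.mem_ker, LinearMap.domRestrict_apply, levelH1π_eq_zero_iff] at hz
    obtain ⟨y, hy⟩ := hz
    have hyI : y ∈ invI I X := by
      intro τ hτ
      have h1 := congrFun hy τ
      rw [d₀₁_hom_apply, z.2 τ hτ] at h1
      exact sub_eq_zero.1 h1
    refine ⟨⟨y, hyI⟩, ?_⟩
    apply Subtype.ext
    apply Subtype.ext
    exact hy

theorem finrank_ker_δur :
    Module.finrank k (LinearMap.ker (δur 𝒰 I X)) = Module.finrank k X.ρ.invariants := by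
  rw [← Submodule.finrank_map_subtype_eq (invI I X) (LinearMap.ker (δur 𝒰 I X))]
  have key : Submodule.map (invI I X).subtype (LinearMap.ker (δur 𝒰 I X)) = X.ρ.invariants := ?_
  · rw [key]
  ext x
  rw [Submodule.mem_map, Representation.mem_invariants]
  constructor
  · rintro ⟨y, hy, rfl⟩
    intro g
    have h1 : (d₀₁ X).hom y.1 g = 0 := by
      rw [← coe_δur (𝒰 := 𝒰) X y, (LinearMap.mem_ker).1 hy]
      rfl
    rw [d₀₁_hom_apply] at h1
    exact sub_eq_zero.1 h1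
  · intro hx
    refine ⟨⟨x, fun τ _ => hx τ⟩, ?_, rfl⟩
    rw [LinearMap.mem_ker]
    apply Subtype.ext
    apply Subtype.ext
    funext g
    show (d₀₁ X).hom x g = 0
    rw [d₀₁_hom_apply, hx g, sub_self]

variable [FiniteDimensional k X]

/-- **(U1)** `H1ur X` is finite dimensional. -/
theorem finiteDimensional_H1ur (hd : UnramData 𝒰 I φ) :
    FiniteDimensional k (H1ur 𝒰 I X) := by
  have h1 : FiniteDimensional k (urCocycles 𝒰 I X) :=
    FiniteDimensional.of_injective (evφ 𝒰 I X φ) (evφ_injective X hd)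
  have h2 : H1ur 𝒰 I X = LinearMap.range ((levelH1π 𝒰 X).domRestrict (urCocycles 𝒰 I X)) :=
    (LinearMap.range_domRestrict _ _).symm
  rw [h2]
  infer_instance

/-- **(U1)** `dim H1ur X = dim H⁰(X)`. -/
theorem finrank_H1ur (hd : UnramData 𝒰 I φ) {N : ℕ} (hN : 0 < N) (hNk : (N : k) = 0) :
    Module.finrank k (H1ur 𝒰 I X) = Module.finrank k (levelCohomology 𝒰 X 0) := by
  have h1 : FiniteDimensional k (urCocycles 𝒰 I X) :=
    FiniteDimensional.of_injective (evφ 𝒰 I X φ) (evφ_injective X hd)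
  have h2 : H1ur 𝒰 I X = LinearMap.range ((levelH1π 𝒰 X).domRestrict (urCocycles 𝒰 I X)) :=
    (LinearMap.range_domRestrict _ _).symm
  have e1 := LinearMap.finrank_range_add_finrank_ker (K := k) (V := urCocycles 𝒰 I X)
    (V₂ := levelCohomology 𝒰 X 1) ((levelH1π 𝒰 X).domRestrict (urCocycles 𝒰 I X))
  have e2 := LinearMap.finrank_range_add_finrank_ker (K := k) (V := invI I X)
    (V₂ := urCocycles 𝒰 I X) (δur 𝒰 I X)
  have e3 : Module.finrank k (urCocycles 𝒰 I X) = Module.finrank k (invI I X) := by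
    rw [← LinearMap.finrank_range_of_inj (evφ_injective X hd), range_evφ X hd hN hNk]
  rw [← range_δur, e3] at e1
  rw [finrank_ker_δur] at e2
  rw [finrank_levelCohomology_zero, h2]
  omega

end Count

/-! ### (U3) Functoriality -/

section Funct

open Fermat.Agent.S55.LevelDuality

variable {k G : Type u} [CommRing k] [Group G] {𝒰 : LevelStructure G} {I : Subgroup G}

section Map

variable {X Y : Rep.{u} k G} [IsDiscrete 𝒰 X] [IsDiscrete 𝒰 Y] (f : X ⟶ Y)

/-- The image of a level 1-cocycle under a morphism of representations. -/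
noncomputable def mapCocycle (z : levelCocycles₁ 𝒰 X) : levelCocycles₁ 𝒰 Y :=
  ⟨fun g => f.hom (z.1 g), by
    rw [Fermat.Agent.S55.Level.mem_levelCocycles₁_iff]
    refine ⟨?_, ?_⟩
    · rw [mem_cocycles₁_iff]
      intro g h
      show f.hom (z.1 (g * h)) = Y.ρ g (f.hom (z.1 h)) + f.hom (z.1 g)
      rw [(mem_cocycles₁_iff z.1).1 z.2.1 g h, map_add, Rep.hom_comm_apply]
    · exact ((mem_levelCochains₁_iff 𝒰 X z.1).1 z.2.2).comp f.hom⟩

theorem coe_mapCocycle (z : levelCocycles₁ 𝒰 X) (g : G) :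
    (mapCocycle f z).1 g = f.hom (z.1 g) := rfl

/-- The map induced on `H¹` on low-degree cocycle representatives. -/
theorem lmap_levelH1π (z : levelCocycles₁ 𝒰 X) :
    lmap 𝒰 f 1 (levelH1π 𝒰 X z) = levelH1π 𝒰 Y (mapCocycle f z) :=
  levelCohomologyMap_levelπ (MonoidHom.id G) 𝒰.refines_id f 1
    (levelCocycles₁ToLevelCocycles 𝒰 X z) (levelCocycles₁ToLevelCocycles 𝒰 Y (mapCocycle f z))
    fun _ => rfl

/-- **(U3)** Morphisms of representations preserve unramified classes. -/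
theorem lmap_mem_H1ur {a : levelCohomology 𝒰 X 1} (ha : a ∈ H1ur 𝒰 I X) :
    lmap 𝒰 f 1 a ∈ H1ur 𝒰 I Y := by
  obtain ⟨z, hz, rfl⟩ := ha
  rw [lmap_levelH1π]
  refine levelH1π_mem_H1ur 𝒰 I Y _ fun τ hτ => ?_
  rw [coe_mapCocycle, hz τ hτ, map_zero]

/-- **(U3')** The unramified classes of `Y` come from the unramified classes of any
subrepresentation containing the `I`-fixed vectors of `Y`. -/
theorem H1ur_le_map_lmap (hI : I.Normal) (hf : Function.Injective f.hom)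
    (hr : ∀ y ∈ invI I Y, ∃ x : X, f.hom x = y) :
    H1ur 𝒰 I Y ≤ (H1ur 𝒰 I X).map (lmap 𝒰 f 1) := by
  rintro _ ⟨z, hz, rfl⟩
  have hval : ∀ g, z.1 g ∈ invI I Y := fun g τ hτ =>
    cocycle_fixed z.2.1 (V := I) (fun τ hτ => hz τ hτ) g hτ
  choose w hw using fun g => hr (z.1 g) (hval g)
  have hwc : w ∈ levelCocycles₁ 𝒰 X := by
    rw [Fermat.Agent.S55.Level.mem_levelCocycles₁_iff]
    refine ⟨?_, ?_⟩
    · rw [mem_cocycles₁_iff]
      intro g h
      apply hf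
      rw [map_add, Rep.hom_comm_apply, hw, hw, hw]
      exact (mem_cocycles₁_iff z.1).1 z.2.1 g h
    · obtain ⟨U, hU, h1⟩ := (mem_levelCochains₁_iff 𝒰 Y z.1).1 z.2.2
      refine ⟨U, hU, fun g s hs => ?_⟩
      apply hf
      rw [hw, hw]
      exact h1 g s hs
  refine ⟨levelH1π 𝒰 X ⟨w, hwc⟩, levelH1π_mem_H1ur 𝒰 I X _ fun τ hτ => ?_, ?_⟩
  · apply hf
    show f.hom (w τ) = f.hom 0
    rw [hw, map_zero]
    exact hz τ hτ
  · rw [lmap_levelH1π]
    congr 1
    apply Subtype.ext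
    funext g
    exact hw g

end Map

section Adjoint

variable {A₁ A₂ B₁ B₂ C : Rep.{u} k G} [IsDiscrete 𝒰 A₁] [IsDiscrete 𝒰 A₂] [IsDiscrete 𝒰 B₁]
  [IsDiscrete 𝒰 B₂] [IsDiscrete 𝒰 C]
  (φ₁ : A₁ →ₗ[k] B₁ →ₗ[k] C)
  (hφ₁ : ∀ (g : G) (a : A₁) (b : B₁), φ₁ (A₁.ρ g a) (B₁.ρ g b) = C.ρ g (φ₁ a b))
  (φ₂ : A₂ →ₗ[k] B₂ →ₗ[k] C)
  (hφ₂ : ∀ (g : G) (a : A₂) (b : B₂), φ₂ (A₂.ρ g a) (B₂.ρ g b) = C.ρ g (φ₂ a b))
  (f : A₁ ⟶ A₂) (f' : B₂ ⟶ B₁)
  (hadj : ∀ (a : A₁) (b : B₂), φ₂ (f.hom a) b = φ₁ a (f'.hom b))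

include hadj in
/-- **(U3)** Adjointness of the cup product on cohomology for adjoint coefficient maps. -/
theorem pairH_lmap_left {m n p : ℕ} (h : m + n = p) (x : levelCohomology 𝒰 A₁ m)
    (y : levelCohomology 𝒰 B₂ n) :
    (levelPairing 𝒰 φ₂ hφ₂).pairH m n p h (lmap 𝒰 f m x) y =
      (levelPairing 𝒰 φ₁ hφ₁).pairH m n p h x (lmap 𝒰 f' n y) :=
  CochainPairing.pairH_adjoint (levelPairing 𝒰 φ₁ hφ₁) (levelPairing 𝒰 φ₂ hφ₂)
    (levelMap 𝒰 f) (levelMap 𝒰 f')
    (fun m n p h a b => levelPairing_adjoint φ₁ hφ₁ φ₂ hφ₂ f f' hadj m n p h a b) h x y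

end Adjoint

end Funct

end Fermat.Agent.S56.PT.Unram
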