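/-
S56 / block (II), Poitou–Tate consequences (helper25): the LINEAR ALGEBRA of Selmer groups.

Abstract setting (vector spaces over a field `k`).

* Middle exactness (`mem_range_iff_forall_eq_zero`): a piece `H --β--> P --∂--> Hc` of the cone
  sequence, exact at `P`, an INJECTIVE global duality map `Φ : Hc → (H')^*`, a local duality map
  `ι : P → (Q')^*`, the localisation `β' : H' → Q'` of the dual side and the boundary
  compatibility `Φ (∂ w) y = ι w (β' y)`.  Then the image of `β` is the annihilator of the image
  of `β'`.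
* Annihilators `annR`, `annL` with respect to a pairing `ι : P → (Q')^*`; dimension formulas for
  a perfect pairing.
* The Greenberg–Wiles dimension formula (`finrank_selmer_formula`): for `𝓛 ≤ P`,
  `Sel = β⁻¹(𝓛)`, `Sel^⊥ = β'⁻¹(𝓛^⊥)`:
  `dim Sel + dim ker β' + dim P = dim Sel^⊥ + dim H + dim 𝓛`;
  change of the local conditions (`finrank_selmer_change`).
* Families: the sum of perfect local pairings is perfect, and the annihilator of a product of
  local conditions is the product of the local annihilators.

Mathlib only.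
-/
import Mathlib

set_option autoImplicit false
set_option linter.unusedSectionVars false

namespace Fermat.Agent.S56.PT.SelmerLinAlg

open Module LinearMap

universe u

variable {k : Type u} [Field k]

/-! ### Middle exactness -/

section Middle

variable {P Hc H H' Q' : Type*}
  [AddCommGroup P] [Module k P] [AddCommGroup Hc] [Module k Hc] [AddCommGroup H] [Module k H]
  [AddCommGroup H'] [Module k H'] [AddCommGroup Q'] [Module k Q']

/-- **Middle exactness of Poitou–Tate, abstract form.** -/
theorem mem_range_iff_forall_eq_zero (bd : P →ₗ[k] Hc) (β : H →ₗ[k] P)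
    (hex : LinearMap.ker bd = LinearMap.range β)
    (Φ : Hc →ₗ[k] Dual k H') (hΦ : Function.Injective Φ)
    (ι : P →ₗ[k] Dual k Q') (β' : H' →ₗ[k] Q')
    (hcompat : ∀ w y, Φ (bd w) y = ι w (β' y)) (w : P) :
    w ∈ LinearMap.range β ↔ ∀ y, ι w (β' y) = 0 := by
  rw [← hex, LinearMap.mem_ker]
  constructor
  · intro h y
    rw [← hcompat, h, map_zero]
    rfl
  · intro h
    apply hΦ
    rw [map_zero]
    ext y
    rw [hcompat]
    exact h y

end Middle

/-! ### Annihilators for a pairing `ι : P → (Q')^*` -/

section Ann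

variable {P Q' : Type*} [AddCommGroup P] [Module k P] [AddCommGroup Q'] [Module k Q']
  (ι : P →ₗ[k] Dual k Q')

/-- The annihilator in `Q'` of a subspace of `P`. -/
def annR (U : Submodule k P) : Submodule k Q' := (U.map ι).dualCoannihilator

/-- The annihilator in `P` of a subspace of `Q'`. -/
def annL (V : Submodule k Q') : Submodule k P := V.dualAnnihilator.comap ι

variable {ι}

theorem mem_annR {U : Submodule k P} {q : Q'} : q ∈ annR ι U ↔ ∀ w ∈ U, ι w q = 0 := by
  rw [annR, Submodule.mem_dualCoannihilator]
  constructor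
  · intro h w hw
    exact h (ι w) (Submodule.mem_map_of_mem hw)
  · rintro h _ ⟨w, hw, rfl⟩
    exact h w hw

theorem mem_annL {V : Submodule k Q'} {w : P} : w ∈ annL ι V ↔ ∀ q ∈ V, ι w q = 0 := by
  rw [annL, Submodule.mem_comap, Submodule.mem_dualAnnihilator]

theorem annR_anti {U U' : Submodule k P} (h : U ≤ U') : annR ι U' ≤ annR ι U := fun _ hq =>
  mem_annR.2 fun w hw => mem_annR.1 hq w (h hw)

theorem annR_sup (U U' : Submodule k P) : annR ι (U ⊔ U') = annR ι U ⊓ annR ι U' := by
  rw [annR, annR, annR, Submodule.map_sup, Submodule.dualCoannihilator_sup_eq]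

variable (ι)

/-- For a surjective `ι`, `annR (annL V) = V`. -/
theorem annR_annL (hι : Function.Surjective ι) (V : Submodule k Q') :
    annR ι (annL ι V) = V := by
  rw [annR, annL, Submodule.map_comap_eq, LinearMap.range_eq_top.2 hι, top_inf_eq,
    Subspace.dualAnnihilator_dualCoannihilator_eq]

/-- Dimension of the annihilator for an injective pairing map. -/
theorem finrank_annR_add [FiniteDimensional k Q'] (hι : Function.Injective ι)
    (U : Submodule k P) : finrank k U + finrank k (annR ι U) = finrank k Q' := by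
  rw [annR, ← Subspace.finrank_add_finrank_dualCoannihilator_eq (U.map ι),
    LinearEquiv.finrank_eq (Submodule.equivMapOfInjective ι hι U)]

end Ann

/-! ### Preimages -/

section Comap

variable {V W : Type*} [AddCommGroup V] [Module k V] [AddCommGroup W] [Module k W]

/-- `dim f⁻¹(q) = dim ker f + dim (im f ∩ q)`. -/
theorem finrank_comap_eq [FiniteDimensional k V] (f : V →ₗ[k] W) (q : Submodule k W) :
    finrank k (q.comap f) =
      finrank k (LinearMap.ker f) + finrank k (LinearMap.range f ⊓ q : Submodule k W) := by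
  have h := LinearMap.finrank_range_add_finrank_ker (f.domRestrict (q.comap f))
  rw [LinearMap.range_domRestrict, Submodule.map_comap_eq, LinearMap.ker_domRestrict] at h
  have hle : LinearMap.ker f ≤ q.comap f := fun x hx => by
    rw [Submodule.mem_comap, LinearMap.mem_ker.1 hx]
    exact q.zero_mem
  rw [LinearEquiv.finrank_eq (Submodule.comapSubtypeEquivOfLe hle)] at h
  omega

end Comap

/-! ### The Greenberg–Wiles dimension formula -/

section Formula

variable {P H H' Q' : Type*}
  [AddCommGroup P] [Module k P] [AddCommGroup H] [Module k H]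
  [AddCommGroup H'] [Module k H'] [AddCommGroup Q'] [Module k Q']
  [FiniteDimensional k P] [FiniteDimensional k H] [FiniteDimensional k H']
  [FiniteDimensional k Q']
  (β : H →ₗ[k] P) (β' : H' →ₗ[k] Q') (ι : P →ₗ[k] Dual k Q')

/-- The Selmer group of a local condition `𝓛 ≤ P`. -/
abbrev sel (𝓛 : Submodule k P) : Submodule k H := 𝓛.comap β

/-- The dual Selmer group of a local condition `𝓛 ≤ P`. -/
abbrev selDual (𝓛 : Submodule k P) : Submodule k H' := (annR ι 𝓛).comap β'

omit [FiniteDimensional k P] [FiniteDimensional k Q'] in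
include ι in
theorem finrank_eq_of_bijective (hι : Function.Bijective ι) : finrank k P = finrank k Q' := by
  rw [LinearEquiv.finrank_eq (LinearEquiv.ofBijective ι hι), Subspace.dual_finrank_eq]

omit [FiniteDimensional k H] [FiniteDimensional k H'] in
/-- the intersection of the image of `β'` with the annihilator of `𝓛` -/
theorem finrank_range_inf_annR (hι : Function.Bijective ι)
    (hmid : ∀ w, w ∈ LinearMap.range β ↔ ∀ y, ι w (β' y) = 0) (𝓛 : Submodule k P) :
    finrank k (LinearMap.range β' ⊓ annR ι 𝓛 : Submodule k Q') +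
      finrank k (LinearMap.range β ⊔ 𝓛 : Submodule k P) = finrank k P := by
  have hA : LinearMap.range β = annL ι (LinearMap.range β') := by
    ext w
    rw [hmid, mem_annL]
    constructor
    · rintro h _ ⟨y, rfl⟩
      exact h y
    · intro h y
      exact h _ ⟨y, rfl⟩
  have h1 : LinearMap.range β' ⊓ annR ι 𝓛 = annR ι (LinearMap.range β ⊔ 𝓛) := by
    rw [annR_sup, hA, annR_annL ι hι.2]
  rw [h1, add_comm, finrank_annR_add ι hι.1, finrank_eq_of_bijective ι hι]

/-- The images of the two localisation maps have complementary dimensions: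
`dim im β + dim im β' = dim Q'`. -/
theorem finrank_range_add_finrank_range (hι : Function.Bijective ι)
    (hmid : ∀ w, w ∈ LinearMap.range β ↔ ∀ y, ι w (β' y) = 0) :
    finrank k (LinearMap.range β) + finrank k (LinearMap.range β') = finrank k Q' := by
  have hA : LinearMap.range β = annL ι (LinearMap.range β') := by
    ext w
    rw [hmid, mem_annL]
    constructor
    · rintro h _ ⟨y, rfl⟩
      exact h y
    · intro h y
      exact h _ ⟨y, rfl⟩
  have h1 := finrank_annR_add ι hι.1 (LinearMap.range β)
  rw [hA, annR_annL ι hι.2] at h1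
  rw [hA]
  exact h1

/-- **Greenberg–Wiles, dimension form**:
`dim Sel_𝓛 + dim ker β' + dim P = dim Sel_{𝓛^⊥} + dim H + dim 𝓛`. -/
theorem finrank_selmer_formula (hι : Function.Bijective ι)
    (hmid : ∀ w, w ∈ LinearMap.range β ↔ ∀ y, ι w (β' y) = 0) (𝓛 : Submodule k P) :
    finrank k (sel β 𝓛) + finrank k (LinearMap.ker β') + finrank k P =
      finrank k (selDual β' ι 𝓛) + finrank k H + finrank k 𝓛 := by
  have h1 := finrank_comap_eq β 𝓛
  have h2 := finrank_comap_eq β' (annR ι 𝓛)
  have h3 := finrank_range_inf_annR β β' ι hι hmid 𝓛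
  have h4 := Submodule.finrank_sup_add_finrank_inf_eq (LinearMap.range β) 𝓛
  have h5 := LinearMap.finrank_range_add_finrank_ker β
  show finrank k (𝓛.comap β) + _ + _ = finrank k ((annR ι 𝓛).comap β') + _ + _
  omega

/-- **Change of the local condition**: for `𝓛 ≤ 𝓛'`,
`dim Sel_𝓛' + dim Sel_{𝓛^⊥} + dim 𝓛 = dim Sel_𝓛 + dim Sel_{𝓛'^⊥} + dim 𝓛'`. -/
theorem finrank_selmer_change (hι : Function.Bijective ι)
    (hmid : ∀ w, w ∈ LinearMap.range β ↔ ∀ y, ι w (β' y) = 0) (𝓛 𝓛' : Submodule k P) :
    finrank k (sel β 𝓛') + finrank k (selDual β' ι 𝓛) + finrank k 𝓛 =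
      finrank k (sel β 𝓛) + finrank k (selDual β' ι 𝓛') + finrank k 𝓛' := by
  have h1 := finrank_selmer_formula β β' ι hι hmid 𝓛
  have h2 := finrank_selmer_formula β β' ι hι hmid 𝓛'
  omega

/-- If the dual Selmer group of `𝓛` is trivial, the Selmer group has the expected dimension:
`dim Sel_𝓛 + dim ker β' + dim P = dim H + dim 𝓛`. -/
theorem finrank_selmer_of_selDual_eq_bot (hι : Function.Bijective ι)
    (hmid : ∀ w, w ∈ LinearMap.range β ↔ ∀ y, ι w (β' y) = 0) (𝓛 : Submodule k P)
    (h0 : selDual β' ι 𝓛 = ⊥) :
    finrank k (sel β 𝓛) + finrank k (LinearMap.ker β') + finrank k P =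
      finrank k H + finrank k 𝓛 := by
  have h1 := finrank_selmer_formula β β' ι hι hmid 𝓛
  rw [h0, finrank_bot] at h1
  omega

end Formula

/-! ### Families of local pairings -/

section Family

variable {I : Type*} [Fintype I] [DecidableEq I] {P Q' : I → Type*}
  [∀ v, AddCommGroup (P v)] [∀ v, Module k (P v)]
  [∀ v, AddCommGroup (Q' v)] [∀ v, Module k (Q' v)]
  (b : ∀ v, P v →ₗ[k] Dual k (Q' v))

/-- The sum of a family of local pairings. -/
def sumPairing : (∀ v, P v) →ₗ[k] Dual k (∀ v, Q' v) :=
  ∑ v, ((LinearMap.proj v : (∀ v, Q' v) →ₗ[k] Q' v).dualMap ∘ₗ b v) ∘ₗ LinearMap.proj v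

omit [DecidableEq I] in
theorem sumPairing_apply (w : ∀ v, P v) (q : ∀ v, Q' v) :
    sumPairing b w q = ∑ v, b v (w v) (q v) := by
  simp [sumPairing, LinearMap.sum_apply]

theorem sumPairing_single_left (v : I) (a : P v) (q : ∀ v, Q' v) :
    sumPairing b (Pi.single v a) q = b v a (q v) := by
  rw [sumPairing_apply, Finset.sum_eq_single v]
  · rw [Pi.single_eq_same]
  · intro v' _ hv'
    rw [Pi.single_eq_of_ne hv', map_zero, LinearMap.zero_apply]
  · intro h
    exact absurd (Finset.mem_univ v) h

theorem sumPairing_single_right (w : ∀ v, P v) (v : I) (c : Q' v) :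
    sumPairing b w (Pi.single v c) = b v (w v) c := by
  rw [sumPairing_apply, Finset.sum_eq_single v]
  · rw [Pi.single_eq_same]
  · intro v' _ hv'
    rw [Pi.single_eq_of_ne hv', map_zero]
  · intro h
    exact absurd (Finset.mem_univ v) h

theorem sumPairing_injective (hb : ∀ v, Function.Injective (b v)) :
    Function.Injective (sumPairing b) := by
  rw [injective_iff_map_eq_zero]
  intro w hw
  funext v
  apply hb v
  rw [Pi.zero_apply, map_zero]
  refine LinearMap.ext fun c => ?_
  rw [← sumPairing_single_right b w v c, hw]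
  rfl

theorem sumPairing_surjective (hb : ∀ v, Function.Surjective (b v)) :
    Function.Surjective (sumPairing b) := by
  intro ψ
  choose w hw using fun v => hb v (ψ ∘ₗ LinearMap.single k Q' v)
  refine ⟨w, ?_⟩
  refine LinearMap.ext fun q => ?_
  rw [sumPairing_apply]
  conv_rhs => rw [← Finset.univ_sum_single q, map_sum]
  refine Finset.sum_congr rfl fun v _ => ?_
  rw [hw v]
  rfl

theorem sumPairing_bijective (hb : ∀ v, Function.Bijective (b v)) :
    Function.Bijective (sumPairing b) :=
  ⟨sumPairing_injective b fun v => (hb v).1, sumPairing_surjective b fun v => (hb v).2⟩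

/-- The annihilator of a product of local conditions is the product of the local annihilators. -/
theorem annR_pi (𝓛 : ∀ v, Submodule k (P v)) :
    annR (sumPairing b) (Submodule.pi Set.univ 𝓛) =
      Submodule.pi Set.univ fun v => annR (b v) (𝓛 v) := by
  ext q
  rw [mem_annR, Submodule.mem_pi]
  constructor
  · intro h v _
    rw [mem_annR]
    intro a ha
    rw [← sumPairing_single_left b v a q]
    apply h
    rw [Submodule.mem_pi]
    intro v' _
    by_cases hv : v' = v
    · subst hv
      rw [Pi.single_eq_same]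
      exact ha
    · rw [Pi.single_eq_of_ne hv]
      exact (𝓛 v').zero_mem
  · intro h w hw
    rw [sumPairing_apply]
    refine Finset.sum_eq_zero fun v _ => ?_
    exact mem_annR.1 (h v (Set.mem_univ v)) (w v) ((Submodule.mem_pi.1 hw) v (Set.mem_univ v))

/-- The dimension of a product of local conditions. -/
theorem finrank_pi [∀ v, FiniteDimensional k (P v)] (𝓛 : ∀ v, Submodule k (P v)) :
    finrank k (Submodule.pi Set.univ 𝓛) = ∑ v, finrank k (𝓛 v) := by
  let e : (Submodule.pi Set.univ 𝓛) ≃ₗ[k] (∀ v, 𝓛 v) :=
    { toFun := fun w v => ⟨w.1 v, (Submodule.mem_pi.1 w.2) v (Set.mem_univ v)⟩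
      map_add' := fun _ _ => rfl
      map_smul' := fun _ _ => rfl
      invFun := fun w => ⟨fun v => (w v).1, Submodule.mem_pi.2 fun v _ => (w v).2⟩
      left_inv := fun _ => rfl
      right_inv := fun _ => rfl }
  rw [LinearEquiv.finrank_eq e, Module.finrank_pi_fintype]

end Family

end Fermat.Agent.S56.PT.SelmerLinAlg
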