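/-
S56 / block (II), Poitou–Tate consequences (helper25): MIDDLE EXACTNESS for the cone data of S55.

For an equivariant pairing `φ : A × B → C` of discrete representations, local data `D` and a linear
form `tr` on `Hc³(C)`: if the global duality map `Phi : Hc^{m+1}(A) → Hⁿ(G, B)^*` (`m + n = 2`) is
injective, then a family of local classes `w ∈ ∏ H^m(G_v, A)` is the localisation of a global class
iff it is orthogonal (for the sum of the local pairings) to the localisations of all global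
classes of `Hⁿ(G, B)`  (`mem_range_locH_iff`).

Specialisations for `MainConclusion D χ tr` (the output of the S55 dévissage):

* `mem_range_locH_one_iff`  : `im (H¹(G, M) → ∏ H¹(G_v, M)) = (im (H¹(G, M') → ∏ H¹(G_v, M')))^⊥`;
* `mem_range_locH_zero_iff` : `im (H⁰(G, M') → ∏ H⁰(G_v, M')) = (im (H²(G, M) → ∏ H²(G_v, M)))^⊥`.
-/
import Mathlib
import Fermat.Agent.S55.MainDefs
import Fermat.Agent.S55.LevelDualityCone
import Fermat.Agent.S56.PT.SelmerLinAlg

set_option autoImplicit false
set_option linter.unusedSectionVars false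

namespace Fermat.Agent.S56.PT.Middle

open CategoryTheory groupCohomology Module Fermat.Agent.S55.Level Fermat.Agent.S55.Cone
  Fermat.Agent.S55.DualTwist Fermat.Agent.S55.Main Fermat.Agent.S55.LevelDuality
  Fermat.Agent.S56.PT.SelmerLinAlg

universe u

section General

variable {k G : Type u} [Field k] [Group G] {𝒰 : LevelStructure G} (D : LocalData 𝒰)
  {A B C : Rep.{u} k G} [IsDiscrete 𝒰 A] [IsDiscrete 𝒰 B] [IsDiscrete 𝒰 C]
  (φ : A →ₗ[k] B →ₗ[k] C)
  (hφ : ∀ (g : G) (a : A) (b : B), φ (A.ρ g a) (B.ρ g b) = C.ρ g (φ a b))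

/-- **Middle exactness of Poitou–Tate for the cone data.** -/
theorem mem_range_locH_iff (m n : ℕ) (h : m + n = 2) (tr : Hc D C 3 →ₗ[k] k)
    (hΦ : Function.Injective (Phi D φ hφ (m + 1) n 3 (by omega) tr))
    (w : ∀ v, levelCohomology (D.𝒱 v) (Rep.res (D.r v) A) m) :
    w ∈ LinearMap.range (locH D A m) ↔
      ∀ y : levelCohomology 𝒰 B n, locDual D φ hφ m n 2 h tr w (locH D B n y) = 0 :=
  mem_range_iff_forall_eq_zero (HcBd D A m) (locH D A m) (ker_HcBd_eq_range_locH D A m)
    (Phi D φ hφ (m + 1) n 3 (by omega) tr) hΦ (locDual D φ hφ m n 2 h tr) (locH D B n)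
    (fun w y => Phi_HcBd D φ hφ m n 2 h tr w y) w

/-- Reciprocity: localisations of global classes are orthogonal. -/
theorem locDual_locH_locH (m n : ℕ) (h : m + n = 2) (tr : Hc D C 3 →ₗ[k] k)
    (x : levelCohomology 𝒰 A m) (y : levelCohomology 𝒰 B n) :
    locDual D φ hφ m n 2 h tr (locH D A m x) (locH D B n y) = 0 := by
  rw [← Phi_HcBd D φ hφ m n 2 h tr]
  have h0 : HcBd D A m (locH D A m x) = 0 := by
    rw [← LinearMap.mem_ker, ker_HcBd_eq_range_locH]
    exact ⟨x, rfl⟩
  rw [h0, map_zero]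
  rfl

end General

section Main

variable {k G : Type u} [Field k] [Group G] {𝒰 : LevelStructure G} (D : LocalData 𝒰)
  (χ : G →* kˣ) [IsDiscrete 𝒰 (ofChar χ)] (tr : Hc D (ofChar χ) 3 →ₗ[k] k)
  (hmain : MainConclusion D χ tr)
  (M : Rep.{u} k G) [IsDiscrete 𝒰 M] [FiniteDimensional k M] [IsDiscrete 𝒰 (M.dualTwist χ)]

include hmain

/-- `im (H¹(G, M) → ∏ H¹(G_v, M))` is the annihilator of `im (H¹(G, M') → ∏ H¹(G_v, M'))`. -/
theorem mem_range_locH_one_iff
    (w : ∀ v, levelCohomology (D.𝒱 v) (Rep.res (D.r v) M) 1) :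
    w ∈ LinearMap.range (locH D M 1) ↔
      ∀ y : levelCohomology 𝒰 (M.dualTwist χ) 1,
        locDual D (evalPairing' χ M) (evalPairing'_equivariant χ M) 1 1 2 rfl tr w
          (locH D (M.dualTwist χ) 1 y) = 0 :=
  mem_range_locH_iff D (evalPairing' χ M) (evalPairing'_equivariant χ M) 1 1 rfl tr
    (hmain M).2 w

/-- `im (H⁰(G, M') → ∏ H⁰(G_v, M'))` is the annihilator of `im (H²(G, M) → ∏ H²(G_v, M))`. -/
theorem mem_range_locH_zero_iff
    (w : ∀ v, levelCohomology (D.𝒱 v) (Rep.res (D.r v) (M.dualTwist χ)) 0) :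
    w ∈ LinearMap.range (locH D (M.dualTwist χ) 0) ↔
      ∀ y : levelCohomology 𝒰 M 2,
        locDual D (evalPairing χ M) (evalPairing_equivariant χ M) 0 2 2 rfl tr w
          (locH D M 2 y) = 0 :=
  mem_range_locH_iff D (evalPairing χ M) (evalPairing_equivariant χ M) 0 2 rfl tr
    (injective_Phi_of_main D χ tr hmain M).1 w

end Main

end Fermat.Agent.S56.PT.Middle
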