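/-
S56 / block (II), Poitou–Tate consequences (helper25): SELMER GROUPS in the vocabulary of S55, and
the Greenberg–Wiles dimension formula.

Setting: `(G, 𝒰)` a group with a level structure, `D` local data (finitely many places), a
character `χ` with `k(χ)` discrete, a linear form `tr` on `Hc³(k(χ))`, a finite dimensional discrete
`M` with twisted dual `M' = M.dualTwist χ`.

* `LocalCond D M` : a subspace `𝓛 v ≤ H¹(G_v, M)` for every place `v`;
* `tatePairing D χ tr M v : H¹(G_v, M) → H¹(G_v, M')^*`, `a ↦ (q ↦ inv_v (a ∪ q))`;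
* `LocalCond.perp` : the orthogonal local conditions for `M'`;
* `Sel D M 𝓛 ≤ H¹(G, M)` : the Selmer group;
* `PTHyp D χ tr` : the output of S55 (`MainConclusion` + local duality over the local level
  subgroups + finiteness of the local `H¹`);
* **`finrank_sel_formula`** :
  `dim Sel_𝓛(M) + dim Ш¹(M') + ∑_v dim H¹(G_v, M) = dim Sel_{𝓛^⊥}(M') + dim H¹(G, M) + ∑_v dim 𝓛_v`;
* **`finrank_sel_change`** : change of the local conditions;
* **`delta_formula`** :
  `dim Sel_𝓛(M) + dim H²(G, M) + ∑_v dim H¹(G_v, M) + dim im (H⁰(G, M') → ∏ H⁰(G_v, M'))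
    = dim Sel_{𝓛^⊥}(M') + dim H¹(G, M) + ∑_v dim 𝓛_v + ∑_v dim H²(G_v, M)`;
* **`delta_formula'`** : the same with `dim H⁰(G, M')` (at least one place) and
  `dim H²(G_v, M) = dim H⁰(G_v, M')`.
-/
import Mathlib
import Fermat.Agent.S55.ConeEndgame
import Fermat.Agent.S56.PT.SelmerLinAlg
import Fermat.Agent.S56.PT.LocalDuality
import Fermat.Agent.S56.PT.Middle

set_option autoImplicit false
set_option linter.unusedSectionVars false

namespace Fermat.Agent.S56.PT.Selmer

open CategoryTheory groupCohomology Rep Module Fermat.Agent.S55.Level Fermat.Agent.S55.Cone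
  Fermat.Agent.S55.DualTwist Fermat.Agent.S55.Main Fermat.Agent.S55.LevelDuality
  Fermat.Agent.S55.CochainTools
  Fermat.Agent.S56.PT.SelmerLinAlg Fermat.Agent.S56.PT.LocalDuality Fermat.Agent.S56.PT.Middle

universe u

/-! ### `H⁰` injects into the local `H⁰` -/

section HZero

variable {k G H : Type u} [CommRing k] [Group G] [Group H]
  {𝒰 : LevelStructure G} {𝒱 : LevelStructure H}

/-- Restriction is injective on `H⁰`. -/
theorem levelCohomologyMap_zero_injective (f : H →* G) (hf : 𝒱.Refines 𝒰 f) (A : Rep.{u} k G)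
    [IsDiscrete 𝒰 A] [IsDiscrete 𝒱 (Rep.res f A)] :
    Function.Injective (levelCohomologyMap f hf (𝟙 (Rep.res f A)) 0).hom := by
  rw [injective_iff_map_eq_zero]
  intro x hx
  obtain ⟨z, hz⟩ := cls_surjective (levelComplex 𝒰 A) 0
    (show (levelComplex 𝒰 A).homology 0 from x)
  have hx' : cls (levelComplex 𝒱 (Rep.res f A)) 0
      (mapZ (levelCochainsMap f hf (𝟙 (Rep.res f A))) 0 z) = 0 := by
    rw [← homologyMap_cls, hz]
    exact hx
  rw [cls_eq_zero_iff, mem_B_zero_iff] at hx'
  have hz0 : z = 0 := by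
    apply Subtype.ext
    have h1 : ((levelCochainsMap f hf (𝟙 (Rep.res f A))).f 0).hom z.1 = 0 :=
      congrArg Subtype.val hx'
    apply Subtype.ext
    funext g
    have h2 := congrFun (congrArg Subtype.val h1) (fun i => Fin.elim0 i)
    have hg : g = f ∘ (fun i => Fin.elim0 i) := Subsingleton.elim _ _
    rw [hg]
    exact h2
  have h0 : (show (levelComplex 𝒰 A).homology 0 from x) = 0 := by
    rw [← hz, hz0, map_zero]
  exact h0

end HZero

variable {k G : Type u} [Field k] [Group G] {𝒰 : LevelStructure G}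

/-- The localisation map is injective on `H⁰` as soon as there is a place. -/
theorem locH_zero_injective (D : LocalData 𝒰) [Nonempty D.ι] (A : Rep.{u} k G)
    [IsDiscrete 𝒰 A] : Function.Injective (locH D A 0) := by
  obtain ⟨v⟩ := ‹Nonempty D.ι›
  intro x y hxy
  exact levelCohomologyMap_zero_injective (D.r v) (D.refines v) A (congrFun hxy v)

/-! ### Definitions -/

section Defs

variable (D : LocalData 𝒰) [DecidableEq D.ι] [Fintype D.ι] (χ : G →* kˣ)
  [IsDiscrete 𝒰 (ofChar χ)] (tr : Hc D (ofChar χ) 3 →ₗ[k] k)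
  (M : Rep.{u} k G) [IsDiscrete 𝒰 M] [FiniteDimensional k M] [IsDiscrete 𝒰 (M.dualTwist χ)]

/-- A family of local conditions: a subspace of `H¹(G_v, M)` for every place `v`. -/
abbrev LocalCond : Type u :=
  ∀ v : D.ι, Submodule k (levelCohomology (D.𝒱 v) (Rep.res (D.r v) M) 1)

/-- The local Tate pairing at `v`, as a map `H¹(G_v, M) → H¹(G_v, M')^*`. -/
noncomputable def tatePairing (v : D.ι) :
    levelCohomology (D.𝒱 v) (Rep.res (D.r v) M) 1 →ₗ[k]
      Dual k (levelCohomology (D.𝒱 v) (Rep.res (D.r v) (M.dualTwist χ)) 1) :=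
  (cupLoc D (evalPairing' χ M) (evalPairing'_equivariant χ M) v 1 1 2 rfl).compr₂ (invAt D tr v)

theorem tatePairing_apply (v : D.ι) (a : levelCohomology (D.𝒱 v) (Rep.res (D.r v) M) 1)
    (q : levelCohomology (D.𝒱 v) (Rep.res (D.r v) (M.dualTwist χ)) 1) :
    tatePairing D χ tr M v a q =
      invAt D tr v (cupLoc D (evalPairing' χ M) (evalPairing'_equivariant χ M) v 1 1 2 rfl a q) :=
  rfl

/-- The sum of the local duality maps of the cone is the sum of the local Tate pairings. -/
theorem locDual_eq_sumPairing :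
    locDual D (evalPairing' χ M) (evalPairing'_equivariant χ M) 1 1 2 rfl tr =
      sumPairing (tatePairing D χ tr M) := by
  refine LinearMap.ext fun w => LinearMap.ext fun q => ?_
  rw [locDual_eq_sum, sumPairing_apply]
  rfl

/-- The orthogonal local conditions for `M'`. -/
noncomputable def LocalCond.perp (𝓛 : LocalCond D M) : LocalCond D (M.dualTwist χ) :=
  fun v => annR (tatePairing D χ tr M v) (𝓛 v)

theorem LocalCond.mem_perp (𝓛 : LocalCond D M) (v : D.ι)
    (q : levelCohomology (D.𝒱 v) (Rep.res (D.r v) (M.dualTwist χ)) 1) :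
    q ∈ LocalCond.perp D χ tr M 𝓛 v ↔ ∀ a ∈ 𝓛 v, tatePairing D χ tr M v a q = 0 :=
  mem_annR

theorem LocalCond.perp_anti {𝓛 𝓛' : LocalCond D M} (h : ∀ v, 𝓛 v ≤ 𝓛' v) (v : D.ι) :
    LocalCond.perp D χ tr M 𝓛' v ≤ LocalCond.perp D χ tr M 𝓛 v :=
  annR_anti (h v)

end Defs

section Sel

variable (D : LocalData 𝒰) (M : Rep.{u} k G) [IsDiscrete 𝒰 M]

/-- The Selmer group of a family of local conditions. -/
noncomputable def Sel (𝓛 : ∀ v : D.ι, Submodule k (levelCohomology (D.𝒱 v) (Rep.res (D.r v) M) 1)) :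
    Submodule k (levelCohomology 𝒰 M 1) :=
  (Submodule.pi Set.univ 𝓛).comap (locH D M 1)

variable {D M}

theorem mem_Sel (𝓛 : ∀ v : D.ι, Submodule k (levelCohomology (D.𝒱 v) (Rep.res (D.r v) M) 1))
    (x : levelCohomology 𝒰 M 1) :
    x ∈ Sel D M 𝓛 ↔ ∀ v, locH D M 1 x v ∈ 𝓛 v := by
  rw [Sel, Submodule.mem_comap, Submodule.mem_pi]
  exact ⟨fun h v => h v (Set.mem_univ v), fun h v _ => h v⟩

theorem Sel_mono {𝓛 𝓛' : ∀ v : D.ι, Submodule k (levelCohomology (D.𝒱 v) (Rep.res (D.r v) M) 1)}
    (h : ∀ v, 𝓛 v ≤ 𝓛' v) : Sel D M 𝓛 ≤ Sel D M 𝓛' :=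
  fun x hx => (mem_Sel 𝓛' x).2 fun v => h v ((mem_Sel 𝓛 x).1 hx v)

/-- The relaxed Selmer group is everything. -/
theorem Sel_top : Sel D M (fun _ => ⊤) = ⊤ :=
  eq_top_iff.2 fun x _ => (mem_Sel _ x).2 fun _ => Submodule.mem_top

/-- The strict Selmer group is `Ш¹`. -/
theorem Sel_bot : Sel D M (fun _ => ⊥) = LinearMap.ker (locH D M 1) := by
  ext x
  rw [mem_Sel, LinearMap.mem_ker]
  constructor
  · intro h
    funext v
    exact (Submodule.mem_bot k).1 (h v)
  · intro h v
    rw [h]
    exact Submodule.zero_mem _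

end Sel

/-! ### The hypotheses (= the output of S55) -/

/-- The Poitou–Tate input: the conclusion of the global dévissage of S55 and local duality (mono
form over the local level subgroups, finiteness of the local `H¹`). -/
structure PTHyp (D : LocalData 𝒰) [DecidableEq D.ι] [Finite D.ι] (χ : G →* kˣ)
    [IsDiscrete 𝒰 (ofChar χ)] (tr : Hc D (ofChar χ) 3 →ₗ[k] k) : Prop where
  main : MainConclusion D χ tr
  loc : LocalHyp D χ tr

section Formula

variable {D : LocalData 𝒰} [DecidableEq D.ι] [Fintype D.ι] {χ : G →* kˣ}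
  [IsDiscrete 𝒰 (ofChar χ)] {tr : Hc D (ofChar χ) 3 →ₗ[k] k}
  (M : Rep.{u} k G) [IsDiscrete 𝒰 M] [FiniteDimensional k M] [IsDiscrete 𝒰 (M.dualTwist χ)]
  (h : PTHyp D χ tr)

include h

theorem finiteDimensional_prod (X : Rep.{u} k G) [IsDiscrete 𝒰 X] [FiniteDimensional k X]
    (n : ℕ) (hn : n ≤ 2) :
    FiniteDimensional k (∀ v, levelCohomology (D.𝒱 v) (Rep.res (D.r v) X) n) := by
  have hX' : IsDiscrete 𝒰 (X.dualTwist χ) := isDiscrete_dualTwist 𝒰 χ X
  have : ∀ v, FiniteDimensional k (levelCohomology (D.𝒱 v) (Rep.res (D.r v) X) n) :=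
    fun v => finiteDimensional_loc X h.loc v n hn
  infer_instance

variable [FiniteDimensional k (levelCohomology 𝒰 M 1)]
  [FiniteDimensional k (levelCohomology 𝒰 (M.dualTwist χ) 1)]

/-- **Greenberg–Wiles, dimension form.** -/
theorem finrank_sel_formula (𝓛 : LocalCond D M) :
    finrank k (Sel D M 𝓛) + finrank k (LinearMap.ker (locH D (M.dualTwist χ) 1)) +
        ∑ v, finrank k (levelCohomology (D.𝒱 v) (Rep.res (D.r v) M) 1) =
      finrank k (Sel D (M.dualTwist χ) (LocalCond.perp D χ tr M 𝓛)) +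
        finrank k (levelCohomology 𝒰 M 1) + ∑ v, finrank k (𝓛 v) := by
  have hfdM' : FiniteDimensional k (M.dualTwist χ) :=
    inferInstanceAs (FiniteDimensional k (Module.Dual k M))
  have hP := finiteDimensional_prod h M 1 (by norm_num)
  have hQ := finiteDimensional_prod h (M.dualTwist χ) 1 (by norm_num)
  have h1 : ∀ v, FiniteDimensional k (levelCohomology (D.𝒱 v) (Rep.res (D.r v) M) 1) :=
    fun v => finiteDimensional_loc M h.loc v 1 (by norm_num)
  have key := finrank_selmer_formula (locH D M 1) (locH D (M.dualTwist χ) 1)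
    (locDual D (evalPairing' χ M) (evalPairing'_equivariant χ M) 1 1 2 rfl tr)
    (locDual_bijective_one_one M h.loc) (mem_range_locH_one_iff D χ tr h.main M)
    (Submodule.pi Set.univ 𝓛)
  have e1 : selDual (locH D (M.dualTwist χ) 1)
      (locDual D (evalPairing' χ M) (evalPairing'_equivariant χ M) 1 1 2 rfl tr)
      (Submodule.pi Set.univ 𝓛) = Sel D (M.dualTwist χ) (LocalCond.perp D χ tr M 𝓛) := by
    show Submodule.comap _ (annR _ _) = Submodule.comap _ _
    rw [locDual_eq_sumPairing, annR_pi]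
    rfl
  rw [e1, SelmerLinAlg.finrank_pi, Module.finrank_pi_fintype] at key
  exact key

/-- **Change of the local conditions.** -/
theorem finrank_sel_change (𝓛 𝓛' : LocalCond D M) :
    finrank k (Sel D M 𝓛') + finrank k (Sel D (M.dualTwist χ) (LocalCond.perp D χ tr M 𝓛)) +
        ∑ v, finrank k (𝓛 v) =
      finrank k (Sel D M 𝓛) + finrank k (Sel D (M.dualTwist χ) (LocalCond.perp D χ tr M 𝓛')) +
        ∑ v, finrank k (𝓛' v) := by
  have h1 := finrank_sel_formula M h 𝓛
  have h2 := finrank_sel_formula M h 𝓛'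
  omega

/-- `Ш¹(M')` and `Ш²(M)` have the same dimension. -/
theorem finrank_sha :
    FiniteDimensional k (LinearMap.ker (locH D M 2)) ∧
      finrank k (LinearMap.ker (locH D (M.dualTwist χ) 1)) =
        finrank k (LinearMap.ker (locH D M 2)) := by
  have hfdM' : FiniteDimensional k (M.dualTwist χ) :=
    inferInstanceAs (FiniteDimensional k (Module.Dual k M))
  have hdd : IsDiscrete 𝒰 ((M.dualTwist χ).dualTwist χ) := isDiscrete_dualTwist 𝒰 χ _
  have h1' : ∀ v, FiniteDimensional k
      (levelCohomology (D.𝒱 v) (Rep.res (D.r v) (M.dualTwist χ)) 1) :=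
    fun v => finiteDimensional_loc (M.dualTwist χ) h.loc v 1 (by norm_num)
  obtain ⟨hΦ1, hΦ2⟩ := injective_Phi_of_main D χ tr h.main M
  obtain ⟨hι0, hι1⟩ := locDual_surjective_of_localBase D χ tr M h.loc.base h1'
  obtain ⟨hfd, hrk, -⟩ := sha_pairing_of_cone D (evalPairing χ M) (evalPairing_equivariant χ M)
    tr hΦ1 hΦ2 hι0 hι1
  exact ⟨hfd, hrk⟩

/-- `H²(G, M)` is finite dimensional. -/
theorem finiteDimensional_two_global : FiniteDimensional k (levelCohomology 𝒰 M 2) := by
  have hP := finiteDimensional_prod h M 2 le_rfl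
  have hker := (finrank_sha M h).1
  have hrange : FiniteDimensional k (LinearMap.range (locH D M 2)) := inferInstance
  have hquot : FiniteDimensional k (levelCohomology 𝒰 M 2 ⧸ LinearMap.ker (locH D M 2)) :=
    (locH D M 2).quotKerEquivRange.symm.finiteDimensional
  exact Module.Finite.of_submodule_quotient (LinearMap.ker (locH D M 2))

/-- **The `δ`-formula**: Greenberg–Wiles with `Ш¹(M')` eliminated. -/
theorem delta_formula (𝓛 : LocalCond D M) :
    finrank k (Sel D M 𝓛) + finrank k (levelCohomology 𝒰 M 2) +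
        ∑ v, finrank k (levelCohomology (D.𝒱 v) (Rep.res (D.r v) M) 1) +
        finrank k (LinearMap.range (locH D (M.dualTwist χ) 0)) =
      finrank k (Sel D (M.dualTwist χ) (LocalCond.perp D χ tr M 𝓛)) +
        finrank k (levelCohomology 𝒰 M 1) + ∑ v, finrank k (𝓛 v) +
        ∑ v, finrank k (levelCohomology (D.𝒱 v) (Rep.res (D.r v) M) 2) := by
  have hfdM' : FiniteDimensional k (M.dualTwist χ) :=
    inferInstanceAs (FiniteDimensional k (Module.Dual k M))
  have hH2 := finiteDimensional_two_global M h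
  have hH0' : FiniteDimensional k (levelCohomology 𝒰 (M.dualTwist χ) 0) :=
    finiteDimensional_levelCohomology_zero 𝒰 _
  have hP2 := finiteDimensional_prod h M 2 le_rfl
  have hP0' := finiteDimensional_prod h (M.dualTwist χ) 0 (by norm_num)
  have h2 : ∀ v, FiniteDimensional k (levelCohomology (D.𝒱 v) (Rep.res (D.r v) M) 2) :=
    fun v => finiteDimensional_loc M h.loc v 2 le_rfl
  have e1 := finrank_sel_formula M h 𝓛
  have e2 := (finrank_sha M h).2
  have e3 := LinearMap.finrank_range_add_finrank_ker (locH D M 2)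
  have e4 := finrank_range_add_finrank_range (locH D (M.dualTwist χ) 0) (locH D M 2)
    (locDual D (evalPairing χ M) (evalPairing_equivariant χ M) 0 2 2 rfl tr)
    (locDual_bijective_zero_two M h.loc) (mem_range_locH_zero_iff D χ tr h.main M)
  rw [Module.finrank_pi_fintype] at e4
  omega

/-- **The `δ`-formula**, with `dim H⁰(G, M')` and `dim H²(G_v, M) = dim H⁰(G_v, M')`. -/
theorem delta_formula' [Nonempty D.ι] (𝓛 : LocalCond D M) :
    finrank k (Sel D M 𝓛) + finrank k (levelCohomology 𝒰 M 2) +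
        ∑ v, finrank k (levelCohomology (D.𝒱 v) (Rep.res (D.r v) M) 1) +
        finrank k (levelCohomology 𝒰 (M.dualTwist χ) 0) =
      finrank k (Sel D (M.dualTwist χ) (LocalCond.perp D χ tr M 𝓛)) +
        finrank k (levelCohomology 𝒰 M 1) + ∑ v, finrank k (𝓛 v) +
        ∑ v, finrank k (levelCohomology (D.𝒱 v) (Rep.res (D.r v) (M.dualTwist χ)) 0) := by
  have e1 := delta_formula M h 𝓛
  have e2 : finrank k (LinearMap.range (locH D (M.dualTwist χ) 0)) =
      finrank k (levelCohomology 𝒰 (M.dualTwist χ) 0) :=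
    LinearMap.finrank_range_of_inj (locH_zero_injective D (M.dualTwist χ))
  have e3 : ∑ v, finrank k (levelCohomology (D.𝒱 v) (Rep.res (D.r v) M) 2) =
      ∑ v, finrank k (levelCohomology (D.𝒱 v) (Rep.res (D.r v) (M.dualTwist χ)) 0) :=
    Finset.sum_congr rfl fun v _ => finrank_loc_two_eq M h.loc v
  rw [e2, e3] at e1
  exact e1

end Formula

end Fermat.Agent.S56.PT.Selmer
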