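/-
S56 / block (II), leaf C7 (helper25): INFLATION between the level structures `globalLevel S ⊆
globalLevel T` on `Γ = Gal(ℚ̄/ℚ)` (i.e. `H¹(G_S, M) → H¹(G_T, M)`), and the description of the
classes that are locally trivial at the primes of `T ∖ S`.

Generic part (`𝒰, 𝒱` level structures on one group `G`, `𝒰.sets ⊆ 𝒱.sets`):

* `inflLevel h M n : Hⁿ(𝒰, M) → Hⁿ(𝒱, M)`; `inflLevel_levelH1π`; `inflLevel_one_injective`;
  `mem_range_inflLevel_one_iff` (classes having a cocycle representative of level in `𝒰`);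
* `isCob_conj`, `trivSub` (cocycle calculus).

Arithmetic part (`S ⊆ T`, `M` a finite discrete `𝔽_p[G_S]`-module):

* `resAt S M q n : Hⁿ(G_S, M) → Hⁿ(G_q, M)` for an ARBITRARY prime `q` (`locH_eq_resAt`: the
  component of `locH (localData S)` if `q ∈ S`); `resAt_inflLevel`, `locH_inflLevel` (inflation
  commutes with localisation);
* `resAt_levelH1π_eq_zero_iff`, `isCob_of_resAt_eq_zero` : if `res_q [z] = 0` then for every place
  `A | q` and every `σ` in the decomposition group of `A` (e.g. every Frobenius) `z σ ∈ (σ − 1) M`;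
  `resAt_ne_zero_of_not_isCob` (contrapositive = the output of `TW/OneClass`, `TW/SelectAd0`);
* `isLevel₁_of_isCob_inertia` (cocycle form), **`mem_range_inflLevel_of_resAt_eq_zero`**,
  `mem_range_inflLevel_of_locH_eq_zero`, `forall_resAt_eq_zero_iff` : a class of `H¹(G_T, M)` whose
  restrictions to `G_q` vanish for all `q ∈ T ∖ S` is inflated from `H¹(G_S, M)`;
* Selmer groups: `killedAt`, `not_mem_killedAt_of_not_isCob`, **`mem_Sel_iff_of_subset`**,
  **`Sel_eq_bot_of_iInf_killedAt`** (the dual Selmer group over `T = S ∪ Q` with zero conditions at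
  `Q` vanishes as soon as `⋂_{q ∈ Q} killedAt q = 0`, the output of `TW/KillDualPad`).
-/
import Mathlib
import Fermat.Agent.S55.LevelH1
import Fermat.Agent.S55.LevelGalois
import Fermat.Agent.S55.LevelConj
import Fermat.Agent.S55.Assembly
import Fermat.Agent.S56.Places.Dict
import Fermat.Agent.S56.Tan.Level
import Fermat.Agent.S56.PT.Selmer

set_option autoImplicit false
set_option linter.unusedSectionVars false

namespace Fermat.Agent.S56.PT.Inflation

open CategoryTheory groupCohomology Rep Module Fermat.Agent.S55.Level Fermat.Agent.S55.Cone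

universe u

/-! ### Change of the level structure -/

section Generic

variable {k G : Type u} [CommRing k] [Group G] {𝒰 𝒱 : LevelStructure G}

/-- Alias of S55 `Level.mem_levelCochains₁_iff` (the bare name is ambiguous with the prelude
`groupCohomology.mem_levelCochains₁_iff` when both namespaces are opened). -/
theorem memLev₁_iff (𝒲 : LevelStructure G) (A : Rep.{u} k G) (f : G → A) :
    f ∈ levelCochains₁ 𝒲 A ↔ IsLevel₁ 𝒲 f :=
  Fermat.Agent.S55.Level.mem_levelCochains₁_iff 𝒲 A f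

/-- A finer level structure refines a coarser one along the identity. -/
theorem refines_id_of_subset (h : 𝒰.sets ⊆ 𝒱.sets) : 𝒱.Refines 𝒰 (MonoidHom.id G) :=
  fun U hU => ⟨U, h hU, le_of_eq (Subgroup.comap_id U).symm⟩

/-- A representation discrete for `𝒰` is discrete for every finer `𝒱`. -/
theorem isDiscrete_of_subset (h : 𝒰.sets ⊆ 𝒱.sets) (M : Rep.{u} k G) [IsDiscrete 𝒰 M] :
    IsDiscrete 𝒱 M :=
  ⟨fun a => by
    obtain ⟨U, hU, hfix⟩ := IsDiscrete.exists_fix (𝒰 := 𝒰) (A := M) a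
    exact ⟨U, h hU, hfix⟩⟩

theorem isLevel₁_of_subset (h : 𝒰.sets ⊆ 𝒱.sets) {X : Type*} {f : G → X} (hf : IsLevel₁ 𝒰 f) :
    IsLevel₁ 𝒱 f := by
  obtain ⟨U, hU, hinv⟩ := hf
  exact ⟨U, h hU, hinv⟩

variable (h : 𝒰.sets ⊆ 𝒱.sets) (M : Rep.{u} k G) [IsDiscrete 𝒰 M] [IsDiscrete 𝒱 M]

/-- Inflation `Hⁿ(𝒰, M) → Hⁿ(𝒱, M)` for `𝒰 ⊆ 𝒱`. -/
noncomputable def inflLevel (n : ℕ) : levelCohomology 𝒰 M n →ₗ[k] levelCohomology 𝒱 M n :=
  (levelCohomologyMap (𝒰 := 𝒰) (𝒱 := 𝒱) (A := M) (B := M) (MonoidHom.id G)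
    (refines_id_of_subset h) (𝟙 M) n).hom

/-- A level 1-cocycle for `𝒰` is a level 1-cocycle for `𝒱`. -/
def cocycleOfSubset (z : levelCocycles₁ 𝒰 M) : levelCocycles₁ 𝒱 M :=
  ⟨z.1, z.2.1, (memLev₁_iff 𝒱 M z.1).2
    (isLevel₁_of_subset h ((memLev₁_iff 𝒰 M z.1).1 z.2.2))⟩

@[simp] theorem cocycleOfSubset_val (z : levelCocycles₁ 𝒰 M) : (cocycleOfSubset h M z).1 = z.1 :=
  rfl

/-- Inflation on cocycle representatives. -/
theorem inflLevel_levelH1π (z : levelCocycles₁ 𝒰 M) :
    inflLevel h M 1 (levelH1π 𝒰 M z) = levelH1π 𝒱 M (cocycleOfSubset h M z) := by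
  refine levelCohomologyMap_levelπ (MonoidHom.id G) (refines_id_of_subset h) (𝟙 M) 1
    (levelCocycles₁ToLevelCocycles 𝒰 M z) (levelCocycles₁ToLevelCocycles 𝒱 M
      (cocycleOfSubset h M z)) (fun g => ?_)
  rfl

/-- Inflation is injective on `H¹`. -/
theorem inflLevel_one_injective : Function.Injective (inflLevel h M 1) := by
  rw [injective_iff_map_eq_zero]
  intro x hx
  obtain ⟨z, rfl⟩ := levelH1π_surjective 𝒰 M x
  rw [inflLevel_levelH1π, levelH1π_eq_zero_iff] at hx
  exact (levelH1π_eq_zero_iff 𝒰 M z).2 hx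

/-- The image of inflation on `H¹`: the classes with a cocycle representative of level in `𝒰`. -/
theorem mem_range_inflLevel_one_iff (x : levelCohomology 𝒱 M 1) :
    x ∈ LinearMap.range (inflLevel h M 1) ↔
      ∃ z : levelCocycles₁ 𝒱 M, IsLevel₁ 𝒰 z.1 ∧ levelH1π 𝒱 M z = x := by
  constructor
  · rintro ⟨y, rfl⟩
    obtain ⟨z, rfl⟩ := levelH1π_surjective 𝒰 M y
    exact ⟨cocycleOfSubset h M z, (memLev₁_iff 𝒰 M z.1).1 z.2.2,
      (inflLevel_levelH1π h M z).symm⟩
  · rintro ⟨z, hz, rfl⟩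
    refine ⟨levelH1π 𝒰 M ⟨z.1, z.2.1, (memLev₁_iff 𝒰 M z.1).2 hz⟩, ?_⟩
    rw [inflLevel_levelH1π]
    rfl

end Generic

/-! ### Cocycles: conjugation, the subgroup where a cocycle and the action are trivial -/

section Cocycle

variable {k G : Type u} [CommRing k] [Group G] {M : Rep.{u} k G}

/-- For a 1-cocycle `z`, the property `z σ ∈ (σ − 1) M` is invariant under conjugation. -/
theorem isCob_conj {z : G → M} (hz : z ∈ cocycles₁ M) (g σ : G)
    (h : ∃ m : M, z σ = M.ρ σ m - m) : ∃ m : M, z (g * σ * g⁻¹) = M.ρ (g * σ * g⁻¹) m - m := by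
  obtain ⟨m, hm⟩ := h
  have hc := (mem_cocycles₁_iff z).1 hz
  have hinv : M.ρ g (z g⁻¹) = -z g := cocycles₁_map_inv ⟨z, hz⟩ g
  refine ⟨M.ρ g m - z g, ?_⟩
  have e1 : z (g * σ * g⁻¹) = M.ρ (g * σ) (z g⁻¹) + (M.ρ g (z σ) + z g) := by
    rw [hc (g * σ) g⁻¹, hc g σ]
  have e2 : M.ρ (g * σ) (z g⁻¹) = -M.ρ (g * σ * g⁻¹) (z g) := by
    have : M.ρ (g * σ * g⁻¹) (M.ρ g (z g⁻¹)) = M.ρ (g * σ) (z g⁻¹) := by
      rw [← Module.End.mul_apply, ← map_mul]
      congr 2
      group
    rw [← this, hinv, map_neg]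
  have e3 : M.ρ (g * σ * g⁻¹) (M.ρ g m) = M.ρ g (M.ρ σ m) := by
    rw [← Module.End.mul_apply, ← map_mul, ← Module.End.mul_apply, ← map_mul]
    congr 2
    group
  rw [e1, e2, hm, map_sub, map_sub, e3]
  abel

/-- The subgroup on which a 1-cocycle vanishes and the action is trivial. -/
def trivSub (z : G → M) (hz : z ∈ cocycles₁ M) : Subgroup G where
  carrier := {g | z g = 0 ∧ M.ρ g = 1}
  one_mem' := ⟨cocycles₁_map_one ⟨z, hz⟩, map_one _⟩
  mul_mem' := by
    rintro a b ⟨ha, ha'⟩ ⟨hb, hb'⟩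
    refine ⟨?_, by rw [map_mul, ha', hb', mul_one]⟩
    rw [(mem_cocycles₁_iff z).1 hz a b, hb, ha, map_zero, add_zero]
  inv_mem' := by
    rintro a ⟨ha, ha'⟩
    have hinv1 : M.ρ a⁻¹ = 1 := by
      have h1 : M.ρ a⁻¹ * M.ρ a = 1 := by rw [← map_mul, inv_mul_cancel, map_one]
      rwa [ha', mul_one] at h1
    refine ⟨?_, hinv1⟩
    have h := cocycles₁_map_inv ⟨z, hz⟩ a
    have h' : M.ρ a (z a⁻¹) = -z a := h
    rw [ha', ha, neg_zero] at h'
    exact h'

theorem mem_trivSub {z : G → M} {hz : z ∈ cocycles₁ M} {g : G} :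
    g ∈ trivSub z hz ↔ z g = 0 ∧ M.ρ g = 1 := Iff.rfl

instance trivSub_normal (z : G → M) (hz : z ∈ cocycles₁ M) : (trivSub z hz).Normal := by
  constructor
  rintro a ⟨ha, ha'⟩ g
  have hρ : M.ρ (g * a * g⁻¹) = 1 := by
    rw [map_mul, map_mul, ha', mul_one, ← map_mul, mul_inv_cancel, map_one]
  refine ⟨?_, hρ⟩
  obtain ⟨m, hm⟩ := isCob_conj hz g a ⟨0, by rw [ha, map_zero, sub_zero]⟩
  rw [hm, hρ]
  exact sub_self m

/-- A cocycle is right invariant under `trivSub`. -/
theorem apply_mul_of_mem_trivSub {z : G → M} (hz : z ∈ cocycles₁ M) (g : G) {s : G}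
    (hs : s ∈ trivSub z hz) : z (g * s) = z g := by
  rw [(mem_cocycles₁_iff z).1 hz g s, hs.1, map_zero, zero_add]

end Cocycle

/-! ### The arithmetic situation -/

section Arith

open ExtCitation Fermat.Agent.S55.Assembly Fermat.Agent.S56.Places.Dict
  Fermat.Agent.S56.Tan.Level Fermat.Agent.S55.Bridge

local notation "Qbar" => AlgebraicClosure ℚ
local notation "Γ" => (AlgebraicClosure ℚ ≃ₐ[ℚ] AlgebraicClosure ℚ)

variable {p : ℕ} [Fact p.Prime]

/-- `globalLevel` is monotone in the set of primes. -/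
theorem globalLevel_mono {S T : Finset Nat.Primes} (hST : S ⊆ T) :
    (globalLevel S).sets ⊆ (globalLevel T).sets := by
  rintro U ⟨hUn, F, hF, hFU⟩
  exact ⟨hUn, F, ⟨hF.1, fun q hq A hA => hF.2 q (fun h => hq (hST h)) A hA⟩, hFU⟩

/-! #### Restriction to the local group at an arbitrary prime -/

section ResAt

/-- A `G_S`-discrete module is discrete for the local level structure at EVERY prime `q` (in `S`
or not).  Use as `haveI := isDiscrete_local S M q`. -/
theorem isDiscrete_local (S : Finset Nat.Primes) (M : Rep (ZMod p) Γ)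
    [IsDiscrete (globalLevel S) M] (q : Nat.Primes) :
    IsDiscrete (localLevel (primeLocalToGlobal q)) (Rep.res (primeLocalToGlobal q) M) :=
  isDiscrete_localLevel_res S M _

variable (S : Finset Nat.Primes) (M : Rep (ZMod p) Γ) [IsDiscrete (globalLevel S) M]

/-- The restriction map `Hⁿ(G_S, M) → Hⁿ(G_q, M)` at an ARBITRARY prime `q` (the S55 `levelRes`
along `primeLocalToGlobal q`); for `q ∈ S` it is the `q`-component of `locH (localData S)`. -/
noncomputable def resAt (q : Nat.Primes) (n : ℕ) :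
    haveI := isDiscrete_local S M q
    levelCohomology (globalLevel S) M n →ₗ[ZMod p]
      levelCohomology (localLevel (primeLocalToGlobal q)) (Rep.res (primeLocalToGlobal q) M) n :=
  haveI := isDiscrete_local S M q
  levelRes S M (primeLocalToGlobal q) n

/-- At the primes of `S`, `resAt` is the component of the localisation map of S55. -/
theorem locH_eq_resAt (n : ℕ) (x : levelCohomology (globalLevel S) M n) (v : ↥S) :
    locH (localData S) M n x v = resAt S M v.1 n x := rfl

/-- The restriction of a level cocycle to the local group at `q`. -/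
noncomputable def resCocycle (q : Nat.Primes) (z : levelCocycles₁ (globalLevel S) M) :
    levelCocycles₁ (localLevel (primeLocalToGlobal q)) (Rep.res (primeLocalToGlobal q) M) :=
  ⟨fun τ => z.1 (primeLocalToGlobal q τ),
    (mem_cocycles₁_iff (A := Rep.res (primeLocalToGlobal q) M) _).2 (fun g h => by
      show z.1 (primeLocalToGlobal q (g * h)) = _
      rw [map_mul, (mem_cocycles₁_iff z.1).1 z.2.1]
      rfl),
    (memLev₁_iff _ _ _).2 (by
      obtain ⟨U, hU, hinv⟩ := (memLev₁_iff (globalLevel S) M z.1).1 z.2.2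
      obtain ⟨V, hV, hVU⟩ := localLevel_refines (primeLocalToGlobal q) S U hU
      refine ⟨V, hV, fun g s hs => ?_⟩
      show z.1 (primeLocalToGlobal q (g * s)) = z.1 (primeLocalToGlobal q g)
      rw [map_mul]
      exact hinv _ _ (hVU hs))⟩

@[simp] theorem resCocycle_apply (q : Nat.Primes) (z : levelCocycles₁ (globalLevel S) M)
    (τ : primeLocalGaloisGroup q) : (resCocycle S M q z).1 τ = z.1 (primeLocalToGlobal q τ) := rfl

/-- `resAt` on cocycle representatives. -/
theorem resAt_levelH1π (q : Nat.Primes) (z : levelCocycles₁ (globalLevel S) M) :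
    haveI := isDiscrete_local S M q
    resAt S M q 1 (levelH1π (globalLevel S) M z) =
      levelH1π (localLevel (primeLocalToGlobal q)) (Rep.res (primeLocalToGlobal q) M)
        (resCocycle S M q z) := by
  haveI := isDiscrete_local S M q
  refine levelCohomologyMap_levelπ (primeLocalToGlobal q)
    (localLevel_refines (primeLocalToGlobal q) S) (𝟙 _) 1
    (levelCocycles₁ToLevelCocycles (globalLevel S) M z)
    (levelCocycles₁ToLevelCocycles _ _ (resCocycle S M q z)) (fun g => ?_)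
  rfl

/-- **The class of `z` dies in `H¹(G_q, M)` iff `z` is a coboundary on (the image of) `G_q`.** -/
theorem resAt_levelH1π_eq_zero_iff (q : Nat.Primes) (z : levelCocycles₁ (globalLevel S) M) :
    resAt S M q 1 (levelH1π (globalLevel S) M z) = 0 ↔
      ∃ m : M, ∀ τ : primeLocalGaloisGroup q,
        z.1 (primeLocalToGlobal q τ) = M.ρ (primeLocalToGlobal q τ) m - m := by
  haveI := isDiscrete_local S M q
  rw [resAt_levelH1π, levelH1π_eq_zero_iff]
  constructor
  · rintro ⟨m, hm⟩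
    exact ⟨m, fun τ => (congrFun hm τ).symm⟩
  · rintro ⟨m, hm⟩
    exact ⟨m, funext fun τ => (hm τ).symm⟩

/-- **Locally trivial at `q` ⇒ coboundary at every element of every decomposition group over `q`**
(in particular at every Frobenius: `IsFrobeniusAt.mem_decompositionSubgroup`). -/
theorem isCob_of_resAt_eq_zero (q : Nat.Primes) (z : levelCocycles₁ (globalLevel S) M)
    (h : resAt S M q 1 (levelH1π (globalLevel S) M z) = 0)
    (A : ValuationSubring Qbar) (hA : A.LiesOverPrime (q : ℕ)) (σ : Γ)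
    (hσ : σ ∈ A.decompositionSubgroup ℚ) : ∃ m : M, z.1 σ = M.ρ σ m - m := by
  obtain ⟨m, hm⟩ := (resAt_levelH1π_eq_zero_iff S M q z).1 h
  refine (forall_decomposition_iff (q : ℕ) (fun σ => ∃ m : M, z.1 σ = M.ρ σ m - m)
    (fun g σ h => isCob_conj z.2.1 g σ h)).2 ?_ A hA σ hσ
  intro σ hσ
  obtain ⟨τ, rfl⟩ := exists_primeLocalToGlobal_eq q hσ
  exact ⟨m, hm τ⟩

/-- Contrapositive form, as produced by `TW/OneClass.exists_tw_prime_rep` and
`TW/SelectAd0.exists_tw_prime_ad0'`: a cocycle which is not a coboundary at one element of one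
decomposition group over `q` has non-zero restriction to `G_q`. -/
theorem resAt_ne_zero_of_not_isCob (q : Nat.Primes) (z : levelCocycles₁ (globalLevel S) M)
    (A : ValuationSubring Qbar) (hA : A.LiesOverPrime (q : ℕ)) (σ : Γ)
    (hσ : σ ∈ A.decompositionSubgroup ℚ) (h : ¬ ∃ m : M, z.1 σ = M.ρ σ m - m) :
    resAt S M q 1 (levelH1π (globalLevel S) M z) ≠ 0 :=
  fun h0 => h (isCob_of_resAt_eq_zero S M q z h0 A hA σ hσ)

end ResAt

/-! #### Inflation `H¹(G_S, M) → H¹(G_T, M)` -/

section Infl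

variable {S T : Finset Nat.Primes} (M : Rep (ZMod p) Γ) [IsDiscrete (globalLevel S) M]
  [IsDiscrete (globalLevel T) M]

/-- Inflation is compatible with the restriction maps at all primes. -/
theorem resAt_inflLevel (hST : S ⊆ T) (q : Nat.Primes) (n : ℕ)
    (x : levelCohomology (globalLevel S) M n) :
    resAt T M q n (inflLevel (globalLevel_mono hST) M n x) = resAt S M q n x := by
  haveI := isDiscrete_local S M q
  exact levelCohomologyMap_comp_eq_apply (MonoidHom.id Γ)
    (refines_id_of_subset (globalLevel_mono hST)) (𝟙 M) (primeLocalToGlobal q)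
    (localLevel_refines (primeLocalToGlobal q) T) (𝟙 _) (primeLocalToGlobal q)
    (localLevel_refines (primeLocalToGlobal q) S) (𝟙 _) (fun _ => rfl) (fun _ => rfl) n x

/-- Inflation commutes with the localisation maps at the places of `S`. -/
theorem locH_inflLevel (hST : S ⊆ T) (n : ℕ) (x : levelCohomology (globalLevel S) M n)
    (q : Nat.Primes) (hq : q ∈ S) :
    locH (localData T) M n (inflLevel (globalLevel_mono hST) M n x) (⟨q, hST hq⟩ : ↥T) =
      locH (localData S) M n x (⟨q, hq⟩ : ↥S) :=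
  resAt_inflLevel M hST q n x

variable [Finite M]

/-- **C7, cocycle form.**  `M` a finite discrete `G_S`-module, `z` a 1-cocycle of level
in `G_T` whose restriction to the inertia group at every `q ∈ T ∖ S` is a coboundary (e.g. whose
class is unramified, or trivial, at `q`).  Then `z` has level in `G_S`. -/
theorem isLevel₁_of_isCob_inertia (z : levelCocycles₁ (globalLevel T) M)
    (hz : ∀ q ∈ T, q ∉ S → ∃ m : M, ∀ τ ∈ localInertia q,
      z.1 (primeLocalToGlobal q τ) = M.ρ (primeLocalToGlobal q τ) m - m) :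
    IsLevel₁ (globalLevel S) z.1 := by
  have hzc := (mem_cocycles₁_iff z.1).1 z.2.1
  -- a level of `z` and a level of `M`
  obtain ⟨UT, ⟨hUTn, FT, hFT, hFTU⟩, hinv⟩ := (memLev₁_iff (globalLevel T) M z.1).1 z.2.2
  have := Fintype.ofFinite M
  obtain ⟨UM, ⟨hUMn, FM, hFM, hFMU⟩, hfix⟩ :=
    exists_fix_finset (𝒰 := globalLevel S) (A := M) (Finset.univ : Finset M)
  have hfix' : ∀ u ∈ UM, M.ρ u = 1 := fun u hu =>
    LinearMap.ext fun a => hfix a (Finset.mem_univ a) u hu
  have hmem : ∀ g : Γ, g ∈ FT.fixingSubgroup → g ∈ FM.fixingSubgroup →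
      g ∈ trivSub z.1 z.2.1 := by
    intro g h1 h2
    refine ⟨?_, hfix' g (hFMU h2)⟩
    have := hinv 1 g (hFTU h1)
    rw [one_mul] at this
    rw [this]
    exact cocycles₁_map_one ⟨z.1, z.2.1⟩
  -- openness
  have hopen : IsOpenSubgroup (trivSub z.1 z.2.1) := by
    have := hFT.1
    have := hFM.1
    refine ⟨FT ⊔ FM, inferInstance, fun g hg => ?_⟩
    rw [IntermediateField.fixingSubgroup_sup] at hg
    exact hmem g hg.1 hg.2
  -- inertia outside `S`
  have hur : InertiaOutsideLE S (trivSub z.1 z.2.1) := by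
    intro q hqS A hA
    by_cases hqT : q ∈ T
    · refine (forall_inertia_iff (q : ℕ) (fun σ => σ ∈ trivSub z.1 z.2.1)
        (fun g σ h => (trivSub_normal z.1 z.2.1).conj_mem σ h g)).2 ?_ A hA
      intro σ hσ
      have hσM : M.ρ σ = 1 :=
        hfix' σ (hFMU (hFM.2 q hqS _ (liesOverPrime_padicPlace (q : ℕ)) hσ))
      obtain ⟨m, hm⟩ := hz q hqT hqS
      have hσ' : σ ∈ (localInertia q).map (primeLocalToGlobal q) := by
        rw [map_localInertia]
        exact hσ
      obtain ⟨τ, hτ, rfl⟩ := hσ'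
      refine ⟨?_, hσM⟩
      rw [hm τ hτ, hσM]
      exact sub_self m
    · intro σ hσ
      exact hmem σ (hFT.2 q hqT A hA hσ) (hFM.2 q hqS A hA hσ)
  exact isLevel₁_of_right_invariant hopen hur z.1
    (fun g s hs => apply_mul_of_mem_trivSub z.2.1 g hs)

/-- **C7.** A class of `H¹(G_T, M)` (`M` a finite discrete `G_S`-module, `S ⊆ T`) whose
restrictions to the local groups `G_q`, `q ∈ T ∖ S`, vanish is inflated from `H¹(G_S, M)`. -/
theorem mem_range_inflLevel_of_resAt_eq_zero (hST : S ⊆ T)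
    (x : levelCohomology (globalLevel T) M 1)
    (hx : ∀ q ∈ T, q ∉ S → resAt T M q 1 x = 0) :
    x ∈ LinearMap.range (inflLevel (globalLevel_mono hST) M 1) := by
  obtain ⟨z, rfl⟩ := levelH1π_surjective (globalLevel T) M x
  rw [mem_range_inflLevel_one_iff]
  refine ⟨z, isLevel₁_of_isCob_inertia M z fun q hqT hqS => ?_, rfl⟩
  obtain ⟨m, hm⟩ := (resAt_levelH1π_eq_zero_iff T M q z).1 (hx q hqT hqS)
  exact ⟨m, fun τ _ => hm τ⟩

/-- **C7** in terms of the localisation map of `localData T`. -/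
theorem mem_range_inflLevel_of_locH_eq_zero (hST : S ⊆ T)
    (x : levelCohomology (globalLevel T) M 1)
    (hx : ∀ v : ↥T, v.1 ∉ S → locH (localData T) M 1 x v = 0) :
    x ∈ LinearMap.range (inflLevel (globalLevel_mono hST) M 1) :=
  mem_range_inflLevel_of_resAt_eq_zero M hST x fun q hqT hqS => hx ⟨q, hqT⟩ hqS

/-- **C7, exact form**: the classes of `H¹(G_T, M)` dying at all `q ∈ T ∖ S` are exactly the
inflations of the classes of `H¹(G_S, M)` dying at all `q ∈ T ∖ S`. -/
theorem forall_resAt_eq_zero_iff (hST : S ⊆ T) (x : levelCohomology (globalLevel T) M 1) :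
    (∀ q ∈ T, q ∉ S → resAt T M q 1 x = 0) ↔
      ∃ y : levelCohomology (globalLevel S) M 1,
        (∀ q ∈ T, q ∉ S → resAt S M q 1 y = 0) ∧ inflLevel (globalLevel_mono hST) M 1 y = x := by
  constructor
  · intro hx
    obtain ⟨y, rfl⟩ := mem_range_inflLevel_of_resAt_eq_zero M hST x hx
    exact ⟨y, fun q hqT hqS => by rw [← resAt_inflLevel M hST q 1 y]; exact hx q hqT hqS, rfl⟩
  · rintro ⟨y, hy, rfl⟩ q hqT hqS
    rw [resAt_inflLevel M hST q 1 y]
    exact hy q hqT hqS

end Infl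

/-! #### Selmer groups: enlarging the set of primes with the zero condition at the new primes -/

section Selmer

open Fermat.Agent.S56.PT.Selmer

variable {S T : Finset Nat.Primes} (M : Rep (ZMod p) Γ) [IsDiscrete (globalLevel S) M]

/-- The subspace of a space `𝓧` of classes of `H¹(G_S, M)` (e.g. a Selmer group) consisting of
the classes dying in `H¹(G_q, M)`; `q` is an arbitrary prime. -/
noncomputable def killedAt (𝓧 : Submodule (ZMod p) (levelCohomology (globalLevel S) M 1))
    (q : Nat.Primes) : Submodule (ZMod p) ↥𝓧 :=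
  (LinearMap.ker (resAt S M q 1)).comap 𝓧.subtype

theorem mem_killedAt {𝓧 : Submodule (ZMod p) (levelCohomology (globalLevel S) M 1)}
    {q : Nat.Primes} {y : ↥𝓧} : y ∈ killedAt M 𝓧 q ↔ resAt S M q 1 y.1 = 0 := by
  rw [killedAt, Submodule.mem_comap, LinearMap.mem_ker]
  rfl

/-- Interface to `TW/OneClass.exists_tw_prime_rep`, `TW/SelectAd0.exists_tw_prime_ad0'`: a class
with a cocycle representative `z` which is not a coboundary at one element `σ` of a decomposition
group over `q` (e.g. a Frobenius) is not killed at `q`. -/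
theorem not_mem_killedAt_of_not_isCob
    {𝓧 : Submodule (ZMod p) (levelCohomology (globalLevel S) M 1)} {q : Nat.Primes} (y : ↥𝓧)
    (z : levelCocycles₁ (globalLevel S) M) (hz : levelH1π (globalLevel S) M z = y.1)
    (A : ValuationSubring Qbar) (hA : A.LiesOverPrime (q : ℕ)) (σ : Γ)
    (hσ : σ ∈ A.decompositionSubgroup ℚ) (h : ¬ ∃ m : M, z.1 σ = M.ρ σ m - m) :
    y ∉ killedAt M 𝓧 q := by
  rw [mem_killedAt, ← hz]
  exact resAt_ne_zero_of_not_isCob S M q z A hA σ hσ h

variable [IsDiscrete (globalLevel T) M] [Finite M]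

/-- **C7 for Selmer groups.**  `S ⊆ T`, local conditions `𝓛T` on `T` which restrict to `𝓛S` on
`S` and are ZERO at the primes of `T ∖ S`: the Selmer group of `𝓛T` consists of the inflations of
the classes of the Selmer group of `𝓛S` which die at all primes of `T ∖ S`. -/
theorem mem_Sel_iff_of_subset (hST : S ⊆ T)
    (𝓛S : ∀ v : (localData S).ι, Submodule (ZMod p)
      (levelCohomology ((localData S).𝒱 v) (Rep.res ((localData S).r v) M) 1))
    (𝓛T : ∀ v : (localData T).ι, Submodule (ZMod p)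
      (levelCohomology ((localData T).𝒱 v) (Rep.res ((localData T).r v) M) 1))
    (hS : ∀ (q : Nat.Primes) (hq : q ∈ S), 𝓛T (⟨q, hST hq⟩ : ↥T) = 𝓛S (⟨q, hq⟩ : ↥S))
    (h0 : ∀ v : ↥T, v.1 ∉ S → 𝓛T v = ⊥) (x : levelCohomology (globalLevel T) M 1) :
    x ∈ Sel (localData T) M 𝓛T ↔
      ∃ y ∈ Sel (localData S) M 𝓛S, (∀ q ∈ T, q ∉ S → resAt S M q 1 y = 0) ∧
        inflLevel (globalLevel_mono hST) M 1 y = x := by
  constructor
  · intro hx
    rw [mem_Sel] at hx
    have hx0 : ∀ q ∈ T, q ∉ S → resAt T M q 1 x = 0 := fun q hqT hqS => by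
      have h := hx (⟨q, hqT⟩ : ↥T)
      rw [h0 ⟨q, hqT⟩ hqS] at h
      exact (Submodule.mem_bot _).1 h
    obtain ⟨y, hy, rfl⟩ := (forall_resAt_eq_zero_iff M hST x).1 hx0
    refine ⟨y, (mem_Sel _ _).2 fun v => ?_, hy, rfl⟩
    have h := hx (⟨v.1, hST v.2⟩ : ↥T)
    rw [hS v.1 v.2] at h
    have e : locH (localData T) M 1 (inflLevel (globalLevel_mono hST) M 1 y)
        (⟨v.1, hST v.2⟩ : ↥T) = locH (localData S) M 1 y v := locH_inflLevel M hST 1 y v.1 v.2
    rw [e] at h
    exact h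
  · rintro ⟨y, hy, hy0, rfl⟩
    rw [mem_Sel] at hy ⊢
    intro v
    by_cases hv : v.1 ∈ S
    · have e : locH (localData T) M 1 (inflLevel (globalLevel_mono hST) M 1 y) v =
          locH (localData S) M 1 y (⟨v.1, hv⟩ : ↥S) := locH_inflLevel M hST 1 y v.1 hv
      have h := hy (⟨v.1, hv⟩ : ↥S)
      rw [← hS v.1 hv, ← e] at h
      exact h
    · rw [h0 v hv, Submodule.mem_bot]
      have e : locH (localData T) M 1 (inflLevel (globalLevel_mono hST) M 1 y) v =
          resAt S M v.1 1 y := resAt_inflLevel M hST v.1 1 y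
      rw [e]
      exact hy0 v.1 v.2 hv

/-- **Killing a (dual) Selmer group.**  If the classes of the Selmer group of `𝓛S` killed at all
primes `Q j` (a family of primes of `T ∖ S`) are zero, then the Selmer group of `𝓛T` (zero
conditions on `T ∖ S`) vanishes.  The hypothesis is the output of
`TW/KillDualPad.exists_family_inf_eq_bot_pad` for `K := killedAt M (Sel (localData S) M 𝓛S)`. -/
theorem Sel_eq_bot_of_iInf_killedAt (hST : S ⊆ T)
    (𝓛S : ∀ v : (localData S).ι, Submodule (ZMod p)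
      (levelCohomology ((localData S).𝒱 v) (Rep.res ((localData S).r v) M) 1))
    (𝓛T : ∀ v : (localData T).ι, Submodule (ZMod p)
      (levelCohomology ((localData T).𝒱 v) (Rep.res ((localData T).r v) M) 1))
    (hS : ∀ (q : Nat.Primes) (hq : q ∈ S), 𝓛T (⟨q, hST hq⟩ : ↥T) = 𝓛S (⟨q, hq⟩ : ↥S))
    (h0 : ∀ v : ↥T, v.1 ∉ S → 𝓛T v = ⊥) {ι : Type*} (Q : ι → Nat.Primes)
    (hQ : ∀ j, Q j ∈ T ∧ Q j ∉ S)
    (hkill : ⨅ j, killedAt M (Sel (localData S) M 𝓛S) (Q j) = ⊥) :
    Sel (localData T) M 𝓛T = ⊥ := by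
  rw [eq_bot_iff]
  intro x hx
  obtain ⟨y, hy, hy0, rfl⟩ := (mem_Sel_iff_of_subset M hST 𝓛S 𝓛T hS h0 x).1 hx
  have hmem : (⟨y, hy⟩ : ↥(Sel (localData S) M 𝓛S)) ∈
      ⨅ j, killedAt M (Sel (localData S) M 𝓛S) (Q j) := by
    rw [Submodule.mem_iInf]
    intro j
    rw [mem_killedAt]
    exact hy0 (Q j) (hQ j).1 (hQ j).2
  rw [hkill, Submodule.mem_bot] at hmem
  have hy' : y = 0 := congrArg Subtype.val hmem
  rw [hy', map_zero]
  exact Submodule.zero_mem _

end Selmer

end Arith

end Fermat.Agent.S56.PT.Inflation
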