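/-
S56 preparation (helper17): **local Tate duality, PERFECT form**, for all finite dimensional discrete
coefficients.

S55 exports local duality in mono form (`LevelDuality.Ψ_injective_of_restrict`):
`Ψ X m n : Hⁿ(X) → Hᵐ(X')^*` is injective for `(m, n) = (2, 0), (1, 1), (0, 2)`.  Applying this to
`X` and to `X' = X.dualTwist χ` and using biduality `X ≅ X''` gives equality of dimensions, hence
bijectivity, as soon as `H¹(X)` is finite dimensional (automatic for `k = ZMod p` when the small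
level subgroups have finitely many `ℤ/p`-valued level characters).
-/
import Fermat.Agent.S55.LevelDualityShapiro
import Fermat.Agent.S55.LevelDualityPairing
import Fermat.Agent.S55.LevelDualityBase
import Fermat.Agent.S55.LevelFinite

set_option autoImplicit false

namespace Fermat.Agent.S56.PT.LocalPerfect

open CategoryTheory groupCohomology Rep Fermat.Agent.S55.Level Fermat.Agent.S55.Cone
  Fermat.Agent.S55.DualTwist Fermat.Agent.S55.LevelDuality

universe u

section Abstract

variable {k G : Type u} [Field k] [Group G] (𝒰 : LevelStructure G)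
  (χ : G →* kˣ) [IsDiscrete 𝒰 (ofChar χ)] (t : levelCohomology 𝒰 (ofChar χ) 2 →ₗ[k] k)

/-- **Mono duality for `X` and for `X'` gives perfect duality for `X`**, when `Hⁿ(X)` is finite
dimensional. -/
theorem Ψ_bijective_of_injective (X : Rep.{u} k G) [IsDiscrete 𝒰 X] [FiniteDimensional k X]
    [IsDiscrete 𝒰 (X.dualTwist χ)] [IsDiscrete 𝒰 ((X.dualTwist χ).dualTwist χ)]
    {m n : ℕ} (h : m + n = 2) (h' : n + m = 2)
    (hfd : FiniteDimensional k (levelCohomology 𝒰 X n))
    (h1 : Function.Injective (Ψ 𝒰 χ t X m n h))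
    (h2 : Function.Injective (Ψ 𝒰 χ t (X.dualTwist χ) n m h')) :
    FiniteDimensional k (levelCohomology 𝒰 (X.dualTwist χ) m) ∧
      Module.finrank k (levelCohomology 𝒰 (X.dualTwist χ) m) =
        Module.finrank k (levelCohomology 𝒰 X n) ∧
      Function.Bijective (Ψ 𝒰 χ t X m n h) := by
  -- biduality on cohomology
  have hbij := lmap_bijective_of_iso 𝒰 (doubleDualTwistIso χ X) n
  let e : levelCohomology 𝒰 X n ≃ₗ[k] levelCohomology 𝒰 ((X.dualTwist χ).dualTwist χ) n :=
    LinearEquiv.ofBijective (lmap 𝒰 (doubleDualTwistIso χ X).hom n) hbij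
  have hfd'' : FiniteDimensional k (levelCohomology 𝒰 ((X.dualTwist χ).dualTwist χ) n) :=
    Module.Finite.equiv e
  have hfd' : FiniteDimensional k (levelCohomology 𝒰 (X.dualTwist χ) m) :=
    FiniteDimensional.of_injective _ h2
  have hle1 : Module.finrank k (levelCohomology 𝒰 X n) ≤
      Module.finrank k (levelCohomology 𝒰 (X.dualTwist χ) m) := by
    have := LinearMap.finrank_le_finrank_of_injective h1
    rwa [Subspace.dual_finrank_eq] at this
  have hle2 : Module.finrank k (levelCohomology 𝒰 (X.dualTwist χ) m) ≤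
      Module.finrank k (levelCohomology 𝒰 X n) := by
    have := LinearMap.finrank_le_finrank_of_injective h2
    rwa [Subspace.dual_finrank_eq, ← e.finrank_eq] at this
  have heq := le_antisymm hle2 hle1
  refine ⟨hfd', heq, h1, ?_⟩
  have hfr : Module.finrank k (levelCohomology 𝒰 X n) =
      Module.finrank k (Module.Dual k (levelCohomology 𝒰 (X.dualTwist χ) m)) := by
    rw [Subspace.dual_finrank_eq, heq]
  exact (LinearMap.injective_iff_surjective_of_finrank_eq_finrank hfr).1 h1

/-- **Local Tate duality, perfect form.**  Under the per-place package `LocalBaseHyp₁` (duality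
for the coefficients `k` over the members of the level family), for every finite dimensional
discrete `X` with `H¹(X)` finite dimensional the three duality maps
`H⁰(X) → H²(X')^*`, `H¹(X) → H¹(X')^*`, `H²(X) → H⁰(X')^*` are bijective. -/
theorem Ψ_bijective_of_restrict
    (hloc : LocalBaseHyp₁ 𝒰 χ t (restrictFamily 𝒰) (restrictFamily_refines 𝒰))
    (X : Rep.{u} k G) [IsDiscrete 𝒰 X] [FiniteDimensional k X] [IsDiscrete 𝒰 (X.dualTwist χ)]
    (hfd1 : FiniteDimensional k (levelCohomology 𝒰 X 1)) :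
    Function.Bijective (Ψ 𝒰 χ t X 2 0 rfl) ∧ Function.Bijective (Ψ 𝒰 χ t X 1 1 rfl) ∧
      Function.Bijective (Ψ 𝒰 χ t X 0 2 rfl) := by
  have hfdX' : FiniteDimensional k (X.dualTwist χ) :=
    inferInstanceAs (FiniteDimensional k (Module.Dual k X))
  have hd'' : IsDiscrete 𝒰 ((X.dualTwist χ).dualTwist χ) := isDiscrete_dualTwist 𝒰 χ _
  obtain ⟨a0, a1, a2⟩ := Ψ_injective_of_restrict 𝒰 χ t hloc X
  obtain ⟨b0, b1, b2⟩ := Ψ_injective_of_restrict 𝒰 χ t hloc (X.dualTwist χ)
  have hfd0 : FiniteDimensional k (levelCohomology 𝒰 X 0) :=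
    finiteDimensional_levelCohomology_zero 𝒰 X
  have hfd2 : FiniteDimensional k (levelCohomology 𝒰 X 2) :=
    finiteDimensional_levelCohomology_two 𝒰 χ t X a2
  exact ⟨(Ψ_bijective_of_injective 𝒰 χ t X rfl rfl hfd0 a0 b2).2.2,
    (Ψ_bijective_of_injective 𝒰 χ t X rfl rfl hfd1 a1 b1).2.2,
    (Ψ_bijective_of_injective 𝒰 χ t X rfl rfl hfd2 a2 b0).2.2⟩

/-- The dimension formulas of local Tate duality: `h²(X') = h⁰(X)`, `h¹(X') = h¹(X)`,
`h⁰(X') = h²(X)`. -/
theorem finrank_eq_of_restrict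
    (hloc : LocalBaseHyp₁ 𝒰 χ t (restrictFamily 𝒰) (restrictFamily_refines 𝒰))
    (X : Rep.{u} k G) [IsDiscrete 𝒰 X] [FiniteDimensional k X] [IsDiscrete 𝒰 (X.dualTwist χ)]
    (hfd1 : FiniteDimensional k (levelCohomology 𝒰 X 1)) :
    Module.finrank k (levelCohomology 𝒰 (X.dualTwist χ) 2) =
        Module.finrank k (levelCohomology 𝒰 X 0) ∧
      Module.finrank k (levelCohomology 𝒰 (X.dualTwist χ) 1) =
        Module.finrank k (levelCohomology 𝒰 X 1) ∧
      Module.finrank k (levelCohomology 𝒰 (X.dualTwist χ) 0) =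
        Module.finrank k (levelCohomology 𝒰 X 2) := by
  have hfdX' : FiniteDimensional k (X.dualTwist χ) :=
    inferInstanceAs (FiniteDimensional k (Module.Dual k X))
  have hd'' : IsDiscrete 𝒰 ((X.dualTwist χ).dualTwist χ) := isDiscrete_dualTwist 𝒰 χ _
  obtain ⟨a0, a1, a2⟩ := Ψ_injective_of_restrict 𝒰 χ t hloc X
  obtain ⟨b0, b1, b2⟩ := Ψ_injective_of_restrict 𝒰 χ t hloc (X.dualTwist χ)
  have hfd0 : FiniteDimensional k (levelCohomology 𝒰 X 0) :=
    finiteDimensional_levelCohomology_zero 𝒰 X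
  have hfd2 : FiniteDimensional k (levelCohomology 𝒰 X 2) :=
    finiteDimensional_levelCohomology_two 𝒰 χ t X a2
  exact ⟨(Ψ_bijective_of_injective 𝒰 χ t X rfl rfl hfd0 a0 b2).2.1,
    (Ψ_bijective_of_injective 𝒰 χ t X rfl rfl hfd1 a1 b1).2.1,
    (Ψ_bijective_of_injective 𝒰 χ t X rfl rfl hfd2 a2 b0).2.1⟩

end Abstract

section ZModCase

variable {p : ℕ} [Fact p.Prime] {G : Type} [Group G] (𝒰 : LevelStructure G)
  (χ : G →* (ZMod p)ˣ) [IsDiscrete 𝒰 (ofChar χ)]
  (t : levelCohomology 𝒰 (ofChar χ) 2 →ₗ[ZMod p] ZMod p)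

/-- **Local Tate duality, perfect form, over `𝔽_p`**: finite dimensionality of `H¹` comes from the
finiteness of the `ℤ/p`-valued level characters of small level subgroups. -/
theorem Ψ_bijective_zmod
    (hloc : LocalBaseHyp₁ 𝒰 χ t (restrictFamily 𝒰) (restrictFamily_refines 𝒰))
    (hchars : ∀ U₀ ∈ 𝒰.sets, ∃ U ∈ 𝒰.sets, U ≤ U₀ ∧ (levelChars 𝒰 U (ZMod p)).Finite)
    (X : Rep.{0} (ZMod p) G) [IsDiscrete 𝒰 X] [FiniteDimensional (ZMod p) X]
    [IsDiscrete 𝒰 (X.dualTwist χ)] :
    Function.Bijective (Ψ 𝒰 χ t X 2 0 rfl) ∧ Function.Bijective (Ψ 𝒰 χ t X 1 1 rfl) ∧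
      Function.Bijective (Ψ 𝒰 χ t X 0 2 rfl) := by
  have hfin : Finite X := Module.finite_of_finite (ZMod p)
  exact Ψ_bijective_of_restrict 𝒰 χ t hloc X
    (finiteDimensional_levelCohomology_one_of_zmod 𝒰 X hchars)

end ZModCase

end Fermat.Agent.S56.PT.LocalPerfect
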