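/-
S56 preparation (helper17): **Poitou–Tate, the two middle exactnesses** derived from the S55 exports.

`D` local data over `(G, 𝒰)`, `χ` a character, `tr` a linear form on `Hc³(k(χ))`; assume the
conclusion of the global dévissage `Main.MainConclusion D χ tr` (the duality maps
`Hc¹(Y) → H²(G, Y')^*`, `Hc²(Y) → H¹(G, Y')^*` are injective for all finite dimensional discrete `Y`).
Then for every finite dimensional discrete `M`, with `M' = M.dualTwist χ`:

* `mem_range_locH_one_iff` : the image of `H¹(G, M) → ∏_v H¹(G_v, M)` is the exact annihilator of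
  the image of `H¹(G, M') → ∏_v H¹(G_v, M')` under the sum of the local pairings;
* `mem_range_locH_two_iff` : the image of `H²(G, M) → ∏_v H²(G_v, M)` is the exact annihilator of
  the image of `H⁰(G, M') → ∏_v H⁰(G_v, M')` (needs local duality `H²(G_v, M) ↪ H⁰(G_v, M')^*`
  and finitely many places).
-/
import Fermat.Agent.S55.MainDefs
import Fermat.Agent.S55.LevelDualityCone

set_option autoImplicit false

namespace Fermat.Agent.S56.PT.MiddleExact

open CategoryTheory groupCohomology Rep Fermat.Agent.S55.Level Fermat.Agent.S55.Cone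
  Fermat.Agent.S55.DualTwist Fermat.Agent.S55.LevelDuality Fermat.Agent.S55.Main

universe u

variable {k G : Type u} [Field k] [Group G] {𝒰 : LevelStructure G} (D : LocalData 𝒰)
  (χ : G →* kˣ) [IsDiscrete 𝒰 (ofChar χ)] (tr : Hc D (ofChar χ) 3 →ₗ[k] k)
  (M : Rep.{u} k G) [IsDiscrete 𝒰 M] [FiniteDimensional k M] [IsDiscrete 𝒰 (M.dualTwist χ)]

/-- **Poitou–Tate, exactness at `∏_v H¹(G_v, M)`**: a family of local classes is the localisation
of a global class iff it is orthogonal to the localisations of all global classes of `M'`. -/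
theorem mem_range_locH_one_iff (hmain : MainConclusion D χ tr)
    (w : ∀ v, levelCohomology (D.𝒱 v) (Rep.res (D.r v) M) 1) :
    w ∈ LinearMap.range (locH D M 1) ↔
      ∀ y : levelCohomology 𝒰 (M.dualTwist χ) 1,
        locDual D (evalPairing' χ M) (evalPairing'_equivariant χ M) 1 1 2 rfl tr w
          (locH D (M.dualTwist χ) 1 y) = 0 := by
  rw [← ker_HcBd_eq_range_locH, LinearMap.mem_ker]
  constructor
  · intro h y
    have h1 := Phi_HcBd D (evalPairing' χ M) (evalPairing'_equivariant χ M) 1 1 2 rfl tr w y
    rw [h, map_zero] at h1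
    exact h1.symm
  · intro h
    apply (hmain M).2
    rw [map_zero]
    ext y
    exact (Phi_HcBd D (evalPairing' χ M) (evalPairing'_equivariant χ M) 1 1 2 rfl tr w y).trans
      (h y)

variable [DecidableEq D.ι] [Finite D.ι]

/-- **Poitou–Tate, exactness at `∏_v H²(G_v, M)`**: a family of local classes of degree `2` is
the localisation of a global class iff it is orthogonal to the localisations of the global
invariants of `M'`. -/
theorem mem_range_locH_two_iff (hmain : MainConclusion D χ tr)
    (hΨ : ∀ v, ∀ [IsDiscrete (D.𝒱 v) ((Rep.res (D.r v) M).dualTwist (χ.comp (D.r v)))],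
      Function.Injective
        (Ψ (D.𝒱 v) (χ.comp (D.r v)) (invAt D tr v) (Rep.res (D.r v) M) 0 2 rfl))
    (w : ∀ v, levelCohomology (D.𝒱 v) (Rep.res (D.r v) M) 2) :
    w ∈ LinearMap.range (locH D M 2) ↔
      ∀ y : levelCohomology 𝒰 (M.dualTwist χ) 0,
        locDual D (evalPairing χ M) (evalPairing_equivariant χ M) 0 2 2 rfl tr
          (locH D (M.dualTwist χ) 0 y) w = 0 := by
  classical
  have hfdM' : FiniteDimensional k (M.dualTwist χ) :=
    inferInstanceAs (FiniteDimensional k (Module.Dual k M))
  constructor
  · rintro ⟨x, rfl⟩ y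
    have h1 := Phi_HcBd D (evalPairing χ M) (evalPairing_equivariant χ M) 0 2 2 rfl tr
      (locH D (M.dualTwist χ) 0 y) x
    have h2 : HcBd D (M.dualTwist χ) 0 (locH D (M.dualTwist χ) 0 y) = 0 := by
      have : locH D (M.dualTwist χ) 0 y ∈ LinearMap.ker (HcBd D (M.dualTwist χ) 0) := by
        rw [ker_HcBd_eq_range_locH]
        exact ⟨y, rfl⟩
      exact this
    rw [h2, map_zero] at h1
    exact h1.symm
  · intro h
    -- the finite dimensional space of local invariants of `M'`
    have hfdU : FiniteDimensional k
        (∀ v, levelCohomology (D.𝒱 v) (Rep.res (D.r v) (M.dualTwist χ)) 0) := by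
      have : ∀ v, FiniteDimensional k
          (levelCohomology (D.𝒱 v) (Rep.res (D.r v) (M.dualTwist χ)) 0) := fun v => by
        have : FiniteDimensional k (Rep.res (D.r v) (M.dualTwist χ)) := hfdM'
        exact finiteDimensional_levelCohomology_zero (D.𝒱 v) _
      have := Fintype.ofFinite D.ι
      infer_instance
    set f := HcBd D (M.dualTwist χ) 0 with hf
    -- the functional `u ↦ ⟨u, w⟩` factors through `∂`
    let d : Module.Dual k (∀ v, levelCohomology (D.𝒱 v) (Rep.res (D.r v) (M.dualTwist χ)) 0) :=
      (locDual D (evalPairing χ M) (evalPairing_equivariant χ M) 0 2 2 rfl tr).flip w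
    have hd : LinearMap.ker f ≤ LinearMap.ker d := by
      intro u hu
      rw [hf, ker_HcBd_eq_range_locH] at hu
      obtain ⟨y, rfl⟩ := hu
      exact h y
    obtain ⟨e, he⟩ := exists_dual_comp_eq f d hd
    -- the injective pairing `range ∂ × H²(G, M) → k`
    let Φ := Phi D (evalPairing χ M) (evalPairing_equivariant χ M) 1 2 3 rfl tr
    have hΦ : Function.Injective Φ := (injective_Phi_of_main D χ tr hmain M).1
    let V := LinearMap.range f
    have hfdV : FiniteDimensional k V := inferInstance
    let B : V →ₗ[k] levelCohomology 𝒰 M 2 →ₗ[k] k := Φ ∘ₗ V.subtype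
    have hB : Function.Injective B := hΦ.comp V.subtype_injective
    obtain ⟨x, hx⟩ := (LinearMap.flip_surjective_iff₁ (B := B)).2 hB (e ∘ₗ V.subtype)
    refine ⟨x, ?_⟩
    -- `w - loc x` is orthogonal to all local invariants
    have hkey : ∀ u, locDual D (evalPairing χ M) (evalPairing_equivariant χ M) 0 2 2 rfl tr u
        (locH D M 2 x - w) = 0 := by
      intro u
      have h1 := Phi_HcBd D (evalPairing χ M) (evalPairing_equivariant χ M) 0 2 2 rfl tr u x
      have h2 : B ⟨f u, LinearMap.mem_range_self f u⟩ x = e (f u) :=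
        LinearMap.congr_fun hx ⟨f u, LinearMap.mem_range_self f u⟩
      have h3 : e (f u) = d u := LinearMap.congr_fun he u
      rw [map_sub, sub_eq_zero, ← h1]
      exact h2.trans h3
    have hzero : locH D M 2 x - w = 0 := by
      funext v
      have hdisc : IsDiscrete (D.𝒱 v) ((Rep.res (D.r v) M).dualTwist (χ.comp (D.r v))) :=
        isDiscrete_dualTwist (D.𝒱 v) (χ.comp (D.r v)) _
      refine cupLoc_right_nondegenerate D χ tr (evalPairing χ M) (evalPairing_equivariant χ M)
        (evalPairing_left_nondegenerate χ M) (evalPairing_right_nondegenerate χ M) v rfl (hΨ v)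
        ((locH D M 2 x - w) v) (fun a => ?_)
      rw [← locDual_single]
      exact hkey _
    exact sub_eq_zero.1 hzero

end Fermat.Agent.S56.PT.MiddleExact
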