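/-
S56 preparation (helper17): **the standalone export of the global duality theorem behind S55.**

For an odd prime `p` and a finite set `S ∋ p` of primes there is a trace `tr : Hc³(ℚ, S; μ_p) → 𝔽_p`
with `tr ∘ ∂ = ∑_q inv_q` (the local invariants of local class field theory) such that the global
duality maps `Hcⁱ(Y) → H^{3-i}(G_S, Y')^*`, `i = 1, 2`, are injective for EVERY finite dimensional
discrete `𝔽_p[G_S]`-module `Y` (`Main.MainConclusion`), and Tate's local duality
(`LocalBaseHyp₁`) holds at all `q ∈ S` for the local invariants `invAt tr q`.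

This is a re-assembly of the lemmas used inside `S55.result` (`BrauerAll.result_of_fields`,
`FinalAssembly.result_of_padic`, `TopBlocks.result_of_formations_blocks`,
`TraceGlueLocal.result_of_formations`, `TraceGlue.result_of_inv`, `Chain.result_of_blocks`);
it is the entry point for the 7-term Poitou–Tate sequence / Greenberg–Wiles formula.
-/
import Fermat.Agent.S55.GL.BrauerAll
import Fermat.Agent.S55.GL.RecipFinal
import Fermat.Agent.S55.GL.HasseFieldInst
import Fermat.Agent.S55.GL.BrauerExistFinal
import Fermat.Agent.S55.GL.PhiFieldInst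
import Fermat.Agent.S55.Local.Duality
import Fermat.Agent.S55.Local.KummerFinite
import Fermat.Agent.S56.PT.LocalPerfect
import Fermat.Agent.S56.PT.MiddleExact

set_option autoImplicit false

open CategoryTheory Module groupCohomology ExtCitation

namespace Fermat.Agent.S56.PT.MainExport

open Fermat.Agent.S55.Level Fermat.Agent.S55.Cone Fermat.Agent.S55.DualTwist
  Fermat.Agent.S55.Assembly Fermat.Agent.S55.LevelDuality Fermat.Agent.S55.GaloisLevel
  Fermat.Agent.S55.CFAbs Fermat.Agent.S55.TraceGlueLocal Fermat.Agent.S55.GL.ArithUInst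
  Fermat.Agent.S55.FinalAssembly Fermat.Agent.S55.Local.PadicFormation
  Fermat.Agent.S55.Local.PadicCFT Fermat.Agent.S55.GL.BrauerAll

local notation "Qbar" => AlgebraicClosure ℚ
local notation "Γ" => (AlgebraicClosure ℚ ≃ₐ[ℚ] AlgebraicClosure ℚ)

local instance factPrime_ME (q : Nat.Primes) : Fact (q : ℕ).Prime := ⟨q.2⟩

variable {p : ℕ} [hp : Fact p.Prime] (S : Finset Nat.Primes)

/-- **The global base case, unconditionally.**  There is a trace `tr` on `Hc³(ℚ, S; μ_p)` with
`tr ∘ ∂ = ∑_q inv_q` satisfying the base case of the global dévissage and Tate's local duality at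
the places of `S`. -/
theorem exists_tr_baseCase (hp2 : p ≠ 2) (hpS : pPrime p ∈ S)
    [IsDiscrete (globalLevel S) (ofChar (k := ZMod p) (cycloChar p))] :
    ∃ tr : Hc (localData S) (ofChar (k := ZMod p) (cycloChar p)) 3 →ₗ[ZMod p] ZMod p,
      Fermat.Agent.S55.Main.BaseCase (localData S) (cycloChar p) tr ∧
      ∀ q, LocalBaseHyp₁ ((localData S).𝒱 q) ((cycloChar p).comp ((localData S).r q))
        (invAt (localData S) tr q) (restrictFamily ((localData S).𝒱 q))
        (restrictFamily_refines ((localData S).𝒱 q)) := by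
  obtain ⟨ζ, hζ⟩ := Fermat.Agent.S55.DualTwist.exists_primitiveRoot p
  have hR := Fermat.Agent.S55.GL.RecipFinal.recipField p hp2 S
  have hH := Fermat.Agent.S55.GL.HasseFieldInst.hasseField p hp2 S hpS
  have hE := Fermat.Agent.S55.GL.BrauerExistFinal.existField hp2 hpS hR
  have hφ := Fermat.Agent.S55.GL.PhiFieldInst.phiField p S
  have hB : AllBrauerBlocks S p := allBrauerBlocks hpS hR hH hE hφ
  let HP : ∀ q : Nat.Primes, PadicInput (q : ℕ) := fun q => padicInput (q : ℕ)
  have hrec : ∀ y : levelCohomology (globalLevel S) (ofChar (k := ZMod p) (cycloChar p)) 2,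
      ∑ q : (localData S).ι, invLoc q.1 hζ (formationQ (HP q.1))
        (locH (localData S) (ofChar (k := ZMod p) (cycloChar p)) 2 y q) = 0 := fun y =>
    hrec_of_recip_unit S HP hpS hζ (fun y hy => hR ⊥ y hy)
      (Fermat.Agent.S55.GL.UnramLocalZero.unit_res_brauerInput S ⊥ p) y
  obtain ⟨tr, htr, hinvAt⟩ := Fermat.Agent.S55.TraceGlue.exists_tr_of_reciprocity (localData S)
    (ofChar (k := ZMod p) (cycloChar p)) 2 (fun q => invLoc q.1 hζ (formationQ (HP q.1))) hrec
  have hloc : ∀ q, LocalBaseHyp₁ ((localData S).𝒱 q) ((cycloChar p).comp ((localData S).r q))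
      (invAt (localData S) tr q) (restrictFamily ((localData S).𝒱 q))
      (restrictFamily_refines ((localData S).𝒱 q)) := by
    intro v
    rw [hinvAt v]
    exact localBaseHyp₁_invPrime (hd := isDiscrete_TGL v.1) v.1 hζ (formationQ (HP v.1))
      (formationFamily (HP v.1)) (formationFamily_bc (HP v.1))
  have hp2' : 2 < p := lt_of_le_of_ne hp.out.two_le (Ne.symm hp2)
  exact ⟨tr, baseCase_of_blocks S tr hp2' hpS hloc hB, hloc⟩

/-- **Poitou–Tate, injectivity form, for all coefficients.**  There is a trace `tr` on
`Hc³(ℚ, S; μ_p)` such that `Hc¹(Y) → H²(G_S, Y')^*` and `Hc²(Y) → H¹(G_S, Y')^*` are injective for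
every finite dimensional discrete `Y`, and local Tate duality holds at the places of `S` for the
local invariants of `tr`. -/
theorem exists_tr_mainConclusion (hp2 : p ≠ 2) (hpS : pPrime p ∈ S)
    [IsDiscrete (globalLevel S) (ofChar (k := ZMod p) (cycloChar p))] :
    ∃ tr : Hc (localData S) (ofChar (k := ZMod p) (cycloChar p)) 3 →ₗ[ZMod p] ZMod p,
      Fermat.Agent.S55.Main.MainConclusion (localData S) (cycloChar p) tr ∧
      ∀ q, LocalBaseHyp₁ ((localData S).𝒱 q) ((cycloChar p).comp ((localData S).r q))
        (invAt (localData S) tr q) (restrictFamily ((localData S).𝒱 q))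
        (restrictFamily_refines ((localData S).𝒱 q)) := by
  obtain ⟨tr, hbase, hloc⟩ := exists_tr_baseCase S hp2 hpS
  have hne : Nonempty (localData S).ι := Fermat.Agent.S55.Chain.nonempty_localData_ι S hpS
  exact ⟨tr, Fermat.Agent.S55.Main.main (localData S) (cycloChar p) tr hbase, hloc⟩

/-- **local Kummer finiteness at the places of `S`**: arbitrarily small level subgroups of
`Gal(ℚ̄_q/ℚ_q)` have finitely many `ℤ/p`-valued level characters. -/
theorem hchars_local (q : (localData S).ι) :
    ∀ U₀ ∈ ((localData S).𝒱 q).sets, ∃ U ∈ ((localData S).𝒱 q).sets, U ≤ U₀ ∧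
      (levelChars ((localData S).𝒱 q) U (ZMod p)).Finite :=
  Fermat.Agent.S55.Local.KummerFinite.hlocal (p := p) q.1

section PerModule

variable [IsDiscrete (globalLevel S) (ofChar (k := ZMod p) (cycloChar p))]
  (tr : Hc (localData S) (ofChar (k := ZMod p) (cycloChar p)) 3 →ₗ[ZMod p] ZMod p)
  (hloc : ∀ q, LocalBaseHyp₁ ((localData S).𝒱 q) ((cycloChar p).comp ((localData S).r q))
    (invAt (localData S) tr q) (restrictFamily ((localData S).𝒱 q))
    (restrictFamily_refines ((localData S).𝒱 q)))
  (M : Rep (ZMod p) Γ) [FiniteDimensional (ZMod p) M]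
  [IsDiscrete (globalLevel S) M] [IsDiscrete (globalLevel S) (M.dualTwist (cycloChar p))]

include hloc

/-- **Surjectivity of the sums of the local duality maps** `∏ H⁰(ℚ_q, M') → (∏ H²(ℚ_q, M))^*` and
`∏ H¹(ℚ_q, M) → (∏ H¹(ℚ_q, M'))^*` for the local invariants of `tr`. -/
theorem locDual_surjective :
    Function.Surjective (locDual (localData S) (evalPairing (cycloChar p) M)
        (evalPairing_equivariant (cycloChar p) M) 0 2 2 rfl tr) ∧
      Function.Surjective (locDual (localData S) (evalPairing' (cycloChar p) M)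
        (evalPairing'_equivariant (cycloChar p) M) 1 1 2 rfl tr) :=
  Fermat.Agent.S55.Local.Duality.locDual_surjective S M tr hloc (fun q => hchars_local S q)

omit [IsDiscrete (globalLevel S) (M.dualTwist (cycloChar p))] in
/-- **Perfect local Tate duality at every `q ∈ S`** for the restriction of `M`, with respect to the
local invariant `invAt tr q`: `Hⁿ(ℚ_q, M) ≅ H²⁻ⁿ(ℚ_q, M')^*`, `n = 0, 1, 2`. -/
theorem Ψ_bijective_local (q : (localData S).ι)
    [IsDiscrete ((localData S).𝒱 q)
      ((Rep.res ((localData S).r q) M).dualTwist ((cycloChar p).comp ((localData S).r q)))] :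
    Function.Bijective (Ψ ((localData S).𝒱 q) ((cycloChar p).comp ((localData S).r q))
        (invAt (localData S) tr q) (Rep.res ((localData S).r q) M) 2 0 rfl) ∧
      Function.Bijective (Ψ ((localData S).𝒱 q) ((cycloChar p).comp ((localData S).r q))
        (invAt (localData S) tr q) (Rep.res ((localData S).r q) M) 1 1 rfl) ∧
      Function.Bijective (Ψ ((localData S).𝒱 q) ((cycloChar p).comp ((localData S).r q))
        (invAt (localData S) tr q) (Rep.res ((localData S).r q) M) 0 2 rfl) := by
  have : FiniteDimensional (ZMod p) (Rep.res ((localData S).r q) M) :=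
    ‹FiniteDimensional (ZMod p) M›
  exact Fermat.Agent.S56.PT.LocalPerfect.Ψ_bijective_zmod ((localData S).𝒱 q)
    ((cycloChar p).comp ((localData S).r q)) (invAt (localData S) tr q) (hloc q)
    (hchars_local S q) (Rep.res ((localData S).r q) M)

omit hloc in
/-- **Poitou–Tate, exactness at `∏_q H¹(ℚ_q, M)`** for the frozen data. -/
theorem mem_range_locH_one_iff
    (hmain : Fermat.Agent.S55.Main.MainConclusion (localData S) (cycloChar p) tr)
    (w : ∀ q, levelCohomology ((localData S).𝒱 q) (Rep.res ((localData S).r q) M) 1) :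
    w ∈ LinearMap.range (locH (localData S) M 1) ↔
      ∀ y : levelCohomology (globalLevel S) (M.dualTwist (cycloChar p)) 1,
        locDual (localData S) (evalPairing' (cycloChar p) M)
          (evalPairing'_equivariant (cycloChar p) M) 1 1 2 rfl tr w
          (locH (localData S) (M.dualTwist (cycloChar p)) 1 y) = 0 :=
  Fermat.Agent.S56.PT.MiddleExact.mem_range_locH_one_iff (localData S) (cycloChar p) tr M hmain w

/-- **Poitou–Tate, exactness at `∏_q H²(ℚ_q, M)`** for the frozen data. -/
theorem mem_range_locH_two_iff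
    (hmain : Fermat.Agent.S55.Main.MainConclusion (localData S) (cycloChar p) tr)
    (w : ∀ q, levelCohomology ((localData S).𝒱 q) (Rep.res ((localData S).r q) M) 2) :
    w ∈ LinearMap.range (locH (localData S) M 2) ↔
      ∀ y : levelCohomology (globalLevel S) (M.dualTwist (cycloChar p)) 0,
        locDual (localData S) (evalPairing (cycloChar p) M)
          (evalPairing_equivariant (cycloChar p) M) 0 2 2 rfl tr
          (locH (localData S) (M.dualTwist (cycloChar p)) 0 y) w = 0 := by
  have : Finite (localData S).ι := inferInstanceAs (Finite ↥S)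
  refine Fermat.Agent.S56.PT.MiddleExact.mem_range_locH_two_iff (localData S) (cycloChar p) tr M
    hmain (fun q => ?_) w
  intro _
  have : FiniteDimensional (ZMod p) (Rep.res ((localData S).r q) M) :=
    ‹FiniteDimensional (ZMod p) M›
  exact (Ψ_injective_of_restrict ((localData S).𝒱 q) ((cycloChar p).comp ((localData S).r q))
    (invAt (localData S) tr q) (hloc q) (Rep.res ((localData S).r q) M)).2.2

end PerModule

/-- the coefficient module `μ_p = 𝔽_p(χ_cyc)` is discrete for the level structure of `G_{ℚ,S}` -/
theorem isDiscrete_mu (hpS : pPrime p ∈ S) :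
    IsDiscrete (globalLevel S) (ofChar (k := ZMod p) (cycloChar p)) :=
  isDiscrete_ofChar_cycloChar S hpS

end Fermat.Agent.S56.PT.MainExport
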