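/-
S56 / block (II), Poitou–Tate consequences (helper25): THE INSTANCE.  The hypotheses `PTHyp` of
`S56/PT/Selmer.lean` for the local data `Assembly.localData S` (the full local Galois groups
`Gal(ℚ̄_q/ℚ_q)`, `q ∈ S`) and the cyclotomic character, from the output of S55 — and the finiteness
of the global `H¹`.  Consequently all the formulas of `Selmer.lean` hold unconditionally for
`G_S`-modules over `𝔽_p`.

* `localHyp S tr hloc`, `ptHyp_of_baseCase S tr hpS hbase hloc`;
* **`exists_tr_ptHyp S hp2 hpS : ∃ tr, PTHyp (localData S) (cycloChar p) tr`** (from helper17's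
  `MainExport.exists_tr_baseCase`);
* `finiteDimensional_global_one S hpS M`;
* `delta_formula_global` : the `δ`-formula of `Selmer.lean`, unconditionally.
-/
import Mathlib
import Fermat.Agent.S56.PT.Selmer
import Fermat.Agent.S55.Main
import Fermat.Agent.S55.Chain
import Fermat.Agent.S55.AssemblyCone
import Fermat.Agent.S55.AssemblyMain
import Fermat.Agent.S56.PT.MainExport
import Fermat.Agent.S55.Local.KummerFinite
import Fermat.Agent.S55.GL.KummerHyp

set_option autoImplicit false
set_option linter.unusedSectionVars false

namespace Fermat.Agent.S56.PT.Instance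

open CategoryTheory groupCohomology Rep Module ExtCitation
  Fermat.Agent.S55.Level Fermat.Agent.S55.Cone
  Fermat.Agent.S55.DualTwist Fermat.Agent.S55.Main Fermat.Agent.S55.LevelDuality
  Fermat.Agent.S55.Assembly
  Fermat.Agent.S56.PT.LocalDuality Fermat.Agent.S56.PT.Selmer

local notation "Qbar" => AlgebraicClosure ℚ
local notation "Γ" => (AlgebraicClosure ℚ ≃ₐ[ℚ] AlgebraicClosure ℚ)

variable {p : ℕ} [Fact p.Prime] (S : Finset Nat.Primes)

variable [IsDiscrete (globalLevel S) (ofChar (cycloChar p))]
  (tr : Hc (localData S) (ofChar (cycloChar p)) 3 →ₗ[ZMod p] ZMod p)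

/-- The local hypotheses for `localData S`. -/
theorem localHyp
    (hloc : ∀ q : (localData S).ι,
      LocalBaseHyp₁ ((localData S).𝒱 q) ((cycloChar p).comp ((localData S).r q))
        (invAt (localData S) tr q) (restrictFamily ((localData S).𝒱 q))
        (restrictFamily_refines ((localData S).𝒱 q))) :
    LocalHyp (localData S) (cycloChar p) tr where
  base := hloc
  fin := fun q X _ _ => by
    have : Finite X := Module.finite_of_finite (ZMod p)
    exact finiteDimensional_levelCohomology_one_of_zmod ((localData S).𝒱 q) X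
      (Fermat.Agent.S55.Local.KummerFinite.hlocal q.1)

/-- **`PTHyp` for `localData S`** from the base case of the global dévissage and local duality for
the coefficients `𝔽_p`. -/
theorem ptHyp_of_baseCase (hpS : pPrime p ∈ S)
    (hbase : BaseCase (localData S) (cycloChar p) tr)
    (hloc : ∀ q : (localData S).ι,
      LocalBaseHyp₁ ((localData S).𝒱 q) ((cycloChar p).comp ((localData S).r q))
        (invAt (localData S) tr q) (restrictFamily ((localData S).𝒱 q))
        (restrictFamily_refines ((localData S).𝒱 q))) :
    PTHyp (localData S) (cycloChar p) tr where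
  main :=
    have : Nonempty (localData S).ι := Fermat.Agent.S55.Chain.nonempty_localData_ι S hpS
    Fermat.Agent.S55.Main.main (localData S) (cycloChar p) tr hbase
  loc := localHyp S tr hloc

omit [IsDiscrete (globalLevel S) (ofChar (cycloChar p))] in
/-- `H¹(G_S, M)` is finite dimensional. -/
theorem finiteDimensional_global_one (hpS : pPrime p ∈ S) (M : Rep (ZMod p) Γ)
    [IsDiscrete (globalLevel S) M] [FiniteDimensional (ZMod p) M] :
    FiniteDimensional (ZMod p) (levelCohomology (globalLevel S) M 1) :=
  have : Finite M := Module.finite_of_finite (ZMod p)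
  finiteDimensional_levelCohomology_one_of_zmod (globalLevel S) M
    (Fermat.Agent.S55.GL.Kummer.hchars S hpS)

omit [IsDiscrete (globalLevel S) (ofChar (cycloChar p))] in
/-- **The Poitou–Tate package for `G_S`, unconditionally.** -/
theorem exists_tr_ptHyp (hp2 : p ≠ 2) (hpS : pPrime p ∈ S)
    [IsDiscrete (globalLevel S) (ofChar (k := ZMod p) (cycloChar p))] :
    ∃ tr : Hc (localData S) (ofChar (k := ZMod p) (cycloChar p)) 3 →ₗ[ZMod p] ZMod p,
      PTHyp (localData S) (cycloChar p) tr := by
  obtain ⟨tr, hbase, hloc⟩ := Fermat.Agent.S56.PT.MainExport.exists_tr_baseCase S hp2 hpS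
  exact ⟨tr, ptHyp_of_baseCase S tr hpS hbase hloc⟩

/-- **The `δ`-formula for `G_S`** (all dimensions over `𝔽_p`): for every family of local conditions
`𝓛` on a finite discrete `𝔽_p[G_S]`-module `M`,
`dim Sel_𝓛(M) + h²(G_S, M) + ∑_q h¹(ℚ_q, M) + h⁰(G_S, M')
  = dim Sel_{𝓛^⊥}(M') + h¹(G_S, M) + ∑_q dim 𝓛_q + ∑_q h⁰(ℚ_q, M')`. -/
theorem delta_formula_global (hpS : pPrime p ∈ S) (h : PTHyp (localData S) (cycloChar p) tr)
    (M : Rep (ZMod p) Γ) [FiniteDimensional (ZMod p) M]
    [IsDiscrete (globalLevel S) M] [IsDiscrete (globalLevel S) (M.dualTwist (cycloChar p))]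
    (𝓛 : LocalCond (localData S) M) :
    finrank (ZMod p) (Sel (localData S) M 𝓛) +
        finrank (ZMod p) (levelCohomology (globalLevel S) M 2) +
        ∑ v, finrank (ZMod p)
          (levelCohomology ((localData S).𝒱 v) (Rep.res ((localData S).r v) M) 1) +
        finrank (ZMod p) (levelCohomology (globalLevel S) (M.dualTwist (cycloChar p)) 0) =
      finrank (ZMod p) (Sel (localData S) (M.dualTwist (cycloChar p))
          (LocalCond.perp (localData S) (cycloChar p) tr M 𝓛)) +
        finrank (ZMod p) (levelCohomology (globalLevel S) M 1) + ∑ v, finrank (ZMod p) (𝓛 v) +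
        ∑ v, finrank (ZMod p) (levelCohomology ((localData S).𝒱 v)
          (Rep.res ((localData S).r v) (M.dualTwist (cycloChar p))) 0) := by
  have hfdM' : FiniteDimensional (ZMod p) (M.dualTwist (cycloChar p)) :=
    inferInstanceAs (FiniteDimensional (ZMod p) (Module.Dual (ZMod p) M))
  have h1 := finiteDimensional_global_one S hpS M
  have h1' := finiteDimensional_global_one S hpS (M.dualTwist (cycloChar p))
  have hne : Nonempty (localData S).ι := Fermat.Agent.S55.Chain.nonempty_localData_ι S hpS
  exact delta_formula' M h 𝓛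

end Fermat.Agent.S56.PT.Instance
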