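/-
S56 / block (II)+(H4) (helper25): a TRACE-FREE description of the orthogonal local conditions.

The orthogonal `LocalCond.perp D χ tr M 𝓛 v` of `Selmer` is defined through the local Tate pairing
`tatePairing D χ tr M v = invAt D tr v ∘ (cup product)`, and therefore depends a priori on the
trace `tr` (which comes out of `Instance.exists_tr_ptHyp` existentially, one for every finite set
of primes).  Under local duality (`LocalHyp`) the local invariant `invAt D tr v` is INJECTIVE
(`h²(G_v, k(χ)) = h⁰(G_v, k) = 1` and `invAt ≠ 0`), hence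

  `perp D χ tr M 𝓛 v = cupPerp D χ M v (𝓛 v) := {y | ∀ a ∈ 𝓛 v, a ∪ y = 0 in H²(G_v, k(χ))}`,

which does not involve `tr`.  For `S ⊆ T` and `q ∈ S` the subspaces `cupPerp (localData S) …` and
`cupPerp (localData T) …` at `q` are literally equal (`cupPerp_localData`), so the dual Selmer
conditions over `S` and over `T = S ∪ Q` agree at the primes of `S`
(hypothesis `hS` of `Inflation.mem_Sel_iff_of_subset` / `Inflation.Sel_eq_bot_of_iInf_killedAt`).

* `dualTwist_ofChar_ρ`, `finrank_two_ofChar`, `injective_of_monoDuality` (one level structure);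
* `cupPerp`, `mem_cupPerp`, `perp_eq_cupPerp`, `cupPerp_top` (`= ⊥`), `perp_top`;
* `cupPerp_localData`, `perp_localData_eq` (arithmetic instance).
-/
import Fermat.Agent.S56.PT.Unram
import Fermat.Agent.S56.PT.Selmer
import Fermat.Agent.S56.PT.LocalDuality
import Fermat.Agent.S55.AssemblyMain
import Fermat.Agent.S55.LocalAdapter

set_option autoImplicit false
set_option linter.unusedSectionVars false

namespace Fermat.Agent.S56.PT.PerpFree

open CategoryTheory groupCohomology Rep Module Fermat.Agent.S55.Level Fermat.Agent.S55.Cone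
  Fermat.Agent.S55.DualTwist Fermat.Agent.S55.LevelDuality Fermat.Agent.S56.PT.SelmerLinAlg
  Fermat.Agent.S56.PT.Selmer Fermat.Agent.S56.PT.LocalDuality Fermat.Agent.S55.Adapter

universe u

/-! ### One level structure: the invariant map of a duality is injective -/

section Generic

variable {k G : Type u} [Field k] [Group G] (𝒰 : LevelStructure G) (χ : G →* kˣ)
  [IsDiscrete 𝒰 (ofChar χ)] (t : levelCohomology 𝒰 (ofChar χ) 2 →ₗ[k] k)

/-- The twisted dual of `k(χ)` is the trivial representation. -/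
theorem dualTwist_ofChar_ρ (g : G) : ((ofChar χ).dualTwist χ).ρ g = 1 := by
  refine LinearMap.ext fun f => ?_
  refine LinearMap.ext (f := (((ofChar χ).dualTwist χ).ρ g f : Module.Dual k (ofChar χ)))
    (g := (f : Module.Dual k (ofChar χ))) fun a => ?_
  rw [dualTwist_ρ_apply_apply, ofChar_ρ_apply]
  have h1 : (f : Module.Dual k (ofChar χ)) (((χ g⁻¹ : kˣ) : k) * (a : k) : k) =
      ((χ g⁻¹ : kˣ) : k) * (f : Module.Dual k (ofChar χ)) a := by
    have := (f : Module.Dual k (ofChar χ)).map_smul ((χ g⁻¹ : kˣ) : k) a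
    exact this
  rw [h1, ← mul_assoc, ← Units.val_mul, ← map_mul, mul_inv_cancel, map_one, Units.val_one, one_mul]

variable {𝒰 χ t}

/-- Under local duality `H²(G, k(χ))` is one dimensional. -/
theorem finrank_two_ofChar (hΨ : MonoDuality 𝒰 χ t) :
    finrank k (levelCohomology 𝒰 (ofChar χ) 2) = 1 := by
  have hfd : FiniteDimensional k (ofChar χ) := inferInstanceAs (FiniteDimensional k k)
  have hd : IsDiscrete 𝒰 ((ofChar χ).dualTwist χ) := isDiscrete_dualTwist 𝒰 χ _
  rw [finrank_two_eq_zero hΨ (ofChar χ), Fermat.Agent.S56.PT.Unram.finrank_levelCohomology_zero]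
  have htop : ((ofChar χ).dualTwist χ).ρ.invariants = ⊤ := by
    rw [eq_top_iff]
    intro f _ g
    rw [dualTwist_ofChar_ρ]
    rfl
  rw [htop, finrank_top]
  show finrank k (Module.Dual k k) = 1
  rw [Subspace.dual_finrank_eq, finrank_self]

/-- **Under local duality the invariant map `t : H²(G, k(χ)) → k` is injective.** -/
theorem injective_of_monoDuality (hΨ : MonoDuality 𝒰 χ t) : Function.Injective t := by
  have hfd : FiniteDimensional k (ofChar χ) := inferInstanceAs (FiniteDimensional k k)
  have hd : IsDiscrete 𝒰 ((ofChar χ).dualTwist χ) := isDiscrete_dualTwist 𝒰 χ _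
  have h1 := finrank_two_ofChar hΨ
  have hfin : FiniteDimensional k (levelCohomology 𝒰 (ofChar χ) 2) :=
    Module.finite_of_finrank_pos (by rw [h1]; exact Nat.one_pos)
  -- `t ≠ 0`
  have ht : t ≠ 0 := by
    intro ht
    obtain ⟨a, ha⟩ : ∃ a : levelCohomology 𝒰 (ofChar χ) 2, a ≠ 0 := by
      have : Nontrivial (levelCohomology 𝒰 (ofChar χ) 2) :=
        Module.nontrivial_of_finrank_pos (R := k) (by rw [h1]; exact Nat.one_pos)
      exact exists_ne 0
    refine ha ((hΨ (ofChar χ)).2.2 ?_)
    rw [map_zero]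
    refine LinearMap.ext fun w => ?_
    rw [Ψ_apply, ht]
    rfl
  -- rank–nullity on a line
  rw [← LinearMap.ker_eq_bot]
  have hrn := LinearMap.finrank_range_add_finrank_ker t
  rw [h1] at hrn
  have hr : 0 < finrank k (LinearMap.range t) := by
    rw [Module.finrank_pos_iff_exists_ne_zero]
    obtain ⟨a, ha⟩ : ∃ a, t a ≠ 0 := by
      by_contra hcon
      push_neg at hcon
      exact ht (LinearMap.ext hcon)
    exact ⟨⟨t a, a, rfl⟩, fun h => ha (congrArg Subtype.val h)⟩
  have hk : finrank k (LinearMap.ker t) = 0 := by omega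
  exact Submodule.finrank_eq_zero.1 hk

end Generic

/-! ### The trace-free orthogonal -/

section Perp

variable {k G : Type u} [Field k] [Group G] {𝒰 : LevelStructure G}
  (D : LocalData 𝒰) [DecidableEq D.ι] [Fintype D.ι] (χ : G →* kˣ)
  [IsDiscrete 𝒰 (ofChar χ)] (tr : Hc D (ofChar χ) 3 →ₗ[k] k)
  (M : Rep.{u} k G) [IsDiscrete 𝒰 M] [FiniteDimensional k M] [IsDiscrete 𝒰 (M.dualTwist χ)]

/-- The trace-free orthogonal of a subspace `L ≤ H¹(G_v, M)`: the classes `y ∈ H¹(G_v, M')` with
`a ∪ y = 0` in `H²(G_v, k(χ))` for all `a ∈ L`. -/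
noncomputable def cupPerp (v : D.ι)
    (L : Submodule k (levelCohomology (D.𝒱 v) (Rep.res (D.r v) M) 1)) :
    Submodule k (levelCohomology (D.𝒱 v) (Rep.res (D.r v) (M.dualTwist χ)) 1) where
  carrier := {y | ∀ a ∈ L,
    cupLoc D (evalPairing' χ M) (evalPairing'_equivariant χ M) v 1 1 2 rfl a y = 0}
  add_mem' := fun {y y'} hy hy' a ha => by rw [map_add, hy a ha, hy' a ha, add_zero]
  zero_mem' := fun a _ => map_zero _
  smul_mem' := fun c y hy a ha => by rw [map_smul, hy a ha, smul_zero]

theorem mem_cupPerp {v : D.ι} {L : Submodule k (levelCohomology (D.𝒱 v) (Rep.res (D.r v) M) 1)}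
    {y : levelCohomology (D.𝒱 v) (Rep.res (D.r v) (M.dualTwist χ)) 1} :
    y ∈ cupPerp D χ M v L ↔ ∀ a ∈ L,
      cupLoc D (evalPairing' χ M) (evalPairing'_equivariant χ M) v 1 1 2 rfl a y = 0 := Iff.rfl

variable {D χ tr}

/-- The local invariants of a trace satisfying local duality are injective. -/
theorem invAt_injective (h : LocalHyp D χ tr) (v : D.ι) :
    Function.Injective (invAt D tr v) :=
  injective_of_monoDuality (𝒰 := D.𝒱 v) (χ := χ.comp (D.r v)) (t := invAt D tr v) (h.mono v)

/-- **The orthogonal local condition does not depend on the trace.** -/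
theorem perp_eq_cupPerp (h : LocalHyp D χ tr) (𝓛 : LocalCond D M) (v : D.ι) :
    LocalCond.perp D χ tr M 𝓛 v = cupPerp D χ M v (𝓛 v) := by
  ext y
  rw [LocalCond.mem_perp, mem_cupPerp]
  constructor
  · intro hy a ha
    have := hy a ha
    rw [tatePairing_apply] at this
    exact invAt_injective h v (this.trans (map_zero _).symm)
  · intro hy a ha
    rw [tatePairing_apply, hy a ha, map_zero]

/-- The orthogonal of the full local condition is zero. -/
theorem perp_top (h : LocalHyp D χ tr) (𝓛 : LocalCond D M) (v : D.ι) (hv : 𝓛 v = ⊤) :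
    LocalCond.perp D χ tr M 𝓛 v = ⊥ := by
  have hX : FiniteDimensional k ((Rep.res (D.r v) M).dualTwist (χ.comp (D.r v))) :=
    inferInstanceAs (FiniteDimensional k (Module.Dual k M))
  rw [eq_bot_iff]
  intro y hy
  rw [LocalCond.mem_perp, hv] at hy
  rw [Submodule.mem_bot]
  exact eq_zero_of_cupLoc_one_one D χ M tr v
    (h.mono v ((Rep.res (D.r v) M).dualTwist (χ.comp (D.r v)))).2.1 y fun a => by
      have := hy a Submodule.mem_top
      rwa [tatePairing_apply] at this

end Perp

/-! ### The arithmetic instance: `localData S` and `localData T` at a prime of `S ⊆ T` -/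

section Arith

open ExtCitation Fermat.Agent.S55.Assembly

local notation "Γ" => (AlgebraicClosure ℚ ≃ₐ[ℚ] AlgebraicClosure ℚ)

variable {p : ℕ} [Fact p.Prime] {S T : Finset Nat.Primes} (M : Rep (ZMod p) Γ)
  [FiniteDimensional (ZMod p) M]
  [IsDiscrete (globalLevel S) (ofChar (k := ZMod p) (cycloChar p))]
  [IsDiscrete (globalLevel T) (ofChar (k := ZMod p) (cycloChar p))]
  [IsDiscrete (globalLevel S) M] [IsDiscrete (globalLevel T) M]
  [IsDiscrete (globalLevel S) (M.dualTwist (cycloChar p))]
  [IsDiscrete (globalLevel T) (M.dualTwist (cycloChar p))]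

/-- The trace-free orthogonal at a prime `q ∈ S ⊆ T` is the same subspace whether computed in
`localData S` or in `localData T`. -/
theorem cupPerp_localData (hST : S ⊆ T) (q : Nat.Primes) (hq : q ∈ S)
    (L : Submodule (ZMod p) (levelCohomology ((localData S).𝒱 (⟨q, hq⟩ : ↥S))
      (Rep.res ((localData S).r (⟨q, hq⟩ : ↥S)) M) 1)) :
    cupPerp (localData T) (cycloChar p) M (⟨q, hST hq⟩ : ↥T) L =
      cupPerp (localData S) (cycloChar p) M (⟨q, hq⟩ : ↥S) L := rfl

/-- **The orthogonal local conditions over `S` and over `T ⊇ S` agree at the primes of `S`**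
(for ANY two traces satisfying local duality). -/
theorem perp_localData_eq (hST : S ⊆ T)
    {trS : Hc (localData S) (ofChar (k := ZMod p) (cycloChar p)) 3 →ₗ[ZMod p] ZMod p}
    {trT : Hc (localData T) (ofChar (k := ZMod p) (cycloChar p)) 3 →ₗ[ZMod p] ZMod p}
    (hS : LocalHyp (localData S) (cycloChar p) trS) (hT : LocalHyp (localData T) (cycloChar p) trT)
    (𝓛S : LocalCond (localData S) M) (𝓛T : LocalCond (localData T) M)
    (q : Nat.Primes) (hq : q ∈ S) (h𝓛 : 𝓛T (⟨q, hST hq⟩ : ↥T) = 𝓛S (⟨q, hq⟩ : ↥S)) :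
    LocalCond.perp (localData T) (cycloChar p) trT M 𝓛T (⟨q, hST hq⟩ : ↥T) =
      LocalCond.perp (localData S) (cycloChar p) trS M 𝓛S (⟨q, hq⟩ : ↥S) := by
  rw [perp_eq_cupPerp M hT, perp_eq_cupPerp M hS]
  exact (congrArg (cupPerp (localData T) (cycloChar p) M (⟨q, hST hq⟩ : ↥T)) h𝓛).trans
    (cupPerp_localData M hST q hq _)

end Arith

end Fermat.Agent.S56.PT.PerpFree
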