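/-
S56, block H1b of the blueprint (`moonshots` row 50), leaf (B) (helper27): **the instance of
helper17's hypothesis package `UnramData` for the local Galois groups.**

For every prime `q` and every Frobenius lift `φ ∈ G_q = primeLocalGaloisGroup q`
(`Places.Frob.IsLocalFrob q φ`; one exists by `Places.Frob.exists_isLocalFrob`):
`UnramData (localLevel (primeLocalToGlobal q)) (localInertia q) φ`, where `localInertia q` is
literally helper10's `Places.Dict.localInertia q`
(`= ((primeLocalPlace q).inertiaSubgroupIn ℚ).comap (primeLocalToGlobal q)`).
-/
import Fermat.Agent.S56.PT.Unram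
import Fermat.Agent.S56.Places.Frob

set_option autoImplicit false

namespace Fermat.Agent.S56.PT.UnramInst

open ExtCitation Fermat.Agent.S55.Level Fermat.Agent.S56.Places.Dict Fermat.Agent.S56.Places.Frob
open Fermat.Agent.S56.PT.Unram

/-- **the unramified package of the local group `G_q`** for a Frobenius lift `φ` -/
theorem unramData {q : Nat.Primes} {φ : primeLocalGaloisGroup q} (hφ : IsLocalFrob q φ) :
    UnramData (localLevel (primeLocalToGlobal q)) (localInertia q) φ where
  normal := localInertia_normal q
  gen := isLocalFrob_gen hφ
  div := isLocalFrob_div hφ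

/-- a Frobenius lift together with its package -/
theorem exists_unramData (q : Nat.Primes) :
    ∃ φ : primeLocalGaloisGroup q, IsLocalFrob q φ ∧
      UnramData (localLevel (primeLocalToGlobal q)) (localInertia q) φ := by
  obtain ⟨φ, hφ⟩ := exists_isLocalFrob q
  exact ⟨φ, hφ, unramData hφ⟩

end Fermat.Agent.S56.PT.UnramInst
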