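/-
S56 / block (II), leaf (U) (helper17), part 2: the unramified classes `Unram.H1ur` in the
vocabulary of `Selmer` (local conditions, `tatePairing`).

For local data `D` over `(G, 𝒰)`, a place `v`, and `UnramData (D.𝒱 v) I φ` on the local group:

* `H1urAt D M v I` : the unramified classes in `H¹(G_v, M)`;
* **(U2)** `tatePairing_eq_zero_of_mem_H1ur` : `⟨a, b⟩_v = 0` for `a ∈ H1ur(M)`, `b ∈ H1ur(M')`
  (NO hypothesis on the action of `I` on `M`);  `H1urAt_le_perp` : `H1ur(M') ≤ H1ur(M)^⊥`;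
* **(U3)** `cupLoc_lmap_left`, `tatePairing_lmap` : adjointness for adjoint coefficient maps
  (`f : X ⟶ Y` and `dualTwistMap χ f : Y' ⟶ X'`).
-/
import Fermat.Agent.S56.PT.Unram
import Fermat.Agent.S56.PT.Selmer

set_option autoImplicit false
set_option linter.unusedSectionVars false

namespace Fermat.Agent.S56.PT.UnramTate

open CategoryTheory groupCohomology Rep Module Fermat.Agent.S55.Level Fermat.Agent.S55.Cone
  Fermat.Agent.S55.DualTwist Fermat.Agent.S55.Main Fermat.Agent.S55.LevelDuality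
  Fermat.Agent.S55.CochainTools Fermat.Agent.S56.PT.SelmerLinAlg Fermat.Agent.S56.PT.Selmer
  Fermat.Agent.S56.PT.Unram

universe u

section CupLoc

variable {k G : Type u} [CommRing k] [Group G] {𝒰 : LevelStructure G} (D : LocalData 𝒰)

/-- The unramified classes in `H¹(G_v, M)` with respect to a subgroup `I` of the local group. -/
noncomputable abbrev H1urAt (M : Rep.{u} k G) [IsDiscrete 𝒰 M] (v : D.ι) (I : Subgroup (D.Gv v)) :
    Submodule k (levelCohomology (D.𝒱 v) (Rep.res (D.r v) M) 1) :=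
  H1ur (D.𝒱 v) I (Rep.res (D.r v) M)

variable {A B C : Rep.{u} k G} [IsDiscrete 𝒰 A] [IsDiscrete 𝒰 B] [IsDiscrete 𝒰 C]
  (ψ : A →ₗ[k] B →ₗ[k] C)
  (hψ : ∀ (g : G) (a : A) (b : B), ψ (A.ρ g a) (B.ρ g b) = C.ρ g (ψ a b))

/-- **(U2)** for the local cup product. -/
theorem cupLoc_eq_zero_of_mem_H1ur (v : D.ι) {I : Subgroup (D.Gv v)} {φ : D.Gv v}
    (hd : UnramData (D.𝒱 v) I φ) {N : ℕ} (hN : 0 < N) (hNk : (N : k) = 0)
    {a : levelCohomology (D.𝒱 v) (Rep.res (D.r v) A) 1} (ha : a ∈ H1urAt D A v I)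
    {b : levelCohomology (D.𝒱 v) (Rep.res (D.r v) B) 1} (hb : b ∈ H1urAt D B v I) :
    cupLoc D ψ hψ v 1 1 2 rfl a b = 0 :=
  pairH_eq_zero_of_mem_H1ur (resBilin D ψ v) (resBilin_equivariant D ψ hψ v) hd hN hNk ha hb

end CupLoc

section Adjoint

variable {k G : Type u} [CommRing k] [Group G] {𝒰 : LevelStructure G} (D : LocalData 𝒰)
  {A₁ A₂ B₁ B₂ C : Rep.{u} k G} [IsDiscrete 𝒰 A₁] [IsDiscrete 𝒰 A₂] [IsDiscrete 𝒰 B₁]
  [IsDiscrete 𝒰 B₂] [IsDiscrete 𝒰 C]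
  (φ₁ : A₁ →ₗ[k] B₁ →ₗ[k] C)
  (hφ₁ : ∀ (g : G) (a : A₁) (b : B₁), φ₁ (A₁.ρ g a) (B₁.ρ g b) = C.ρ g (φ₁ a b))
  (φ₂ : A₂ →ₗ[k] B₂ →ₗ[k] C)
  (hφ₂ : ∀ (g : G) (a : A₂) (b : B₂), φ₂ (A₂.ρ g a) (B₂.ρ g b) = C.ρ g (φ₂ a b))
  (f : A₁ ⟶ A₂) (f' : B₂ ⟶ B₁)
  (hadj : ∀ (a : A₁) (b : B₂), φ₂ (f.hom a) b = φ₁ a (f'.hom b))

include hadj in
/-- **(U3)** Adjointness of the local cup product for adjoint coefficient maps. -/
theorem cupLoc_lmap_left (v : D.ι) {m n p : ℕ} (h : m + n = p)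
    (x : levelCohomology (D.𝒱 v) (Rep.res (D.r v) A₁) m)
    (y : levelCohomology (D.𝒱 v) (Rep.res (D.r v) B₂) n) :
    cupLoc D φ₂ hφ₂ v m n p h (lmap (D.𝒱 v) ((Rep.resFunctor (D.r v)).map f) m x) y =
      cupLoc D φ₁ hφ₁ v m n p h x (lmap (D.𝒱 v) ((Rep.resFunctor (D.r v)).map f') n y) :=
  pairH_lmap_left (𝒰 := D.𝒱 v) (resBilin D φ₁ v) (resBilin_equivariant D φ₁ hφ₁ v)
    (resBilin D φ₂ v) (resBilin_equivariant D φ₂ hφ₂ v)
    ((Rep.resFunctor (D.r v)).map f) ((Rep.resFunctor (D.r v)).map f') hadj h x y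

end Adjoint

section Tate

variable {k G : Type u} [Field k] [Group G] {𝒰 : LevelStructure G}
  (D : LocalData 𝒰) [DecidableEq D.ι] [Fintype D.ι] (χ : G →* kˣ)
  [IsDiscrete 𝒰 (ofChar χ)] (tr : Hc D (ofChar χ) 3 →ₗ[k] k)

/-- **(U2)** The local Tate pairing of two unramified classes vanishes. -/
theorem tatePairing_eq_zero_of_mem_H1ur (M : Rep.{u} k G) [IsDiscrete 𝒰 M]
    [FiniteDimensional k M] [IsDiscrete 𝒰 (M.dualTwist χ)] (v : D.ι) {I : Subgroup (D.Gv v)}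
    {φ : D.Gv v} (hd : UnramData (D.𝒱 v) I φ) {N : ℕ} (hN : 0 < N) (hNk : (N : k) = 0)
    {a : levelCohomology (D.𝒱 v) (Rep.res (D.r v) M) 1} (ha : a ∈ H1urAt D M v I)
    {b : levelCohomology (D.𝒱 v) (Rep.res (D.r v) (M.dualTwist χ)) 1}
    (hb : b ∈ H1urAt D (M.dualTwist χ) v I) :
    tatePairing D χ tr M v a b = 0 := by
  rw [tatePairing_apply, cupLoc_eq_zero_of_mem_H1ur D _ _ v hd hN hNk ha hb, map_zero]

/-- The unramified classes of `M'` are orthogonal to the unramified classes of `M`. -/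
theorem H1urAt_le_perp (M : Rep.{u} k G) [IsDiscrete 𝒰 M] [FiniteDimensional k M]
    [IsDiscrete 𝒰 (M.dualTwist χ)] (I : ∀ v : D.ι, Subgroup (D.Gv v)) (v : D.ι) {φ : D.Gv v}
    (hd : UnramData (D.𝒱 v) (I v) φ) {N : ℕ} (hN : 0 < N) (hNk : (N : k) = 0) :
    H1urAt D (M.dualTwist χ) v (I v) ≤
      LocalCond.perp D χ tr M (fun w => H1urAt D M w (I w)) v := by
  intro b hb
  rw [LocalCond.mem_perp]
  intro a ha
  exact tatePairing_eq_zero_of_mem_H1ur D χ tr M v hd hN hNk ha hb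

/-- **(U3)** Naturality of the local Tate pairing: `⟨f_* a, b⟩_Y = ⟨a, (f')_* b⟩_X` for
`f : X ⟶ Y` and its twisted dual `f' : Y' ⟶ X'`. -/
theorem tatePairing_lmap {X Y : Rep.{u} k G} [IsDiscrete 𝒰 X] [FiniteDimensional k X]
    [IsDiscrete 𝒰 (X.dualTwist χ)] [IsDiscrete 𝒰 Y] [FiniteDimensional k Y]
    [IsDiscrete 𝒰 (Y.dualTwist χ)] (f : X ⟶ Y) (v : D.ι)
    (a : levelCohomology (D.𝒱 v) (Rep.res (D.r v) X) 1)
    (b : levelCohomology (D.𝒱 v) (Rep.res (D.r v) (Y.dualTwist χ)) 1) :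
    tatePairing D χ tr Y v (lmap (D.𝒱 v) ((Rep.resFunctor (D.r v)).map f) 1 a) b =
      tatePairing D χ tr X v a
        (lmap (D.𝒱 v) ((Rep.resFunctor (D.r v)).map (dualTwistMap χ f)) 1 b) := by
  rw [tatePairing_apply, tatePairing_apply]
  congr 1
  exact cupLoc_lmap_left D (evalPairing' χ X) (evalPairing'_equivariant χ X)
    (evalPairing' χ Y) (evalPairing'_equivariant χ Y) f (dualTwistMap χ f) (fun _ _ => rfl)
    v rfl a b

end Tate

end Fermat.Agent.S56.PT.UnramTate
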