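/-
S56 / block (II), leaf (U) (helper17), part (C): the unramified local conditions for the local data
`Assembly.localData S` over `𝔽_p`, ready for use (`Unram` + `UnramTate` + `UnramInst` plugged
together).

For `v ∈ S`, `I_v = Places.Dict.localInertia v.1` (the FROZEN inertia subgroup pulled back to `G_v`;
the instance of `UnramData` is helper27's `UnramInst.exists_unramData`):

* `H1urLoc S M v ≤ H¹(G_v, M)` : the unramified classes (`mem_H1urLoc_iff`);
* `finrank_H1urLoc` : `dim H1urLoc S M v = dim H⁰(G_v, M)`, `finiteDimensional_H1urLoc`;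
* `tatePairing_eq_zero_of_mem_H1urLoc` : `⟨a, b⟩_v = 0` for `a ∈ H1ur(M)`, `b ∈ H1ur(M')`
  (any `M`, ramified or not);  `H1urLoc_le_perp`.
-/
import Fermat.Agent.S56.PT.UnramTate
import Fermat.Agent.S56.PT.UnramInst
import Fermat.Agent.S55.AssemblyMain

set_option autoImplicit false
set_option linter.unusedSectionVars false

namespace Fermat.Agent.S56.PT.UnramLocal

open CategoryTheory groupCohomology Rep Module ExtCitation
  Fermat.Agent.S55.Level Fermat.Agent.S55.Cone
  Fermat.Agent.S55.DualTwist Fermat.Agent.S55.Main Fermat.Agent.S55.LevelDuality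
  Fermat.Agent.S55.Assembly Fermat.Agent.S56.PT.Selmer
  Fermat.Agent.S56.PT.Unram Fermat.Agent.S56.PT.UnramTate Fermat.Agent.S56.PT.UnramInst
  Fermat.Agent.S56.Places.Dict

local notation "Γ" => (AlgebraicClosure ℚ ≃ₐ[ℚ] AlgebraicClosure ℚ)

variable {p : ℕ} [Fact p.Prime] (S : Finset Nat.Primes)

/-- `UnramData` for the local group at `v ∈ S` of `Assembly.localData S`. -/
theorem exists_unramData_localData (v : (localData S).ι) :
    ∃ φ : (localData S).Gv v, UnramData ((localData S).𝒱 v) (localInertia v.1) φ := by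
  obtain ⟨φ, -, hφ⟩ := exists_unramData v.1
  exact ⟨φ, hφ⟩

/-- The unramified classes in `H¹(G_v, M)`, `v ∈ S`. -/
noncomputable abbrev H1urLoc (M : Rep (ZMod p) Γ) [IsDiscrete (globalLevel S) M]
    (v : (localData S).ι) :
    Submodule (ZMod p)
      (levelCohomology ((localData S).𝒱 v) (Rep.res ((localData S).r v) M) 1) :=
  H1urAt (localData S) M v (localInertia v.1)

theorem mem_H1urLoc_iff (M : Rep (ZMod p) Γ) [IsDiscrete (globalLevel S) M]
    (v : (localData S).ι)
    (x : levelCohomology ((localData S).𝒱 v) (Rep.res ((localData S).r v) M) 1) :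
    x ∈ H1urLoc S M v ↔
      ∃ z : levelCocycles₁ ((localData S).𝒱 v) (Rep.res ((localData S).r v) M),
        (∀ τ ∈ localInertia v.1, z.1 τ = 0) ∧
          levelH1π ((localData S).𝒱 v) (Rep.res ((localData S).r v) M) z = x :=
  Iff.rfl

/-- **(U1)** `dim H¹_ur(G_v, M) = dim H⁰(G_v, M)`. -/
theorem finrank_H1urLoc (M : Rep (ZMod p) Γ) [IsDiscrete (globalLevel S) M]
    [FiniteDimensional (ZMod p) M] (v : (localData S).ι) :
    finrank (ZMod p) (H1urLoc S M v) =
      finrank (ZMod p)
        (levelCohomology ((localData S).𝒱 v) (Rep.res ((localData S).r v) M) 0) := by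
  obtain ⟨φ, hd⟩ := exists_unramData_localData S v
  exact finrank_H1ur (Rep.res ((localData S).r v) M) hd
    (Fact.out : p.Prime).pos (ZMod.natCast_self p)

theorem finiteDimensional_H1urLoc (M : Rep (ZMod p) Γ) [IsDiscrete (globalLevel S) M]
    [FiniteDimensional (ZMod p) M] (v : (localData S).ι) :
    FiniteDimensional (ZMod p) (H1urLoc S M v) := by
  obtain ⟨φ, hd⟩ := exists_unramData_localData S v
  exact finiteDimensional_H1ur (Rep.res ((localData S).r v) M) hd

variable (χ : Γ →* (ZMod p)ˣ) [IsDiscrete (globalLevel S) (ofChar χ)]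
  (tr : Hc (localData S) (ofChar χ) 3 →ₗ[ZMod p] ZMod p)
  (M : Rep (ZMod p) Γ) [IsDiscrete (globalLevel S) M] [FiniteDimensional (ZMod p) M]
  [IsDiscrete (globalLevel S) (M.dualTwist χ)]

/-- **(U2)** The local Tate pairing of two unramified classes vanishes. -/
theorem tatePairing_eq_zero_of_mem_H1urLoc (v : (localData S).ι)
    {a : levelCohomology ((localData S).𝒱 v) (Rep.res ((localData S).r v) M) 1}
    (ha : a ∈ H1urLoc S M v)
    {b : levelCohomology ((localData S).𝒱 v)
      (Rep.res ((localData S).r v) (M.dualTwist χ)) 1}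
    (hb : b ∈ H1urLoc S (M.dualTwist χ) v) :
    tatePairing (localData S) χ tr M v a b = 0 := by
  obtain ⟨φ, hd⟩ := exists_unramData_localData S v
  exact tatePairing_eq_zero_of_mem_H1ur (localData S) χ tr M v hd
    (Fact.out : p.Prime).pos (ZMod.natCast_self p) ha hb

/-- The unramified classes of `M'` are orthogonal to the unramified classes of `M`. -/
theorem H1urLoc_le_perp (v : (localData S).ι) :
    H1urLoc S (M.dualTwist χ) v ≤
      LocalCond.perp (localData S) χ tr M (fun w => H1urLoc S M w) v := by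
  intro b hb
  rw [LocalCond.mem_perp]
  intro a ha
  exact tatePairing_eq_zero_of_mem_H1urLoc S χ tr M v ha hb

end Fermat.Agent.S56.PT.UnramLocal
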