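/-
S56 / block (II), Poitou–Tate consequences (helper25), leaves C8/C9 of the blueprint:
`H²(G, ·)` IS RIGHT EXACT and the Euler characteristic `χ̃ = h⁰ − h¹ + h²` IS ADDITIVE — without
any `H³`-vanishing.

Setting of `S56/PT/Selmer.lean` (`PTHyp D χ tr` = the output of S55), at least one place, and
finiteness of the global `H¹` (`FiniteH1 𝒰`).

* `finrank_Hc_one` : `dim Hc¹(A) + h⁰(G, A) = ∑_v h⁰(G_v, A) + dim Ш¹(A)` (cone sequence);
* `finrank_two_add` : `h²(G, M) + h⁰(G, M') = dim Ш¹(M') + ∑_v h⁰(G_v, M')`;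
* **`Phi_one_bijective`** (C8) : the duality map `Hc¹(M') → H²(G, M)^*` is BIJECTIVE;
* **`lmap_two_surjective`** (C9) : `H²(G, X₂) → H²(G, X₃)` is surjective for a short exact sequence;
* **`euler_additive`** : `χ̃(X₂) = χ̃(X₁) + χ̃(X₃)`, stated in `ℕ`;
* `lmap_two_surjective_global`, `euler_additive_global` : the same for finite discrete
  `𝔽_p[G_S]`-modules, unconditionally (`p` odd, `p ∈ S`).
-/
import Mathlib
import Fermat.Agent.S55.ConeStep
import Fermat.Agent.S55.LevelDuality
import Fermat.Agent.S56.PT.Selmer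
import Fermat.Agent.S56.PT.Instance

set_option autoImplicit false
set_option linter.unusedSectionVars false

namespace Fermat.Agent.S56.PT.EulerAdd

open CategoryTheory groupCohomology Rep Module Fermat.Agent.S55.Level Fermat.Agent.S55.Cone
  Fermat.Agent.S55.DualTwist Fermat.Agent.S55.Main Fermat.Agent.S55.LevelDuality
  Fermat.Agent.S56.PT.SelmerLinAlg Fermat.Agent.S56.PT.LocalDuality Fermat.Agent.S56.PT.Middle
  Fermat.Agent.S56.PT.Selmer

universe u

/-! ### Rank count in a nine term exact sequence -/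

section Nine

variable {k : Type*} [Field k] {V₁ V₂ V₃ V₄ V₅ V₆ V₇ V₈ V₉ : Type*}
  [AddCommGroup V₁] [Module k V₁] [AddCommGroup V₂] [Module k V₂] [AddCommGroup V₃] [Module k V₃]
  [AddCommGroup V₄] [Module k V₄] [AddCommGroup V₅] [Module k V₅] [AddCommGroup V₆] [Module k V₆]
  [AddCommGroup V₇] [Module k V₇] [AddCommGroup V₈] [Module k V₈] [AddCommGroup V₉] [Module k V₉]
  [FiniteDimensional k V₁] [FiniteDimensional k V₂] [FiniteDimensional k V₃]
  [FiniteDimensional k V₄] [FiniteDimensional k V₅] [FiniteDimensional k V₆]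
  [FiniteDimensional k V₇] [FiniteDimensional k V₈] [FiniteDimensional k V₉]

/-- The alternating sum of the dimensions in an exact sequence `0 → V₁ → ⋯ → V₉ → 0`. -/
theorem finrank_nine (a₁ : V₁ →ₗ[k] V₂) (a₂ : V₂ →ₗ[k] V₃) (a₃ : V₃ →ₗ[k] V₄) (a₄ : V₄ →ₗ[k] V₅)
    (a₅ : V₅ →ₗ[k] V₆) (a₆ : V₆ →ₗ[k] V₇) (a₇ : V₇ →ₗ[k] V₈) (a₈ : V₈ →ₗ[k] V₉)
    (h₁ : Function.Injective a₁) (e₁ : LinearMap.range a₁ = LinearMap.ker a₂)
    (e₂ : LinearMap.range a₂ = LinearMap.ker a₃) (e₃ : LinearMap.range a₃ = LinearMap.ker a₄)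
    (e₄ : LinearMap.range a₄ = LinearMap.ker a₅) (e₅ : LinearMap.range a₅ = LinearMap.ker a₆)
    (e₆ : LinearMap.range a₆ = LinearMap.ker a₇) (e₇ : LinearMap.range a₇ = LinearMap.ker a₈)
    (h₈ : Function.Surjective a₈) :
    finrank k V₁ + finrank k V₃ + finrank k V₅ + finrank k V₇ + finrank k V₉ =
      finrank k V₂ + finrank k V₄ + finrank k V₆ + finrank k V₈ := by
  have r₁ := LinearMap.finrank_range_add_finrank_ker a₁
  have r₂ := LinearMap.finrank_range_add_finrank_ker a₂
  have r₃ := LinearMap.finrank_range_add_finrank_ker a₃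
  have r₄ := LinearMap.finrank_range_add_finrank_ker a₄
  have r₅ := LinearMap.finrank_range_add_finrank_ker a₅
  have r₆ := LinearMap.finrank_range_add_finrank_ker a₆
  have r₇ := LinearMap.finrank_range_add_finrank_ker a₇
  have r₈ := LinearMap.finrank_range_add_finrank_ker a₈
  have k₁ : finrank k (LinearMap.ker a₁) = 0 := by
    rw [LinearMap.ker_eq_bot.2 h₁]
    exact finrank_bot k V₁
  have k₉ : finrank k (LinearMap.range a₈) = finrank k V₉ := by
    rw [LinearMap.range_eq_top.2 h₈]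
    exact finrank_top k V₉
  rw [e₁] at r₁
  rw [e₂] at r₂
  rw [e₃] at r₃
  rw [e₄] at r₄
  rw [e₅] at r₅
  rw [e₆] at r₆
  rw [e₇] at r₇
  omega

end Nine

variable {k G : Type u} [Field k] [Group G] {𝒰 : LevelStructure G}

/-! ### The cone sequence in low degrees -/

section ConeCount

variable (D : LocalData 𝒰) [Fintype D.ι] [Nonempty D.ι] (A : Rep.{u} k G) [IsDiscrete 𝒰 A]
  [FiniteDimensional k A] [FiniteDimensional k (levelCohomology 𝒰 A 1)]

/-- `Hc¹(A)` is finite dimensional. -/
theorem finiteDimensional_Hc_one : FiniteDimensional k (Hc D A 1) := by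
  have h0 : ∀ v, FiniteDimensional k (levelCohomology (D.𝒱 v) (Rep.res (D.r v) A) 0) := fun v =>
    have : FiniteDimensional k (Rep.res (D.r v) A) := ‹FiniteDimensional k A›
    finiteDimensional_levelCohomology_zero _ _
  have hker : FiniteDimensional k (LinearMap.ker (HcToH D A 1)) := by
    rw [ker_HcToH_eq_range_HcBd]
    infer_instance
  have hquot : FiniteDimensional k (Hc D A 1 ⧸ LinearMap.ker (HcToH D A 1)) :=
    (HcToH D A 1).quotKerEquivRange.symm.finiteDimensional
  exact Module.Finite.of_submodule_quotient (LinearMap.ker (HcToH D A 1))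

/-- `dim Hc¹(A) + h⁰(G, A) = ∑_v h⁰(G_v, A) + dim Ш¹(A)`. -/
theorem finrank_Hc_one :
    finrank k (Hc D A 1) + finrank k (levelCohomology 𝒰 A 0) =
      ∑ v, finrank k (levelCohomology (D.𝒱 v) (Rep.res (D.r v) A) 0) +
        finrank k (LinearMap.ker (locH D A 1)) := by
  have h0 : ∀ v, FiniteDimensional k (levelCohomology (D.𝒱 v) (Rep.res (D.r v) A) 0) := fun v =>
    have : FiniteDimensional k (Rep.res (D.r v) A) := ‹FiniteDimensional k A›
    finiteDimensional_levelCohomology_zero _ _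
  have hG0 : FiniteDimensional k (levelCohomology 𝒰 A 0) :=
    finiteDimensional_levelCohomology_zero 𝒰 A
  have hc := finiteDimensional_Hc_one D A
  have r1 : finrank k (LinearMap.ker (locH D A 1)) + finrank k (LinearMap.range (HcBd D A 0)) =
      finrank k (Hc D A 1) := by
    rw [ker_locH_eq_range_HcToH, ← ker_HcToH_eq_range_HcBd]
    exact LinearMap.finrank_range_add_finrank_ker (HcToH D A 1)
  have r2 : finrank k (LinearMap.range (HcBd D A 0)) + finrank k (LinearMap.range (locH D A 0)) =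
      ∑ v, finrank k (levelCohomology (D.𝒱 v) (Rep.res (D.r v) A) 0) := by
    rw [← ker_HcBd_eq_range_locH, ← Module.finrank_pi_fintype]
    exact LinearMap.finrank_range_add_finrank_ker (HcBd D A 0)
  have r3 : finrank k (LinearMap.range (locH D A 0)) = finrank k (levelCohomology 𝒰 A 0) :=
    LinearMap.finrank_range_of_inj (locH_zero_injective D A)
  omega

end ConeCount

/-! ### `Φ¹` is bijective -/

section Bijective

variable {D : LocalData 𝒰} [DecidableEq D.ι] [Fintype D.ι] [Nonempty D.ι] {χ : G →* kˣ}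
  [IsDiscrete 𝒰 (ofChar χ)] {tr : Hc D (ofChar χ) 3 →ₗ[k] k}
  (M : Rep.{u} k G) [IsDiscrete 𝒰 M] [FiniteDimensional k M] [IsDiscrete 𝒰 (M.dualTwist χ)]
  (h : PTHyp D χ tr)
  [FiniteDimensional k (levelCohomology 𝒰 M 1)]
  [FiniteDimensional k (levelCohomology 𝒰 (M.dualTwist χ) 1)]

include h

/-- `h²(G, M) + h⁰(G, M') = dim Ш¹(M') + ∑_v h⁰(G_v, M')`. -/
theorem finrank_two_add :
    finrank k (levelCohomology 𝒰 M 2) + finrank k (levelCohomology 𝒰 (M.dualTwist χ) 0) =
      finrank k (LinearMap.ker (locH D (M.dualTwist χ) 1)) +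
        ∑ v, finrank k (levelCohomology (D.𝒱 v) (Rep.res (D.r v) (M.dualTwist χ)) 0) := by
  have hfdM' : FiniteDimensional k (M.dualTwist χ) :=
    inferInstanceAs (FiniteDimensional k (Module.Dual k M))
  have hH2 := finiteDimensional_two_global M h
  have hH0' : FiniteDimensional k (levelCohomology 𝒰 (M.dualTwist χ) 0) :=
    finiteDimensional_levelCohomology_zero 𝒰 _
  have hP2 := finiteDimensional_prod h M 2 le_rfl
  have hP0' := finiteDimensional_prod h (M.dualTwist χ) 0 (by norm_num)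
  have h2 : ∀ v, FiniteDimensional k (levelCohomology (D.𝒱 v) (Rep.res (D.r v) M) 2) :=
    fun v => finiteDimensional_loc M h.loc v 2 le_rfl
  have e2 := (finrank_sha M h).2
  have e3 := LinearMap.finrank_range_add_finrank_ker (locH D M 2)
  have e4 := finrank_range_add_finrank_range (locH D (M.dualTwist χ) 0) (locH D M 2)
    (locDual D (evalPairing χ M) (evalPairing_equivariant χ M) 0 2 2 rfl tr)
    (locDual_bijective_zero_two M h.loc) (mem_range_locH_zero_iff D χ tr h.main M)
  rw [Module.finrank_pi_fintype] at e4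
  have e5 : finrank k (LinearMap.range (locH D (M.dualTwist χ) 0)) =
      finrank k (levelCohomology 𝒰 (M.dualTwist χ) 0) :=
    LinearMap.finrank_range_of_inj (locH_zero_injective D (M.dualTwist χ))
  have e6 : ∑ v, finrank k (levelCohomology (D.𝒱 v) (Rep.res (D.r v) M) 2) =
      ∑ v, finrank k (levelCohomology (D.𝒱 v) (Rep.res (D.r v) (M.dualTwist χ)) 0) :=
    Finset.sum_congr rfl fun v _ => finrank_loc_two_eq M h.loc v
  omega

/-- `dim Hc¹(M') = h²(G, M)`. -/
theorem finrank_Hc_one_dualTwist :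
    finrank k (Hc D (M.dualTwist χ) 1) = finrank k (levelCohomology 𝒰 M 2) := by
  have hfdM' : FiniteDimensional k (M.dualTwist χ) :=
    inferInstanceAs (FiniteDimensional k (Module.Dual k M))
  have e1 := finrank_Hc_one D (M.dualTwist χ)
  have e2 := finrank_two_add M h
  omega

/-- **C8: the global duality map `Hc¹(M') → H²(G, M)^*` is bijective.** -/
theorem Phi_one_bijective :
    Function.Bijective (Phi D (evalPairing χ M) (evalPairing_equivariant χ M) 1 2 3 rfl tr) := by
  have hfdM' : FiniteDimensional k (M.dualTwist χ) :=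
    inferInstanceAs (FiniteDimensional k (Module.Dual k M))
  have hH2 := finiteDimensional_two_global M h
  have hc := finiteDimensional_Hc_one D (M.dualTwist χ)
  have hinj := (injective_Phi_of_main D χ tr h.main M).1
  refine ⟨hinj, (LinearMap.injective_iff_surjective_of_finrank_eq_finrank ?_).1 hinj⟩
  rw [Subspace.dual_finrank_eq]
  exact finrank_Hc_one_dualTwist M h

end Bijective

/-! ### `H²` is right exact -/

section RightExact

open ShortComplex

variable {D : LocalData 𝒰} [DecidableEq D.ι] [Fintype D.ι] [Nonempty D.ι] {χ : G →* kˣ}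
  [IsDiscrete 𝒰 (ofChar χ)] {tr : Hc D (ofChar χ) 3 →ₗ[k] k}
  {S : ShortComplex (Rep.{u} k G)} [IsDiscrete 𝒰 S.X₁] [IsDiscrete 𝒰 S.X₂] [IsDiscrete 𝒰 S.X₃]
  [FiniteDimensional k S.X₁] [FiniteDimensional k S.X₂] [FiniteDimensional k S.X₃]
  (h : PTHyp D χ tr) (hfin : FiniteH1 (k := k) 𝒰) (hS : S.ShortExact)

include h hfin hS

/-- **C9: `H²(G, X₂) → H²(G, X₃)` is surjective** for a short exact sequence
`0 → X₁ → X₂ → X₃ → 0` of finite dimensional discrete representations. -/
theorem lmap_two_surjective : Function.Surjective (lmap 𝒰 S.g 2) := by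
  have hd1 : IsDiscrete 𝒰 (S.X₁.dualTwist χ) := isDiscrete_dualTwist 𝒰 χ _
  have hd2 : IsDiscrete 𝒰 (S.X₂.dualTwist χ) := isDiscrete_dualTwist 𝒰 χ _
  have hd3 : IsDiscrete 𝒰 (S.X₃.dualTwist χ) := isDiscrete_dualTwist 𝒰 χ _
  have hf3' : FiniteDimensional k (S.X₃.dualTwist χ) :=
    inferInstanceAs (FiniteDimensional k (Module.Dual k S.X₃))
  have h13 := hfin S.X₃
  have h13' := hfin (S.X₃.dualTwist χ)
  have hΦ3 := (Phi_one_bijective S.X₃ h).2
  have hΦ2 := (injective_Phi_of_main D χ tr h.main S.X₂).1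
  have hinj : Function.Injective (HcMap D (dualTwistMap χ S.g) 1) :=
    HcMap_f_one_injective D (X := dualSeq χ S) (dualSeq_shortExact χ hS)
  have hadj : ∀ (x : Hc D (S.X₃.dualTwist χ) 1) (y : levelCohomology 𝒰 S.X₂ 2),
      Phi D (evalPairing χ S.X₂) (evalPairing_equivariant χ S.X₂) 1 2 3 rfl tr
          (HcMap D (dualTwistMap χ S.g) 1 x) y =
        Phi D (evalPairing χ S.X₃) (evalPairing_equivariant χ S.X₃) 1 2 3 rfl tr x
          (lmap 𝒰 S.g 2 y) :=
    fun x y => Phi_adjoint D (evalPairing χ S.X₃) (evalPairing_equivariant χ S.X₃)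
      (evalPairing χ S.X₂) (evalPairing_equivariant χ S.X₂) (dualTwistMap χ S.g) S.g
      (fun _ _ => rfl) 1 2 3 rfl tr x y
  rw [← LinearMap.dualMap_injective_iff]
  intro e e' hee'
  obtain ⟨x, rfl⟩ := hΦ3 e
  obtain ⟨x', rfl⟩ := hΦ3 e'
  have hxx' : x = x' := by
    apply hinj
    apply hΦ2
    ext y
    rw [hadj, hadj]
    exact LinearMap.congr_fun hee' y
  rw [hxx']

/-- **Additivity of the Euler characteristic** `χ̃ = h⁰ − h¹ + h²` on short exact sequences of
finite dimensional discrete representations. -/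
theorem euler_additive :
    finrank k (levelCohomology 𝒰 S.X₂ 0) + finrank k (levelCohomology 𝒰 S.X₂ 2) +
        finrank k (levelCohomology 𝒰 S.X₁ 1) + finrank k (levelCohomology 𝒰 S.X₃ 1) =
      finrank k (levelCohomology 𝒰 S.X₁ 0) + finrank k (levelCohomology 𝒰 S.X₁ 2) +
        finrank k (levelCohomology 𝒰 S.X₃ 0) + finrank k (levelCohomology 𝒰 S.X₃ 2) +
        finrank k (levelCohomology 𝒰 S.X₂ 1) := by
  have hd1 : IsDiscrete 𝒰 (S.X₁.dualTwist χ) := isDiscrete_dualTwist 𝒰 χ _
  have hd2 : IsDiscrete 𝒰 (S.X₂.dualTwist χ) := isDiscrete_dualTwist 𝒰 χ _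
  have hd3 : IsDiscrete 𝒰 (S.X₃.dualTwist χ) := isDiscrete_dualTwist 𝒰 χ _
  have hf1' : FiniteDimensional k (S.X₁.dualTwist χ) :=
    inferInstanceAs (FiniteDimensional k (Module.Dual k S.X₁))
  have hf2' : FiniteDimensional k (S.X₂.dualTwist χ) :=
    inferInstanceAs (FiniteDimensional k (Module.Dual k S.X₂))
  have hf3' : FiniteDimensional k (S.X₃.dualTwist χ) :=
    inferInstanceAs (FiniteDimensional k (Module.Dual k S.X₃))
  have h01 := finiteDimensional_levelCohomology_zero 𝒰 S.X₁
  have h02 := finiteDimensional_levelCohomology_zero 𝒰 S.X₂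
  have h03 := finiteDimensional_levelCohomology_zero 𝒰 S.X₃
  have h11 := hfin S.X₁
  have h12 := hfin S.X₂
  have h13 := hfin S.X₃
  have h11' := hfin (S.X₁.dualTwist χ)
  have h12' := hfin (S.X₂.dualTwist χ)
  have h13' := hfin (S.X₃.dualTwist χ)
  have h21 := finiteDimensional_two_global S.X₁ h
  have h22 := finiteDimensional_two_global S.X₂ h
  have h23 := finiteDimensional_two_global S.X₃ h
  have hf : Function.Injective S.f.hom := (Rep.mono_iff_injective S.f).1 hS.mono_f
  have key := finrank_nine (lmap 𝒰 S.f 0) (lmap 𝒰 S.g 0) (levelδ 𝒰 hS 0 1 rfl).hom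
    (lmap 𝒰 S.f 1) (lmap 𝒰 S.g 1) (levelδ 𝒰 hS 1 2 rfl).hom (lmap 𝒰 S.f 2) (lmap 𝒰 S.g 2)
    (homologyMap_levelMap_zero_injective 𝒰 S.f hf)
    ((ShortComplex.moduleCat_exact_iff_range_eq_ker _).1 (level_exact₂ 𝒰 hS 0))
    ((ShortComplex.moduleCat_exact_iff_range_eq_ker _).1 (level_exact₃ 𝒰 hS 0 1 rfl))
    ((ShortComplex.moduleCat_exact_iff_range_eq_ker _).1 (level_exact₁ 𝒰 hS 0 1 rfl))
    ((ShortComplex.moduleCat_exact_iff_range_eq_ker _).1 (level_exact₂ 𝒰 hS 1))
    ((ShortComplex.moduleCat_exact_iff_range_eq_ker _).1 (level_exact₃ 𝒰 hS 1 2 rfl))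
    ((ShortComplex.moduleCat_exact_iff_range_eq_ker _).1 (level_exact₁ 𝒰 hS 1 2 rfl))
    ((ShortComplex.moduleCat_exact_iff_range_eq_ker _).1 (level_exact₂ 𝒰 hS 2))
    (lmap_two_surjective h hfin hS)
  omega

end RightExact

/-! ### The instance `G_S` -/

section Global

open ShortComplex ExtCitation Fermat.Agent.S55.Assembly

local notation "Γ" => (AlgebraicClosure ℚ ≃ₐ[ℚ] AlgebraicClosure ℚ)

variable {p : ℕ} [Fact p.Prime] (S : Finset Nat.Primes)

/-- `H¹(G_S, X)` is finite for every finite discrete `𝔽_p[G_S]`-module. -/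
theorem finiteH1_global (hpS : pPrime p ∈ S) : FiniteH1 (k := ZMod p) (globalLevel S) :=
  fun X _ _ => Instance.finiteDimensional_global_one S hpS X

variable {X : ShortComplex (Rep (ZMod p) Γ)} [IsDiscrete (globalLevel S) X.X₁]
  [IsDiscrete (globalLevel S) X.X₂] [IsDiscrete (globalLevel S) X.X₃]
  [FiniteDimensional (ZMod p) X.X₁] [FiniteDimensional (ZMod p) X.X₂]
  [FiniteDimensional (ZMod p) X.X₃]

/-- **`H²(G_S, ·)` is right exact** on finite discrete `𝔽_p[G_S]`-modules. -/
theorem lmap_two_surjective_global (hp2 : p ≠ 2) (hpS : pPrime p ∈ S) (hX : X.ShortExact) :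
    Function.Surjective (lmap (globalLevel S) X.g 2) := by
  have hμ : IsDiscrete (globalLevel S) (ofChar (k := ZMod p) (cycloChar p)) :=
    isDiscrete_ofChar_cycloChar S hpS
  have hne : Nonempty (localData S).ι := Fermat.Agent.S55.Chain.nonempty_localData_ι S hpS
  obtain ⟨tr, h⟩ := Instance.exists_tr_ptHyp S hp2 hpS
  exact lmap_two_surjective h (finiteH1_global S hpS) hX

/-- **The Euler characteristic `h⁰ − h¹ + h²` of `G_S` is additive** on short exact sequences of
finite discrete `𝔽_p[G_S]`-modules. -/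
theorem euler_additive_global (hp2 : p ≠ 2) (hpS : pPrime p ∈ S) (hX : X.ShortExact) :
    finrank (ZMod p) (levelCohomology (globalLevel S) X.X₂ 0) +
        finrank (ZMod p) (levelCohomology (globalLevel S) X.X₂ 2) +
        finrank (ZMod p) (levelCohomology (globalLevel S) X.X₁ 1) +
        finrank (ZMod p) (levelCohomology (globalLevel S) X.X₃ 1) =
      finrank (ZMod p) (levelCohomology (globalLevel S) X.X₁ 0) +
        finrank (ZMod p) (levelCohomology (globalLevel S) X.X₁ 2) +
        finrank (ZMod p) (levelCohomology (globalLevel S) X.X₃ 0) +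
        finrank (ZMod p) (levelCohomology (globalLevel S) X.X₃ 2) +
        finrank (ZMod p) (levelCohomology (globalLevel S) X.X₂ 1) := by
  have hμ : IsDiscrete (globalLevel S) (ofChar (k := ZMod p) (cycloChar p)) :=
    isDiscrete_ofChar_cycloChar S hpS
  have hne : Nonempty (localData S).ι := Fermat.Agent.S55.Chain.nonempty_localData_ι S hpS
  obtain ⟨tr, h⟩ := Instance.exists_tr_ptHyp S hp2 hpS
  exact euler_additive h (finiteH1_global S hpS) hX

/-- `H²(G_S, X)` is finite for every finite discrete `𝔽_p[G_S]`-module. -/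
theorem finiteDimensional_two_global' (hp2 : p ≠ 2) (hpS : pPrime p ∈ S) (Y : Rep (ZMod p) Γ)
    [IsDiscrete (globalLevel S) Y] [FiniteDimensional (ZMod p) Y] :
    FiniteDimensional (ZMod p) (levelCohomology (globalLevel S) Y 2) := by
  have hμ : IsDiscrete (globalLevel S) (ofChar (k := ZMod p) (cycloChar p)) :=
    isDiscrete_ofChar_cycloChar S hpS
  have hd : IsDiscrete (globalLevel S) (Y.dualTwist (cycloChar p)) :=
    isDiscrete_dualTwist (globalLevel S) (cycloChar p) Y
  have hfd' : FiniteDimensional (ZMod p) (Y.dualTwist (cycloChar p)) :=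
    inferInstanceAs (FiniteDimensional (ZMod p) (Module.Dual (ZMod p) Y))
  have h1 := Instance.finiteDimensional_global_one S hpS Y
  have h1' := Instance.finiteDimensional_global_one S hpS (Y.dualTwist (cycloChar p))
  obtain ⟨tr, h⟩ := Instance.exists_tr_ptHyp S hp2 hpS
  exact finiteDimensional_two_global Y h

end Global

end Fermat.Agent.S56.PT.EulerAdd
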