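/-
S56 / block (II), leaf (U) (helper17), complement for E-MIN (`Loc/Minimal.lean`, recipe of the
dispatcher): the reduction "a ramified class pairs to zero with every unramified class as soon as
its image in a quotient `X̄` is unramified", in one call.

Setting: `(G, 𝒰)`, `I ≤ G` normal, `UnramData 𝒰 I φ`; discrete representations `A, B, C` with an
equivariant pairing `φ : A × B → C`; LOCAL modules `X̄, Ȳ` with an equivariant pairing
`ψ : X̄ × Ȳ → C`; morphisms `π : A ⟶ X̄`, `j : Ȳ ⟶ B` adjoint for `(ψ, φ)`, `j` injective with image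
containing the `I`-fixed vectors of `B`.  Then for `a ∈ H¹(A)` with `π_* a ∈ H1ur X̄` and every
`b ∈ H1ur B`:  `a ∪ b = 0` in `H²(C)`.

* `pairH_eq_zero_of_lmap_mem_H1ur` : the abstract form;
* `cupLoc_eq_zero_of_lmap_mem_H1ur`, `tatePairing_eq_zero_of_lmap_mem_H1ur` : the forms for local
  data `D` at a place `v` (the modules `A, B, C` restricted from the global group, `X̄, Ȳ` arbitrary
  discrete modules of the local group).
-/
import Fermat.Agent.S56.PT.UnramTate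

set_option autoImplicit false
set_option linter.unusedSectionVars false

namespace Fermat.Agent.S56.PT.UnramMin

open CategoryTheory groupCohomology Rep Module Fermat.Agent.S55.Level Fermat.Agent.S55.Cone
  Fermat.Agent.S55.DualTwist Fermat.Agent.S55.Main Fermat.Agent.S55.LevelDuality
  Fermat.Agent.S55.CochainTools Fermat.Agent.S56.PT.Selmer
  Fermat.Agent.S56.PT.Unram Fermat.Agent.S56.PT.UnramTate

universe u

section Abstract

variable {k G : Type u} [CommRing k] [Group G] {𝒰 : LevelStructure G} {I : Subgroup G} {φ₀ : G}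
  {A B C X Y : Rep.{u} k G} [IsDiscrete 𝒰 A] [IsDiscrete 𝒰 B] [IsDiscrete 𝒰 C] [IsDiscrete 𝒰 X]
  [IsDiscrete 𝒰 Y]
  (φ : A →ₗ[k] B →ₗ[k] C)
  (hφ : ∀ (g : G) (a : A) (b : B), φ (A.ρ g a) (B.ρ g b) = C.ρ g (φ a b))
  (ψ : X →ₗ[k] Y →ₗ[k] C)
  (hψ : ∀ (g : G) (x : X) (y : Y), ψ (X.ρ g x) (Y.ρ g y) = C.ρ g (ψ x y))
  (π : A ⟶ X) (j : Y ⟶ B)
  (hadj : ∀ (a : A) (y : Y), ψ (π.hom a) y = φ a (j.hom y))

include hadj hψ in
/-- **The E-MIN reduction**, abstract form. -/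
theorem pairH_eq_zero_of_lmap_mem_H1ur (hd : UnramData 𝒰 I φ₀) {N : ℕ} (hN : 0 < N)
    (hNk : (N : k) = 0) (hj : Function.Injective j.hom)
    (hr : ∀ b ∈ invI I B, ∃ y : Y, j.hom y = b)
    {a : levelCohomology 𝒰 A 1} (ha : lmap 𝒰 π 1 a ∈ H1ur 𝒰 I X)
    {b : levelCohomology 𝒰 B 1} (hb : b ∈ H1ur 𝒰 I B) :
    (levelPairing 𝒰 φ hφ).pairH 1 1 2 rfl a b = 0 := by
  obtain ⟨b₀, hb₀, rfl⟩ := H1ur_le_map_lmap j hd.normal hj hr hb
  rw [← pairH_lmap_left φ hφ ψ hψ π j hadj rfl a b₀]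
  exact pairH_eq_zero_of_mem_H1ur ψ hψ hd hN hNk ha hb₀

end Abstract

section Local

variable {k G : Type u} [CommRing k] [Group G] {𝒰 : LevelStructure G} (D : LocalData 𝒰)
  {A B C : Rep.{u} k G} [IsDiscrete 𝒰 A] [IsDiscrete 𝒰 B] [IsDiscrete 𝒰 C]
  (φ : A →ₗ[k] B →ₗ[k] C)
  (hφ : ∀ (g : G) (a : A) (b : B), φ (A.ρ g a) (B.ρ g b) = C.ρ g (φ a b))
  (v : D.ι) {I : Subgroup (D.Gv v)} {φ₀ : D.Gv v}
  {X Y : Rep.{u} k (D.Gv v)} [IsDiscrete (D.𝒱 v) X] [IsDiscrete (D.𝒱 v) Y]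
  (ψ : X →ₗ[k] Y →ₗ[k] Rep.res (D.r v) C)
  (hψ : ∀ (g : D.Gv v) (x : X) (y : Y),
    ψ (X.ρ g x) (Y.ρ g y) = (Rep.res (D.r v) C).ρ g (ψ x y))
  (π : Rep.res (D.r v) A ⟶ X) (j : Y ⟶ Rep.res (D.r v) B)
  (hadj : ∀ (a : Rep.res (D.r v) A) (y : Y), ψ (π.hom a) y = resBilin D φ v a (j.hom y))

include hadj hψ in
/-- **The E-MIN reduction** for the local cup product at `v`. -/
theorem cupLoc_eq_zero_of_lmap_mem_H1ur (hd : UnramData (D.𝒱 v) I φ₀) {N : ℕ} (hN : 0 < N)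
    (hNk : (N : k) = 0) (hj : Function.Injective j.hom)
    (hr : ∀ b ∈ invI I (Rep.res (D.r v) B), ∃ y : Y, j.hom y = b)
    {a : levelCohomology (D.𝒱 v) (Rep.res (D.r v) A) 1}
    (ha : lmap (D.𝒱 v) π 1 a ∈ H1ur (D.𝒱 v) I X)
    {b : levelCohomology (D.𝒱 v) (Rep.res (D.r v) B) 1} (hb : b ∈ H1urAt D B v I) :
    cupLoc D φ hφ v 1 1 2 rfl a b = 0 :=
  pairH_eq_zero_of_lmap_mem_H1ur (resBilin D φ v) (resBilin_equivariant D φ hφ v) ψ hψ π j hadj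
    hd hN hNk hj hr ha hb

end Local

section Tate

variable {k G : Type u} [Field k] [Group G] {𝒰 : LevelStructure G}
  (D : LocalData 𝒰) [DecidableEq D.ι] [Fintype D.ι] (χ : G →* kˣ)
  [IsDiscrete 𝒰 (ofChar χ)] (tr : Hc D (ofChar χ) 3 →ₗ[k] k)
  (M : Rep.{u} k G) [IsDiscrete 𝒰 M] [FiniteDimensional k M] [IsDiscrete 𝒰 (M.dualTwist χ)]
  (v : D.ι) {I : Subgroup (D.Gv v)} {φ₀ : D.Gv v}
  {X Y : Rep.{u} k (D.Gv v)} [IsDiscrete (D.𝒱 v) X] [IsDiscrete (D.𝒱 v) Y]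
  (ψ : X →ₗ[k] Y →ₗ[k] Rep.res (D.r v) (ofChar χ))
  (hψ : ∀ (g : D.Gv v) (x : X) (y : Y),
    ψ (X.ρ g x) (Y.ρ g y) = (Rep.res (D.r v) (ofChar χ)).ρ g (ψ x y))
  (π : Rep.res (D.r v) M ⟶ X) (j : Y ⟶ Rep.res (D.r v) (M.dualTwist χ))
  (hadj : ∀ (a : Rep.res (D.r v) M) (y : Y),
    ψ (π.hom a) y = resBilin D (evalPairing' χ M) v a (j.hom y))

include hadj hψ in
/-- **The E-MIN reduction** for the local Tate pairing: if the image of `a ∈ H¹(G_v, M)` in the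
quotient `X̄` is unramified, then `a` is orthogonal to all the unramified classes of `M'`. -/
theorem tatePairing_eq_zero_of_lmap_mem_H1ur (hd : UnramData (D.𝒱 v) I φ₀) {N : ℕ} (hN : 0 < N)
    (hNk : (N : k) = 0) (hj : Function.Injective j.hom)
    (hr : ∀ b ∈ invI I (Rep.res (D.r v) (M.dualTwist χ)), ∃ y : Y, j.hom y = b)
    {a : levelCohomology (D.𝒱 v) (Rep.res (D.r v) M) 1}
    (ha : lmap (D.𝒱 v) π 1 a ∈ H1ur (D.𝒱 v) I X)
    {b : levelCohomology (D.𝒱 v) (Rep.res (D.r v) (M.dualTwist χ)) 1}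
    (hb : b ∈ H1urAt D (M.dualTwist χ) v I) :
    tatePairing D χ tr M v a b = 0 := by
  rw [tatePairing_apply, cupLoc_eq_zero_of_lmap_mem_H1ur D (evalPairing' χ M)
    (evalPairing'_equivariant χ M) v ψ hψ π j hadj hd hN hNk hj hr ha hb, map_zero]

end Tate

end Fermat.Agent.S56.PT.UnramMin
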